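import Fermat.Agent.Degen.Square

/-!
# The degeneracy maps between levels `N` and `N q`

For a prime `q ∤ N`: the pull-backs `resH`, `degQ` from level `N` to level `N q`, their sum `alpha`,
the Atkin–Lehner involution `thetaH` at `q` exchanging them, and `betaMap` (the two corestrictions)
in the other direction. Main identities: `corH_degQ` (corestriction after `degQ` is `T_q`),
`resH_corH` (restriction after corestriction is `1 + U_q ∘ thetaH`), `betaMap_alpha`, and
`heckeH_sq_of_betaMap_eq_zero` (`U_q ^ 2 = 1` on the kernel of `betaMap`).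
-/

set_option autoImplicit false
set_option linter.unusedSectionVars false

open CongruenceSubgroup ModularCurve.Period
open scoped MatrixGroups
open FLTAgent.HeckeH (M2 matOf mkGamma0 heckeBeta heckeIdx)

noncomputable section

namespace FLTAgent.Ihara

variable (N q : ℕ) [NeZero N] [Fact q.Prime]

instance instNeZeroPrime : NeZero q := ⟨(Fact.out : q.Prime).ne_zero⟩

theorem dvd_one_mul' : N * 1 ∣ N * q := by simp

theorem dvd_self_mul' : N * q ∣ N * q := dvd_rfl

/-- The inclusion `Γ₀(N q) → Γ₀(N)`. -/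
def inclHom : Gamma0 (N * q) →* Gamma0 N := Degen.degHom 1 (dvd_one_mul' N q)

/-- `(a, b; c, e) ↦ (a, q b; c / q, e)`. -/
def iqHom : Gamma0 (N * q) →* Gamma0 N := Degen.degHom q (dvd_self_mul' N q)

theorem coe_inclHom (γ : Gamma0 (N * q)) : (inclHom N q γ : SL(2, ℤ)) = (γ : SL(2, ℤ)) :=
  Degen.degHom_one_coe _ _

theorem matOf_inclHom (γ : Gamma0 (N * q)) : matOf (inclHom N q γ) = matOf γ :=
  congrArg (fun g : SL(2, ℤ) => (g : M2)) (coe_inclHom N q γ)

theorem dMat_mul_iqHom (γ : Gamma0 (N * q)) :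
    Degen.dMat q * matOf γ = matOf (iqHom N q γ) * Degen.dMat q :=
  Degen.dMat_mul_degHom q _ γ

/-- `t` with `q t - N y = 1`. -/
def atT : ℤ := Int.gcdA q N

/-- `y` with `q t - N y = 1`. -/
def atY : ℤ := -Int.gcdB q N

variable {N q}

section Theta

variable (hqN : ¬ q ∣ N)
include hqN

theorem at_eq : (q : ℤ) * atT N q - N * atY N q = 1 := by
  have h := Int.gcd_eq_gcd_ab (q : ℤ) (N : ℤ)
  have h1 : Int.gcd (q : ℤ) (N : ℤ) = 1 := by
    simpa [Int.gcd] using ((Fact.out : q.Prime).coprime_iff_not_dvd.mpr hqN)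
  rw [h1] at h
  rw [atT, atY]
  push_cast at h
  linear_combination -h

/-- `W = ω' diag(q, 1)`. -/
def omegaL : Gamma0 N :=
  mkGamma0 1 (atY N q) N ((q : ℤ) * atT N q) (by linear_combination at_eq hqN) dvd_rfl

/-- `diag(q, 1) W = q ω`. -/
def omegaR : Gamma0 N :=
  mkGamma0 (q : ℤ) (atY N q) N (atT N q) (by linear_combination at_eq hqN) dvd_rfl

theorem dMat_omegaL_dMat :
    Degen.dMat q * (matOf (omegaL hqN) * Degen.dMat q) = (q : ℤ) • matOf (omegaR hqN) := by
  rw [omegaL, omegaR, HeckeH.matOf_mkGamma0, HeckeH.matOf_mkGamma0, Degen.dMat,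
    Matrix.mul_fin_two, Matrix.mul_fin_two]
  ext i j
  fin_cases i <;> fin_cases j <;> simp [mul_comm, mul_left_comm]

/-- The conjugation by the Atkin-Lehner matrix at `q`, with values in `Γ₀(N)`. -/
def thetaAux : Gamma0 (N * q) →* Gamma0 N :=
  (MulAut.conj (omegaL hqN)).toMonoidHom.comp (iqHom N q)

theorem thetaAux_apply (γ : Gamma0 (N * q)) :
    thetaAux hqN γ = omegaL hqN * iqHom N q γ * (omegaL hqN)⁻¹ := rfl

theorem dMat_thetaAux (γ : Gamma0 (N * q)) :
    Degen.dMat q * matOf (thetaAux hqN γ) =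
      matOf (omegaR hqN * inclHom N q γ * (omegaR hqN)⁻¹) * Degen.dMat q := by
  have hd : (matOf (omegaL hqN) * Degen.dMat q).det ≠ 0 := by
    rw [Matrix.det_mul, HeckeH.det_matOf, one_mul]; exact Degen.det_dMat
  refine HeckeH.mul_right_cancel_of_det_ne hd ?_
  have h1 : matOf (thetaAux hqN γ) * (matOf (omegaL hqN) * Degen.dMat q) =
      matOf (omegaL hqN) * Degen.dMat q * matOf γ := by
    rw [← Matrix.mul_assoc, ← HeckeH.matOf_mul, thetaAux_apply, inv_mul_cancel_right,
      HeckeH.matOf_mul, Matrix.mul_assoc, ← dMat_mul_iqHom, ← Matrix.mul_assoc]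
  rw [Matrix.mul_assoc, h1, ← Matrix.mul_assoc, dMat_omegaL_dMat, Matrix.smul_mul,
    Matrix.mul_assoc, dMat_omegaL_dMat, Matrix.mul_smul, ← HeckeH.matOf_mul, inv_mul_cancel_right,
    HeckeH.matOf_mul, matOf_inclHom]

theorem thetaAux_mem (γ : Gamma0 (N * q)) :
    ((thetaAux hqN γ : Gamma0 N) : SL(2, ℤ)) ∈ Gamma0 (N * q) := by
  rw [Gamma0_mem, ZMod.intCast_zmod_eq_zero_iff_dvd]
  set y := omegaR hqN * inclHom N q γ * (omegaR hqN)⁻¹ with hy
  have h := congrFun (congrFun (dMat_thetaAux hqN γ) 1) 0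
  rw [← hy] at h
  simp [Degen.dMat, Matrix.mul_apply, Fin.sum_univ_two] at h
  show ((N * q : ℕ) : ℤ) ∣ matOf (thetaAux hqN γ) 1 0
  rw [h]
  push_cast
  exact mul_dvd_mul_right (HeckeH.matOf_dvd y) _

/-- Conjugation by the Atkin-Lehner matrix at `q` on `Γ₀(N q)`. -/
def theta : Gamma0 (N * q) →* Gamma0 (N * q) :=
  ((Gamma0 N).subtype.comp (thetaAux hqN)).codRestrict _ (thetaAux_mem hqN)

theorem inclHom_theta (γ : Gamma0 (N * q)) :
    inclHom N q (theta hqN γ) = omegaL hqN * iqHom N q γ * (omegaL hqN)⁻¹ :=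
  Subtype.ext (coe_inclHom N q _)

theorem iqHom_theta (γ : Gamma0 (N * q)) :
    iqHom N q (theta hqN γ) = omegaR hqN * inclHom N q γ * (omegaR hqN)⁻¹ := by
  refine HeckeH.matOf_injective (HeckeH.mul_right_cancel_of_det_ne (Degen.det_dMat (d := q)) ?_)
  rw [← dMat_mul_iqHom]
  exact dMat_thetaAux hqN γ

/-- `W² = q γ₀`. -/
def thetaSqElt : Gamma0 (N * q) :=
  ⟨((omegaL hqN * omegaR hqN : Gamma0 N) : SL(2, ℤ)), by
    rw [Gamma0_mem, ZMod.intCast_zmod_eq_zero_iff_dvd]
    show ((N * q : ℕ) : ℤ) ∣ matOf (omegaL hqN * omegaR hqN) 1 0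
    rw [HeckeH.matOf_mul, omegaL, omegaR, HeckeH.matOf_mkGamma0, HeckeH.matOf_mkGamma0,
      Matrix.mul_fin_two]
    simp
    exact ⟨atT N q, by ring⟩⟩

theorem theta_theta (γ : Gamma0 (N * q)) :
    theta hqN (theta hqN γ) = thetaSqElt hqN * γ * (thetaSqElt hqN)⁻¹ := by
  have h : inclHom N q (theta hqN (theta hqN γ)) =
      (omegaL hqN * omegaR hqN) * inclHom N q γ * (omegaL hqN * omegaR hqN)⁻¹ := by
    rw [inclHom_theta, iqHom_theta, mul_inv_rev]
    simp only [mul_assoc]
  refine Subtype.ext ?_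
  rw [← coe_inclHom N q, h]
  simp [thetaSqElt, coe_inclHom]

theorem trace_theta (γ : Gamma0 (N * q)) :
    (matOf (theta hqN γ)).trace = (matOf γ).trace := by
  rw [← matOf_inclHom, inclHom_theta, HeckeH.matOf_mul, Matrix.trace_mul_comm,
    ← HeckeH.matOf_mul, inv_mul_cancel_left]
  exact Degen.trace_degHom q _ γ

end Theta

section H

variable (N q) (R A : Type*) [Semiring R] [AddCommGroup A] [Module R A]

/-- Restriction to `Γ₀(N q)`. -/
abbrev resH : Period.H N R A →ₗ[R] Period.H (N * q) R A :=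
  Degen.degH R A 1 (dvd_one_mul' N q)

/-- The second degeneracy map. -/
abbrev degQ : Period.H N R A →ₗ[R] Period.H (N * q) R A :=
  Degen.degH R A q (dvd_self_mul' N q)

theorem resH_apply (φ : Period.H N R A) (γ : Gamma0 (N * q)) :
    (resH N q R A φ : Additive (Gamma0 (N * q)) →+ A) (Additive.ofMul γ) =
      (φ : Additive (Gamma0 N) →+ A) (Additive.ofMul (inclHom N q γ)) := rfl

theorem degQ_apply (φ : Period.H N R A) (γ : Gamma0 (N * q)) :
    (degQ N q R A φ : Additive (Gamma0 (N * q)) →+ A) (Additive.ofMul γ) =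
      (φ : Additive (Gamma0 N) →+ A) (Additive.ofMul (iqHom N q γ)) := rfl

variable {N q} (hqN : ¬ q ∣ N)

/-- The Atkin-Lehner involution at `q` on `H (N q)`. -/
def thetaH : Period.H (N * q) R A →ₗ[R] Period.H (N * q) R A where
  toFun φ := ⟨(φ : Additive (Gamma0 (N * q)) →+ A).comp (MonoidHom.toAdditive (theta hqN)),
    ⟨fun γ hγ => Period.H_parabolic φ (γ := theta hqN γ) (by
        show (matOf (theta hqN γ)).trace ^ 2 = 4
        rw [trace_theta]
        exact hγ),
      fun _ hγ => Period.H_finOrder φ ((theta hqN).isOfFinOrder hγ)⟩⟩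
  map_add' _ _ := rfl
  map_smul' _ _ := rfl

theorem thetaH_apply (φ : Period.H (N * q) R A) (γ : Gamma0 (N * q)) :
    (thetaH R A hqN φ : Additive (Gamma0 (N * q)) →+ A) (Additive.ofMul γ) =
      (φ : Additive (Gamma0 (N * q)) →+ A) (Additive.ofMul (theta hqN γ)) := rfl

theorem thetaH_resH (φ : Period.H N R A) :
    thetaH R A hqN (resH N q R A φ) = degQ N q R A φ := by
  refine Subtype.ext (AddMonoidHom.ext fun γ => ?_)
  obtain ⟨γ, rfl⟩ := Additive.ofMul.surjective γ
  rw [thetaH_apply, resH_apply, degQ_apply, inclHom_theta]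
  simp only [ofMul_mul, ofMul_inv, map_add, map_neg]
  abel

theorem thetaH_degQ (φ : Period.H N R A) :
    thetaH R A hqN (degQ N q R A φ) = resH N q R A φ := by
  refine Subtype.ext (AddMonoidHom.ext fun γ => ?_)
  obtain ⟨γ, rfl⟩ := Additive.ofMul.surjective γ
  rw [thetaH_apply, resH_apply, degQ_apply, iqHom_theta]
  simp only [ofMul_mul, ofMul_inv, map_add, map_neg]
  abel

theorem thetaH_thetaH (φ : Period.H (N * q) R A) :
    thetaH R A hqN (thetaH R A hqN φ) = φ := by
  refine Subtype.ext (AddMonoidHom.ext fun γ => ?_)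
  obtain ⟨γ, rfl⟩ := Additive.ofMul.surjective γ
  rw [thetaH_apply, thetaH_apply, theta_theta]
  simp only [ofMul_mul, ofMul_inv, map_add, map_neg]
  abel

/-- The map from two copies of level `N` to level `N q`. -/
def alpha : Period.H N R A × Period.H N R A →ₗ[R] Period.H (N * q) R A :=
  (resH N q R A).coprod (degQ N q R A)

theorem alpha_apply (p : Period.H N R A × Period.H N R A) :
    alpha (N := N) (q := q) R A p = resH N q R A p.1 + degQ N q R A p.2 := rfl

/-- The map from level `N q` to two copies of level `N`. -/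
def betaMap : Period.H (N * q) R A →ₗ[R] Period.H N R A × Period.H N R A :=
  (Degen.corH R A).prod ((Degen.corH R A).comp (thetaH R A hqN))

theorem betaMap_apply (φ : Period.H (N * q) R A) :
    betaMap R A hqN φ = (Degen.corH R A φ, Degen.corH R A (thetaH R A hqN φ)) := rfl

include hqN in
/-- A kernel pair of `alpha` also satisfies the transposed relation. -/
theorem alpha_swap {φ ψ : Period.H N R A}
    (h : alpha (q := q) R A (φ, ψ) = 0) : alpha (q := q) R A (ψ, φ) = 0 := by
  have := congrArg (thetaH R A hqN) h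
  rw [alpha_apply, map_add, thetaH_resH, thetaH_degQ, map_zero] at this
  rw [alpha_apply, add_comm]
  exact this

end H

/-! ### Representatives of the cosets -/

section Cosets

variable (N q)

/-- `(1, i; N, N i + 1)`. -/
def gRep (i : ℤ) : Gamma0 N := mkGamma0 1 i N ((N : ℤ) * i + 1) (by ring) dvd_rfl

/-- The representatives of `Γ₀(N q) \ Γ₀(N)`. -/
def gOf : Option (Fin q) → Gamma0 N
  | none => 1
  | some i => gRep N i

variable {N q}

theorem cast_N_ne_zero (hqN : ¬ q ∣ N) : ((N : ℤ) : ZMod q) ≠ 0 := by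
  rw [Int.cast_natCast, Ne, ZMod.natCast_eq_zero_iff]
  exact hqN

theorem mem_subG0_iff (x : Gamma0 N) :
    x ∈ Degen.subG0 N (N * q) ↔ ((N * q : ℕ) : ℤ) ∣ matOf x 1 0 := by
  rw [Degen.subG0, Subgroup.mem_subgroupOf, Gamma0_mem, ZMod.intCast_zmod_eq_zero_iff_dvd]
  rfl

theorem inclHom_mem_subG0 (γ : Gamma0 (N * q)) : inclHom N q γ ∈ Degen.subG0 N (N * q) := by
  rw [mem_subG0_iff, matOf_inclHom]
  exact HeckeH.matOf_dvd γ

theorem matOf_inv (x : Gamma0 N) : matOf x⁻¹ = (matOf x).adjugate :=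
  Matrix.SpecialLinearGroup.coe_inv _

/-- The coset of the inverse of a representative. -/
def cosOf (o : Option (Fin q)) : Gamma0 N ⧸ Degen.subG0 N (N * q) := ((gOf N q o)⁻¹ : Gamma0 N)

variable (hqN : ¬ q ∣ N)
include hqN

theorem cosOf_bijective : Function.Bijective (cosOf (N := N) (q := q)) := by
  have hN0 : (N : ℤ) ≠ 0 := by exact_mod_cast NeZero.ne N
  have hNq : ∀ x : ℤ, ((N * q : ℕ) : ℤ) ∣ (N : ℤ) * x ↔ (x : ZMod q) = 0 := fun x => by
    push_cast
    rw [mul_dvd_mul_iff_left hN0, ZMod.intCast_zmod_eq_zero_iff_dvd]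
  have hne : ∀ i : ℤ, gRep N i ∉ Degen.subG0 N (N * q) := fun i hi => by
    rw [mem_subG0_iff, gRep, HeckeH.matOf_mkGamma0] at hi
    simp only [Matrix.of_apply, Matrix.cons_val', Matrix.cons_val_zero, Matrix.cons_val_one,
      Matrix.cons_val_fin_one] at hi
    rw [← mul_one ((N : ℤ)), hNq] at hi
    simp at hi
  constructor
  · rintro (_ | i) (_ | j) h
    · rfl
    · refine absurd ?_ (hne (j : ℕ))
      rw [cosOf, cosOf, QuotientGroup.eq] at h
      simpa [gOf] using h
    · refine absurd ?_ (hne (i : ℕ))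
      rw [cosOf, cosOf, QuotientGroup.eq] at h
      simpa [gOf] using h
    · rw [cosOf, cosOf, QuotientGroup.eq, inv_inv] at h
      simp only [gOf] at h
      rw [mem_subG0_iff, HeckeH.matOf_mul, matOf_inv, gRep, gRep, HeckeH.matOf_mkGamma0,
        HeckeH.matOf_mkGamma0, Matrix.adjugate_fin_two_of, Matrix.mul_fin_two] at h
      simp only [Matrix.of_apply, Matrix.cons_val', Matrix.cons_val_zero, Matrix.cons_val_one,
        Matrix.cons_val_fin_one] at h
      have h' : ((N * q : ℕ) : ℤ) ∣ (N : ℤ) * ((N : ℤ) * ((j : ℕ) - (i : ℕ))) := by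
        convert h using 1; ring
      rw [hNq, Int.cast_mul, mul_eq_zero, or_iff_right (cast_N_ne_zero hqN)] at h'
      push_cast at h'
      rw [sub_eq_zero] at h'
      refine congrArg some (Fin.ext ?_)
      have := congrArg ZMod.val h'
      rwa [ZMod.val_cast_of_lt j.2, ZMod.val_cast_of_lt i.2, eq_comm] at this
  · intro x
    induction x using QuotientGroup.induction_on with
    | H g =>
      by_cases hg : g ∈ Degen.subG0 N (N * q)
      · exact ⟨none, by rw [cosOf, QuotientGroup.eq]; simpa [gOf] using hg⟩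
      · obtain ⟨c, hc⟩ := HeckeH.matOf_dvd g
        have hc0 : ((c : ℤ) : ZMod q) ≠ 0 := fun h0 => hg (by rwa [mem_subG0_iff, hc, hNq])
        set z : ZMod q := -(((matOf g 0 0 : ℤ) : ZMod q) / c + 1) / ((N : ℤ) : ZMod q) with hz
        refine ⟨some ⟨z.val, ZMod.val_lt z⟩, ?_⟩
        rw [cosOf, QuotientGroup.eq, inv_inv]
        simp only [gOf]
        rw [mem_subG0_iff, HeckeH.matOf_mul, gRep, HeckeH.matOf_mkGamma0, Matrix.mul_apply,
          Fin.sum_univ_two]
        simp only [Matrix.of_apply, Matrix.cons_val', Matrix.cons_val_zero, Matrix.cons_val_one,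
          Matrix.cons_val_fin_one]
        have hrw : (N : ℤ) * matOf g 0 0 + ((N : ℤ) * (z.val : ℕ) + 1) * matOf g 1 0 =
            (N : ℤ) * (matOf g 0 0 + ((N : ℤ) * (z.val : ℕ) + 1) * c) := by rw [hc]; ring
        rw [hrw, hNq]
        push_cast
        have hNz : ((N : ℤ) : ZMod q) ≠ 0 := cast_N_ne_zero hqN
        rw [ZMod.natCast_zmod_val, hz]
        push_cast at hNz ⊢
        field_simp
        ring

/-- The cosets of `Γ₀(N q)` in `Γ₀(N)`. -/
def cosEquiv : Option (Fin q) ≃ Gamma0 N ⧸ Degen.subG0 N (N * q) :=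
  Equiv.ofBijective _ (cosOf_bijective hqN)

theorem cosEquiv_apply (o : Option (Fin q)) : cosEquiv hqN o = ((gOf N q o)⁻¹ : Gamma0 N) := rfl

/-- The permutation of the representatives attached to an element of `Γ₀(N)`. -/
def cosPerm (γ : Gamma0 N) : Equiv.Perm (Option (Fin q)) :=
  ((cosEquiv hqN).trans (MulAction.toPerm γ⁻¹)).trans (cosEquiv hqN).symm

theorem cosPerm_mem (γ : Gamma0 N) (o : Option (Fin q)) :
    gOf N q o * γ * (gOf N q (cosPerm hqN γ o))⁻¹ ∈ Degen.subG0 N (N * q) := by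
  have h : cosEquiv hqN (cosPerm hqN γ o) = γ⁻¹ • cosEquiv hqN o := by simp [cosPerm]
  rw [cosEquiv_apply, cosEquiv_apply] at h
  change _ = ((γ⁻¹ * (gOf N q o)⁻¹ : Gamma0 N) : Gamma0 N ⧸ Degen.subG0 N (N * q)) at h
  rw [eq_comm, QuotientGroup.eq] at h
  simpa [mul_assoc] using h

/-- The factor of `γ` at a representative. -/
def cosCoc (γ : Gamma0 N) (o : Option (Fin q)) : Gamma0 (N * q) :=
  ⟨(gOf N q o * γ * (gOf N q (cosPerm hqN γ o))⁻¹ : Gamma0 N), cosPerm_mem hqN γ o⟩

theorem inclHom_cosCoc (γ : Gamma0 N) (o : Option (Fin q)) :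
    inclHom N q (cosCoc hqN γ o) = gOf N q o * γ * (gOf N q (cosPerm hqN γ o))⁻¹ :=
  Subtype.ext (coe_inclHom N q _)

theorem corFun_eq_sum {A : Type*} [AddCommGroup A] (φ : Additive (Gamma0 (N * q)) →+ A)
    (γ : Gamma0 N) :
    Degen.corFun (N := N) φ (Additive.ofMul γ) =
      ∑ o, φ (Additive.ofMul (cosCoc hqN γ o)) := by
  classical
  have := Fintype.ofFinite (Gamma0 N ⧸ Degen.subG0 N (N * q))
  rw [Degen.corFun_apply φ (fun x => (gOf N q ((cosEquiv hqN).symm x))⁻¹)
    (fun x => (cosEquiv_apply hqN _).symm.trans ((cosEquiv hqN).apply_symm_apply x)) γ]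
  refine (Fintype.sum_equiv (cosEquiv hqN) _ _ fun o => ?_).symm
  refine congrArg (fun x => φ (Additive.ofMul x)) (Subtype.ext (Subtype.ext ?_))
  simp [cosCoc, cosPerm, mul_assoc]

/-! ### The representatives under the Atkin-Lehner matrix -/

theorem exists_eps (i : Fin q) :
    ∃ (e : Gamma0 (N * q)) (j : Fin q), matOf (omegaL hqN) * Degen.dMat q * matOf (gRep N (i : ℕ)) =
      matOf e * !![(1 : ℤ), ((j : ℕ) : ℤ); 0, (q : ℤ)] := by
  have heq := at_eq hqN
  obtain ⟨e, j, hj⟩ := HeckeH.exists_heckeBeta (N := N * q) (ℓ := q) Fact.out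
    (matOf (omegaL hqN) * Degen.dMat q * matOf (gRep N (i : ℕ)))
    (by rw [Matrix.det_mul, Matrix.det_mul, HeckeH.det_matOf, HeckeH.det_matOf, Degen.dMat,
      Matrix.det_fin_two_of]; simp)
    (by
      rw [omegaL, gRep, HeckeH.matOf_mkGamma0, HeckeH.matOf_mkGamma0, Degen.dMat,
        Matrix.mul_fin_two, Matrix.mul_fin_two]
      simp
      exact ⟨atT N q, by ring⟩)
    (by
      rw [omegaL, gRep, HeckeH.matOf_mkGamma0, HeckeH.matOf_mkGamma0, Degen.dMat,
        Matrix.mul_fin_two, Matrix.mul_fin_two]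
      simp
      refine IsCoprime.mul_right ⟨atT N q, -atY N q * (1 + atT N q) + 0, ?_⟩ ⟨-1, 1 + atT N q, ?_⟩
      · linear_combination heq - (atY N q) * heq * 0
      · linear_combination heq)
  obtain ⟨_ | j, hj'⟩ := j
  · exact absurd (dvd_mul_left q N) (hj' rfl)
  · exact ⟨e, j, by rw [hj, HeckeH.heckeBeta_some]⟩

/-- The index matched with a representative by the Atkin-Lehner matrix. -/
def sigmaIdx (i : Fin q) : Fin q := (exists_eps hqN i).choose_spec.choose

/-- The unit part of `W g_i`. -/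
def epsElt (i : Fin q) : Gamma0 (N * q) := (exists_eps hqN i).choose

theorem eps_spec (i : Fin q) :
    matOf (omegaL hqN) * Degen.dMat q * matOf (gRep N (i : ℕ)) =
      matOf (epsElt hqN i) * !![(1 : ℤ), ((sigmaIdx hqN i : ℕ) : ℤ); 0, (q : ℤ)] :=
  (exists_eps hqN i).choose_spec.choose_spec

theorem sigmaIdx_injective : Function.Injective (sigmaIdx hqN) := by
  intro i j h
  have hi := eps_spec hqN i
  have hj := eps_spec hqN j
  rw [h] at hi
  have h1 : matOf (omegaL hqN) * Degen.dMat q * matOf (gRep N (i : ℕ) * (gRep N (j : ℕ))⁻¹) =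
      matOf (inclHom N q (epsElt hqN i * (epsElt hqN j)⁻¹)) *
        (matOf (omegaL hqN) * Degen.dMat q) := by
    refine HeckeH.mul_right_cancel_of_det_ne (c := matOf (gRep N (j : ℕ)))
      (by rw [HeckeH.det_matOf]; exact one_ne_zero) ?_
    rw [Matrix.mul_assoc, ← HeckeH.matOf_mul, inv_mul_cancel_right, hi,
      Matrix.mul_assoc (matOf (inclHom N q _)), hj, matOf_inclHom, ← Matrix.mul_assoc,
      ← HeckeH.matOf_mul, inv_mul_cancel_right]
  generalize hz : gRep N (i : ℕ) * (gRep N (j : ℕ))⁻¹ = z at h1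
  generalize inclHom N q (epsElt hqN i * (epsElt hqN j)⁻¹) = x at h1
  have h2 : Degen.dMat q * matOf z =
      matOf ((omegaL hqN)⁻¹ * x * omegaL hqN) * Degen.dMat q := by
    rw [HeckeH.matOf_mul, HeckeH.matOf_mul, Matrix.mul_assoc, Matrix.mul_assoc, ← h1,
      ← Matrix.mul_assoc, ← Matrix.mul_assoc, ← HeckeH.matOf_mul, inv_mul_cancel, HeckeH.matOf_one,
      Matrix.one_mul]
  generalize (omegaL hqN)⁻¹ * x * omegaL hqN = y at h2
  have h3 := congrFun (congrFun h2 1) 0
  simp [Degen.dMat, Matrix.mul_apply, Fin.sum_univ_two] at h3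
  have h4 : z ∈ Degen.subG0 N (N * q) := by
    rw [mem_subG0_iff, h3]
    push_cast
    exact mul_dvd_mul_right (HeckeH.matOf_dvd _) _
  have h5 : cosOf (N := N) (q := q) (some i) = cosOf (some j) := by
    rw [cosOf, cosOf, QuotientGroup.eq, inv_inv]
    rw [← hz] at h4
    exact h4
  exact Option.some_injective _ ((cosOf_bijective hqN).1 h5)

theorem sigmaIdx_bijective : Function.Bijective (sigmaIdx hqN) :=
  ⟨sigmaIdx_injective hqN, Finite.surjective_of_injective (sigmaIdx_injective hqN)⟩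

/-- The matching of the representatives with the Hecke representatives at level `N`. -/
def tauIdx : Option (Fin q) → heckeIdx N q
  | none => ⟨none, fun _ => hqN⟩
  | some i => ⟨some (sigmaIdx hqN i), fun h => by simp at h⟩

theorem tauIdx_bijective : Function.Bijective (tauIdx hqN) := by
  constructor
  · rintro (_ | i) (_ | j) h <;> simp [tauIdx] at h
    · rfl
    · exact congrArg some (sigmaIdx_injective hqN h)
  · rintro ⟨_ | j, hj⟩
    · exact ⟨none, rfl⟩
    · obtain ⟨i, hi⟩ := (sigmaIdx_bijective hqN).2 j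
      exact ⟨some i, Subtype.ext (by simp [tauIdx, hi])⟩

/-- The unit part of `diag(q, 1) g`. -/
def deltaElt : Option (Fin q) → Gamma0 N
  | none => 1
  | some i => (omegaL hqN)⁻¹ * inclHom N q (epsElt hqN i)

theorem delta_spec (o : Option (Fin q)) :
    Degen.dMat q * matOf (gOf N q o) = matOf (deltaElt hqN o) * heckeBeta (tauIdx hqN o) := by
  rcases o with _ | i
  · simp [gOf, deltaElt, tauIdx, Degen.dMat, HeckeH.heckeBeta_none]
  · simp only [gOf, deltaElt, tauIdx]
    rw [HeckeH.heckeBeta_some, HeckeH.matOf_mul, matOf_inclHom, Matrix.mul_assoc, ← eps_spec hqN i,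
      ← Matrix.mul_assoc, ← Matrix.mul_assoc, ← HeckeH.matOf_mul, inv_mul_cancel, HeckeH.matOf_one,
      Matrix.one_mul]

/-- Corestriction after the second degeneracy map is `T_q`. -/
theorem corH_degQ (R A : Type*) [Semiring R] [AddCommGroup A] [Module R A] (φ : Period.H N R A) :
    Degen.corH R A (degQ N q R A φ) = HeckeH.heckeH N (Fact.out : q.Prime) R A φ := by
  refine Subtype.ext (AddMonoidHom.ext fun γ => ?_)
  obtain ⟨γ, rfl⟩ := Additive.ofMul.surjective γ
  have key : ∀ o, (HeckeH.heckeReps N (Fact.out : q.Prime)).coc γ (tauIdx hqN o) =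
        (deltaElt hqN o)⁻¹ * iqHom N q (cosCoc hqN γ o) * deltaElt hqN (cosPerm hqN γ o) := by
    intro o
    refine ((HeckeH.heckeReps N (Fact.out : q.Prime)).eq_of_mul
      (j := tauIdx hqN (cosPerm hqN γ o)) ?_).1
    show heckeBeta (tauIdx hqN o) * matOf γ = _ * heckeBeta _
    have hb : heckeBeta (tauIdx hqN o) =
        matOf (deltaElt hqN o)⁻¹ * (Degen.dMat q * matOf (gOf N q o)) := by
      rw [delta_spec hqN o, ← Matrix.mul_assoc, ← HeckeH.matOf_mul, inv_mul_cancel,
        HeckeH.matOf_one, Matrix.one_mul]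
    rw [hb, HeckeH.matOf_mul, HeckeH.matOf_mul, Matrix.mul_assoc (matOf _ * matOf _),
      ← delta_spec, ← Matrix.mul_assoc (matOf _ * matOf (iqHom N q _)),
      Matrix.mul_assoc (matOf (deltaElt hqN o)⁻¹) (matOf (iqHom N q _)), ← dMat_mul_iqHom,
      ← matOf_inclHom, inclHom_cosCoc]
    simp only [Matrix.mul_assoc, ← HeckeH.matOf_mul, inv_mul_cancel_right]
  rw [Degen.coe_corH, corFun_eq_sum hqN, HeckeH.coe_heckeH, HeckeH.Reps.transfer_apply,
    ← (Equiv.ofBijective _ (tauIdx_bijective hqN)).sum_comp]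
  simp only [Equiv.ofBijective_apply, key, ofMul_mul, ofMul_inv, map_add, map_neg,
    Finset.sum_add_distrib, Finset.sum_neg_distrib, degQ_apply]
  rw [Equiv.sum_comp (cosPerm hqN γ)
    (fun o => (φ : Additive (Gamma0 N) →+ A) (Additive.ofMul (deltaElt hqN o)))]
  abel

theorem cosPerm_none (γ : Gamma0 (N * q)) : cosPerm hqN (inclHom N q γ) none = none := by
  refine (cosEquiv hqN).injective ?_
  simp only [cosPerm, Equiv.trans_apply, Equiv.apply_symm_apply, MulAction.toPerm_apply]
  rw [cosEquiv_apply]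
  change (((inclHom N q γ)⁻¹ * (gOf N q none)⁻¹ : Gamma0 N) :
    Gamma0 N ⧸ Degen.subG0 N (N * q)) = _
  rw [QuotientGroup.eq]
  simpa [gOf] using inclHom_mem_subG0 γ

theorem cosCoc_none (γ : Gamma0 (N * q)) : cosCoc hqN (inclHom N q γ) none = γ := by
  refine Subtype.ext ?_
  rw [← coe_inclHom N q, inclHom_cosCoc, cosPerm_none]
  simp [gOf, coe_inclHom]

theorem cosPerm_some (γ : Gamma0 (N * q)) (i : Fin q) :
    ∃ k, cosPerm hqN (inclHom N q γ) (some i) = some k := by
  rcases h : cosPerm hqN (inclHom N q γ) (some i) with _ | k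
  · rw [← cosPerm_none hqN γ] at h
    exact absurd ((cosPerm hqN _).injective h) (by simp)
  · exact ⟨k, rfl⟩

/-- On `Γ₀(N q)`, restriction after corestriction is `1 + U_q θ`. -/
theorem resH_corH (R A : Type*) [Semiring R] [AddCommGroup A] [Module R A]
    (φ : Period.H (N * q) R A) :
    resH N q R A (Degen.corH R A φ) =
      φ + HeckeH.heckeH (N * q) (Fact.out : q.Prime) R A (thetaH R A hqN φ) := by
  refine Subtype.ext (AddMonoidHom.ext fun γ => ?_)
  obtain ⟨γ, rfl⟩ := Additive.ofMul.surjective γ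
  choose k hk using cosPerm_some hqN γ
  have hk_inj : Function.Injective k := fun i j h => Option.some_injective _
    ((cosPerm hqN (inclHom N q γ)).injective (by rw [hk, hk, h]))
  let idx : Fin q → heckeIdx (N * q) q := fun i => ⟨some (sigmaIdx hqN i), fun h => by simp at h⟩
  have hidx : Function.Bijective idx := by
    constructor
    · intro i j h
      simp only [idx, Subtype.mk.injEq, Option.some.injEq] at h
      exact sigmaIdx_injective hqN h
    · rintro ⟨_ | j, hj⟩
      · exact absurd (dvd_mul_left q N) (hj rfl)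
      · obtain ⟨i, hi⟩ := (sigmaIdx_bijective hqN).2 j
        exact ⟨i, Subtype.ext (by simp [idx, hi])⟩
  have key : ∀ i, (HeckeH.heckeReps (N * q) (Fact.out : q.Prime)).coc γ (idx i) =
      (epsElt hqN i)⁻¹ * theta hqN (cosCoc hqN (inclHom N q γ) (some i)) * epsElt hqN (k i) := by
    intro i
    refine ((HeckeH.heckeReps (N * q) (Fact.out : q.Prime)).eq_of_mul (j := idx (k i)) ?_).1
    rw [HeckeH.heckeReps_β, HeckeH.heckeReps_β]
    simp only [idx, HeckeH.heckeBeta_some]
    have hb : !![(1 : ℤ), ((sigmaIdx hqN i : ℕ) : ℤ); 0, (q : ℤ)] =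
        matOf (epsElt hqN i)⁻¹ *
          (matOf (omegaL hqN) * Degen.dMat q * matOf (gRep N (i : ℕ))) := by
      rw [eps_spec hqN i, ← Matrix.mul_assoc, ← HeckeH.matOf_mul, inv_mul_cancel,
        HeckeH.matOf_one, Matrix.one_mul]
    rw [hb, HeckeH.matOf_mul, HeckeH.matOf_mul, Matrix.mul_assoc (matOf _ * matOf _),
      ← eps_spec hqN (k i), ← matOf_inclHom N q γ,
      ← matOf_inclHom N q (theta hqN _), inclHom_theta, HeckeH.matOf_mul, HeckeH.matOf_mul]
    simp only [Matrix.mul_assoc]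
    congr 1
    congr 1
    rw [← Matrix.mul_assoc (matOf (omegaL hqN)⁻¹), ← HeckeH.matOf_mul (omegaL hqN)⁻¹,
      inv_mul_cancel,
      HeckeH.matOf_one, Matrix.one_mul, ← Matrix.mul_assoc, ← Matrix.mul_assoc, ← dMat_mul_iqHom,
      Matrix.mul_assoc]
    rw [← HeckeH.matOf_mul, ← matOf_inclHom N q (cosCoc hqN _ _), Matrix.mul_assoc,
      ← HeckeH.matOf_mul, inclHom_cosCoc, hk]
    simp [gOf]
  simp only [Submodule.coe_add, AddMonoidHom.add_apply, resH_apply, Degen.coe_corH,
    corFun_eq_sum hqN, Fintype.sum_option, cosCoc_none, HeckeH.coe_heckeH,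
    HeckeH.Reps.transfer_apply]
  congr 1
  rw [← (Equiv.ofBijective _ hidx).sum_comp]
  simp only [Equiv.ofBijective_apply, key, ofMul_mul, ofMul_inv, map_add, map_neg,
    Finset.sum_add_distrib, Finset.sum_neg_distrib, thetaH_apply, theta_theta]
  rw [(Finite.injective_iff_bijective.mp hk_inj).sum_comp
    (fun i => (φ : Additive (Gamma0 (N * q)) →+ A) (Additive.ofMul (theta hqN (epsElt hqN i))))]
  abel

/-- `U_q² = 1` on the common kernel of the two corestrictions. -/
theorem heckeH_sq_of_betaMap_eq_zero (R A : Type*) [Semiring R] [AddCommGroup A] [Module R A]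
    (φ : Period.H (N * q) R A) (h : betaMap R A hqN φ = 0) :
    HeckeH.heckeH (N * q) (Fact.out : q.Prime) R A
      (HeckeH.heckeH (N * q) (Fact.out : q.Prime) R A φ) = φ := by
  classical
  rw [betaMap_apply, Prod.mk_eq_zero] at h
  have h1 := resH_corH hqN R A φ
  have h2 := resH_corH hqN R A (thetaH R A hqN φ)
  rw [h.1, map_zero] at h1
  rw [h.2, map_zero, thetaH_thetaH] at h2
  set U := HeckeH.heckeH (N * q) (Fact.out : q.Prime) R A
  have h3 : thetaH R A hqN φ + U φ = 0 := h2.symm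
  have h4 : U (thetaH R A hqN φ) + U (U φ) = 0 := by rw [← map_add, h3, map_zero]
  calc U (U φ) = φ + U (thetaH R A hqN φ) + U (U φ) := by rw [← h1, zero_add]
    _ = φ := by rw [add_assoc, h4, add_zero]

/-- The composite of the two maps. -/
theorem betaMap_alpha (R A : Type*) [Semiring R] [AddCommGroup A] [Module R A]
    (φ ψ : Period.H N R A) :
    betaMap R A hqN (alpha (q := q) R A (φ, ψ)) =
      ((q + 1) • φ + HeckeH.heckeH N (Fact.out : q.Prime) R A ψ,
        HeckeH.heckeH N (Fact.out : q.Prime) R A φ + (q + 1) • ψ) := by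
  have hidx : (Degen.subG0 N (N * q)).index = q + 1 := by
    rw [Subgroup.index, ← Nat.card_congr (cosEquiv hqN)]
    simp
  rw [betaMap_apply, alpha_apply, map_add, map_add, map_add, thetaH_resH, thetaH_degQ,
    corH_degQ hqN, corH_degQ hqN, Degen.corH_degH, Degen.corH_degH, hidx]

end Cosets

end FLTAgent.Ihara
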