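import Fermat.Agent.Ihara.LiftBase
import Fermat.Agent.Degen.Linear

/-!
# Hecke operators and the degeneracy maps

Commutation of `T_r`, `U_r` (`r ≠ q`) with `resH`, `degQ`, `alpha`, corestriction and `betaMap`;
commutativity of the operators (`heckeH_comm`); the action of `U_q` on old classes
(`heckeH_alpha_self`) and through the corestrictions (`betaMap_heckeH_self`); the factorisation
`heckeH_sq_sub`: `U_q ^ 2 - 1 = alpha ∘ M ∘ betaMap`; injectivity of `alpha` on integral classes
(`alpha_int_injective`).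
-/

set_option autoImplicit false
set_option linter.unusedSectionVars false
set_option linter.style.haveILetI false
set_option maxHeartbeats 400000

open CongruenceSubgroup ModularCurve.Period CuspForm Polynomial
open scoped MatrixGroups

noncomputable section

namespace FLTAgent.Ihara

/-! ### Commutation with degeneracy maps -/

/-- The index sets at two levels which `r` divides simultaneously. -/
def idxEquivOfDvdIff {M M' r : ℕ} (e : Fin r ≃ Fin r) (h : r ∣ M' ↔ r ∣ M) :
    HeckeH.heckeIdx M' r ≃ HeckeH.heckeIdx M r :=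
  Equiv.subtypeEquiv (Equiv.optionCongr e) fun o => by
    cases o <;> simp [h]

/-- `T_r` and `U_r` commute with degeneracy maps of degree prime to `r`. -/
theorem heckeH_degH_of_dvd_iff {M M' : ℕ} [NeZero M] [NeZero M'] {R A : Type*} [Semiring R]
    [AddCommGroup A] [Module R A] {r : ℕ} (hr : r.Prime) (d : ℕ) [NeZero d] (h : M * d ∣ M')
    (hd : ¬ r ∣ d) (hiff : r ∣ M' ↔ r ∣ M) (φ : Period.H M R A) :
    Degen.degH R A d h (HeckeH.heckeH M hr R A φ) =
      HeckeH.heckeH M' hr R A (Degen.degH R A d h φ) := by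
  haveI : Fact r.Prime := ⟨hr⟩
  haveI : NeZero r := ⟨hr.ne_zero⟩
  refine Subtype.ext (AddMonoidHom.ext fun γ => ?_)
  obtain ⟨γ, rfl⟩ := Additive.ofMul.surjective γ
  rw [Degen.degH_apply, HeckeH.coe_heckeH, HeckeH.coe_heckeH]
  let e := idxEquivOfDvdIff ((ZMod.finEquiv r).toEquiv.trans ((Equiv.mulLeft₀ (d : ZMod r)
      (by rwa [Ne, ZMod.natCast_eq_zero_iff])).trans (ZMod.finEquiv r).toEquiv.symm)) hiff
  have hex : ∀ i : HeckeH.heckeIdx M' r, ∃ δ : Gamma0 M,
      Degen.dMat d * HeckeH.heckeBeta i = HeckeH.matOf δ * HeckeH.heckeBeta (e i) * Degen.dMat d := by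
    rintro ⟨_ | j, hj⟩
    · refine ⟨1, ?_⟩
      rw [HeckeH.matOf_one, Matrix.one_mul]
      show Degen.dMat d * !![(r : ℤ), 0; 0, 1] = !![(r : ℤ), 0; 0, 1] * Degen.dMat d
      rw [Degen.dMat, Matrix.mul_fin_two, Matrix.mul_fin_two]
      simp [mul_comm]
    · set k : Fin r := (ZMod.finEquiv r).symm ((d : ZMod r) * ZMod.finEquiv r j) with hk
      have hek : e ⟨some j, hj⟩ = ⟨some k, fun h => by simp at h⟩ := rfl
      have hmod : (r : ℤ) ∣ (d : ℤ) * (j : ℕ) - (k : ℕ) := by
        rw [← ZMod.intCast_zmod_eq_zero_iff_dvd]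
        have hcast : ∀ i : Fin r, ((i : ℕ) : ZMod r) = ZMod.finEquiv r i := by
          intro i
          obtain ⟨m, rfl⟩ : ∃ m, m + 1 = r := ⟨r - 1, Nat.sub_add_cancel hr.pos⟩
          exact Fin.cast_val_eq_self i
        push_cast
        rw [hcast, hcast, hk, RingEquiv.apply_symm_apply, sub_self]
      obtain ⟨x, hx⟩ := hmod
      refine ⟨HeckeH.mkGamma0 1 x 0 1 (by ring) (dvd_zero _), ?_⟩
      rw [hek, HeckeH.matOf_mkGamma0, HeckeH.heckeBeta_some, HeckeH.heckeBeta_some, Degen.dMat,
        Matrix.mul_fin_two, Matrix.mul_fin_two, Matrix.mul_fin_two]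
      have : (d : ℤ) * (j : ℕ) = (k : ℕ) + x * r := by linear_combination hx
      simp [this]
  choose ε hε using hex
  exact Degen.transfer_comp_conj (HeckeH.heckeReps M hr) (HeckeH.heckeReps M' hr) (Degen.dMat d)
    Degen.det_dMat (Degen.degHom d h) (Degen.dMat_mul_degHom d h) e ε hε R _ γ

variable {N q : ℕ} [NeZero N] [Fact q.Prime] (hqN : ¬ q ∣ N)

section AwayFromQ

variable {r : ℕ} (hr : r.Prime) (hrq : r ≠ q)
include hr hrq

theorem dvd_mul_iff_of_ne : r ∣ N * q ↔ r ∣ N := by
  refine ⟨fun h => (hr.dvd_mul.mp h).resolve_right fun h' => hrq ?_, fun h => h.mul_right q⟩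
  exact (Nat.prime_dvd_prime_iff_eq hr Fact.out).mp h'

theorem resH_heckeH (R A : Type*) [Semiring R] [AddCommGroup A] [Module R A]
    (φ : Period.H N R A) :
    resH N q R A (HeckeH.heckeH N hr R A φ) =
      HeckeH.heckeH (N * q) hr R A (resH N q R A φ) :=
  heckeH_degH_of_dvd_iff hr 1 _ hr.not_dvd_one (dvd_mul_iff_of_ne hr hrq) φ

theorem degQ_heckeH (R A : Type*) [Semiring R] [AddCommGroup A] [Module R A]
    (φ : Period.H N R A) :
    degQ N q R A (HeckeH.heckeH N hr R A φ) =
      HeckeH.heckeH (N * q) hr R A (degQ N q R A φ) :=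
  heckeH_degH_of_dvd_iff hr q _
    (fun h => hrq ((Nat.prime_dvd_prime_iff_eq hr Fact.out).mp h)) (dvd_mul_iff_of_ne hr hrq) φ

theorem alpha_heckeH_of_ne (R A : Type*) [Semiring R] [AddCommGroup A] [Module R A]
    (x : Period.H N R A × Period.H N R A) :
    HeckeH.heckeH (N * q) hr R A (alpha (q := q) R A x) =
      alpha (q := q) R A (HeckeH.heckeH N hr R A x.1, HeckeH.heckeH N hr R A x.2) := by
  rw [alpha_apply, alpha_apply, map_add, resH_heckeH hr hrq, degQ_heckeH hr hrq]

end AwayFromQ

/-- The operators `heckeH` commute with one another. -/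
theorem heckeH_comm {M r s : ℕ} [NeZero M] (hr : r.Prime) (hs : s.Prime) (R A : Type*) [Semiring R]
    [AddCommGroup A] [Module R A] (φ : Period.H M R A) :
    HeckeH.heckeH M hr R A (HeckeH.heckeH M hs R A φ) =
      HeckeH.heckeH M hs R A (HeckeH.heckeH M hr R A φ) := by
  have hmem : ∀ (t : ℕ) (ht : t.Prime), ∃ x : heckeAlgebra M 2 ∅,
      HeckeH.heckeEnd M R A x = HeckeH.heckeH M ht R A := by
    intro t ht
    by_cases htM : t ∣ M
    · exact ⟨_, HeckeH.heckeEnd_U M ht htM (Set.notMem_empty t) R A⟩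
    · exact ⟨_, HeckeH.heckeEnd_T M ht htM (Set.notMem_empty t) R A⟩
  obtain ⟨x, hx⟩ := hmem r hr
  obtain ⟨y, hy⟩ := hmem s hs
  rw [← hx, ← hy, ← Module.End.mul_apply, ← Module.End.mul_apply, ← map_mul, ← map_mul, mul_comm]

/-! ### `U_q` on old classes -/

section Uq

variable (R A : Type*) [Ring R] [AddCommGroup A] [Module R A]
include hqN

theorem heckeH_resH_self (φ : Period.H N R A) :
    HeckeH.heckeH (N * q) (Fact.out : q.Prime) R A (resH N q R A φ) =
      resH N q R A (HeckeH.heckeH N (Fact.out : q.Prime) R A φ) - degQ N q R A φ := by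
  have h := resH_corH hqN R A (degQ N q R A φ)
  rw [corH_degQ hqN, thetaH_degQ] at h
  rw [eq_sub_iff_add_eq, add_comm]
  exact h.symm

theorem heckeH_degQ_self (φ : Period.H N R A) :
    HeckeH.heckeH (N * q) (Fact.out : q.Prime) R A (degQ N q R A φ) =
      q • resH N q R A φ := by
  have h := resH_corH hqN R A (resH N q R A φ)
  have hidx : (Degen.subG0 N (N * q)).index = q + 1 := by
    rw [Subgroup.index, ← Nat.card_congr (cosEquiv hqN)]
    simp
  rw [thetaH_resH, Degen.corH_degH, hidx, map_nsmul, add_nsmul, one_nsmul,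
    add_comm (q • _)] at h
  exact (add_left_cancel h).symm

theorem heckeH_alpha_self (x : Period.H N R A × Period.H N R A) :
    HeckeH.heckeH (N * q) (Fact.out : q.Prime) R A (alpha (q := q) R A x) =
      alpha (q := q) R A
        (HeckeH.heckeH N (Fact.out : q.Prime) R A x.1 + q • x.2, -x.1) := by
  rw [alpha_apply, alpha_apply, map_add, heckeH_resH_self hqN, heckeH_degQ_self hqN, map_add,
    map_nsmul, map_neg]
  abel

/-- `U_q` read through the corestrictions. -/
theorem betaMap_heckeH_self (φ : Period.H (N * q) R A) :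
    betaMap R A hqN (HeckeH.heckeH (N * q) (Fact.out : q.Prime) R A φ) =
      (q • (betaMap R A hqN φ).2,
        HeckeH.heckeH N (Fact.out : q.Prime) R A (betaMap R A hqN φ).2 - (betaMap R A hqN φ).1) := by
  have hidx : (Degen.subG0 N (N * q)).index = q + 1 := by
    rw [Subgroup.index, ← Nat.card_congr (cosEquiv hqN)]
    simp
  have h := resH_corH hqN R A (thetaH R A hqN φ)
  rw [thetaH_thetaH] at h
  have hU : HeckeH.heckeH (N * q) (Fact.out : q.Prime) R A φ =
      resH N q R A (Degen.corH R A (thetaH R A hqN φ)) - thetaH R A hqN φ := by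
    rw [eq_sub_iff_add_eq, add_comm]
    exact h.symm
  simp only [betaMap_apply]
  rw [hU, map_sub, map_sub, map_sub, thetaH_resH, thetaH_thetaH, corH_degQ hqN, Degen.corH_degH,
    hidx, add_nsmul, one_nsmul, add_sub_cancel_right]

/-- `U_q ^ 2 - 1` is the composite `alpha ∘ M ∘ betaMap` with `M = [[-1, T_q], [0, -1]]`. -/
theorem heckeH_sq_sub (φ : Period.H (N * q) R A) :
    HeckeH.heckeH (N * q) (Fact.out : q.Prime) R A
        (HeckeH.heckeH (N * q) (Fact.out : q.Prime) R A φ) - φ =
      alpha (q := q) R A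
        (HeckeH.heckeH N (Fact.out : q.Prime) R A (betaMap R A hqN φ).2 - (betaMap R A hqN φ).1,
          -(betaMap R A hqN φ).2) := by
  have h1 := resH_corH hqN R A φ
  have h2 := resH_corH hqN R A (thetaH R A hqN φ)
  rw [thetaH_thetaH] at h2
  have h3 := congrArg (HeckeH.heckeH (N * q) (Fact.out : q.Prime) R A) h2
  rw [map_add, heckeH_resH_self hqN] at h3
  rw [alpha_apply, betaMap_apply, map_sub, map_neg, h1]
  simp only
  rw [show HeckeH.heckeH (N * q) (Fact.out : q.Prime) R A
      (HeckeH.heckeH (N * q) (Fact.out : q.Prime) R A φ) =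
      (resH N q R A (HeckeH.heckeH N (Fact.out : q.Prime) R A
        (Degen.corH R A (thetaH R A hqN φ))) - degQ N q R A (Degen.corH R A (thetaH R A hqN φ))) -
      HeckeH.heckeH (N * q) (Fact.out : q.Prime) R A (thetaH R A hqN φ) from by
    rw [h3]; abel]
  abel

end Uq

/-! ### Corestriction -/

section Cor

theorem resH_injective_int (hqN : ¬ q ∣ N) : Function.Injective (resH N q ℤ ℤ) := by
  intro a b h
  have e := congrArg (Degen.corH (N := N) ℤ ℤ) h
  rw [Degen.corH_degH, Degen.corH_degH] at e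
  have hidx : (Degen.subG0 N (N * q)).index = q + 1 := by
    rw [Subgroup.index, ← Nat.card_congr (cosEquiv hqN)]
    simp
  rw [hidx, ← natCast_zsmul, ← natCast_zsmul, ← sub_eq_zero, ← zsmul_sub, smul_eq_zero] at e
  exact sub_eq_zero.mp (e.resolve_left (by positivity))

/-- A linear map out of `H N R R` is determined by the integral classes. -/
theorem linearMap_ext_castH {M : ℕ} [NeZero M] {R : Type*} [CommRing R] {V : Type*}
    [AddCommGroup V] [Module R V] {f g : Period.H M R R →ₗ[R] V}
    (h : ∀ φ, f (Period.castH M R φ) = g (Period.castH M R φ)) : f = g := by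
  refine (Period.basisH M R).ext fun i => ?_
  have e : Period.basisH M R i = Period.castH M R (Period.coordH M i) := by
    refine (Period.evalEquiv M R R).injective (funext fun j => ?_)
    rw [Period.evalEquiv_apply, Period.evalEquiv_apply, Period.castH_apply, Period.coordH_gen,
      ← Period.evalEquiv_apply]
    simp [Period.basisH, Pi.single_apply, eq_comm]
  rw [e]
  exact h _

include hqN

/-- Corestriction commutes with `T_r` and `U_r` for every prime `r ≠ q`. -/
theorem corH_heckeH_of_ne {r : ℕ} (hr : r.Prime) (hrq : r ≠ q) (R : Type*) [CommRing R]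
    (φ : Period.H (N * q) R R) :
    Degen.corH (N := N) R R (HeckeH.heckeH (N * q) hr R R φ) =
      HeckeH.heckeH N hr R R (Degen.corH R R φ) := by
  have key : ∀ ψ : Period.H (N * q) ℤ ℤ,
      Degen.corH (N := N) ℤ ℤ (HeckeH.heckeH (N * q) hr ℤ ℤ ψ) =
        HeckeH.heckeH N hr ℤ ℤ (Degen.corH ℤ ℤ ψ) := fun ψ => resH_injective_int hqN (by
    rw [resH_heckeH hr hrq, resH_corH hqN, resH_corH hqN, heckeH_thetaH_of_ne hqN hr hrq,
      heckeH_comm Fact.out hr, map_add])
  have e : Degen.corH (N := N) R R ∘ₗ HeckeH.heckeH (N * q) hr R R =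
      HeckeH.heckeH N hr R R ∘ₗ Degen.corH R R := linearMap_ext_castH fun ψ => by
    rw [LinearMap.comp_apply, LinearMap.comp_apply, ← castH_heckeH, ← castH_corH hqN,
      ← castH_corH hqN, ← castH_heckeH, key]
  exact LinearMap.congr_fun e φ

/-- `betaMap` commutes with `T_r` and `U_r` for every prime `r ≠ q`. -/
theorem betaMap_heckeH_of_ne {r : ℕ} (hr : r.Prime) (hrq : r ≠ q) (R : Type*) [CommRing R]
    (φ : Period.H (N * q) R R) :
    betaMap R R hqN (HeckeH.heckeH (N * q) hr R R φ) =
      (HeckeH.heckeH N hr R R (betaMap R R hqN φ).1,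
        HeckeH.heckeH N hr R R (betaMap R R hqN φ).2) := by
  rw [betaMap_apply, betaMap_apply, corH_heckeH_of_ne hqN hr hrq,
    heckeH_thetaH_of_ne hqN hr hrq, corH_heckeH_of_ne hqN hr hrq]

/-- The joint injectivity of the two degeneracy maps on integral classes. -/
theorem alpha_int_injective : Function.Injective (alpha (N := N) (q := q) ℤ ℤ) := by
  rw [← LinearMap.ker_eq_bot, eq_bot_iff]
  rintro ⟨x, y⟩ h
  rw [LinearMap.mem_ker, alpha_apply] at h
  have hm : ∀ (d : ℕ) [NeZero d] (hd : N * d ∣ N * q) (z : Period.H N ℤ ℤ),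
      Period.evalEquiv (N * q) ℤ ℤ (Degen.degH ℤ ℤ d hd z) =
        Matrix.mulVec (Degen.degMat d hd) (Period.evalEquiv N ℤ ℤ z) := by
    intro d _ hd z
    rw [← Degen.rectAct_degMat, ← Degen.mulVec_evalEquiv]
    congr 1
  have h' := congrArg (Period.evalEquiv (N * q) ℤ ℤ) h
  rw [map_add, map_zero, hm, hm] at h'
  obtain ⟨hx, hy⟩ := Degen.degMat_injective
    ((Nat.Prime.coprime_iff_not_dvd Fact.out).mpr hqN) (Fact.out : q.Prime).two_le _ _ h'
  rw [LinearEquiv.map_eq_zero_iff] at hx hy
  simp only [Submodule.mem_bot, Prod.mk_eq_zero]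
  exact ⟨hx, hy⟩

end Cor

end FLTAgent.Ihara
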