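import Fermat.Agent.Ihara.LiftBase

/-!
# Level raising

`exists_newAt_of_congruence`: if an eigenform of level `N` is congruent mod `p` to integers `a_ℓ`
for `ℓ` in a set `G` and satisfies `a_q² ≡ (q + 1)²`, and some odd prime in `G` is not Eisenstein,
there is an eigenform of level `N q` with the same congruences and `a_q² = 1`. Idea: by Ihara's
lemma `betaMap` is onto over `ℤ` up to an element invertible on the eigenvector
(`exists_eisenstein_element`), so a signed old class lifts to an integral class killed by `betaMap`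
(`exists_kernel_class`), where `U_q ^ 2 = 1`.
-/

set_option autoImplicit false
set_option linter.unusedSectionVars false
set_option linter.style.haveILetI false
set_option maxHeartbeats 800000

open CongruenceSubgroup ModularCurve.Period CuspForm Polynomial
open scoped MatrixGroups

noncomputable section

namespace FLTAgent.Ihara

/-- A ring homomorphism into endomorphisms turns polynomials in an eigen element into scalars. -/
theorem aeval_eigen {A k V : Type*} [CommRing A] [CommRing k] [AddCommGroup V] [Module k V]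
    (E : A →+* Module.End k V) (x : A) (v : V) (d : k) (h : E x v = d • v) (P : ℤ[X]) :
    E (aeval x P) v = (P.map (Int.castRingHom k)).eval d • v := by
  have hpow : ∀ n : ℕ, E (x ^ n) v = d ^ n • v := by
    intro n
    induction n with
    | zero => simp
    | succ n ih =>
      rw [pow_succ', map_mul, Module.End.mul_apply, ih, map_smul, h, smul_smul, ← pow_succ]
  induction P using Polynomial.induction_on' with
  | add P Q hP hQ =>
    rw [map_add, map_add, LinearMap.add_apply, hP, hQ, Polynomial.map_add, eval_add, add_smul]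
  | monomial n z =>
    rw [aeval_monomial, map_mul, Module.End.mul_apply, hpow, map_monomial, eval_monomial,
      eq_intCast (Int.castRingHom k), eq_intCast (algebraMap ℤ A), map_intCast,
      Module.End.intCast_apply, ← smul_assoc, zsmul_eq_mul]

variable {N q p : ℕ} [NeZero N] [Fact q.Prime] [Fact p.Prime] (hqN : ¬ q ∣ N)

/-- The eigenvector mod `p` of a congruence, with the sign at `q`. -/
theorem exists_signed_eigenvector {f : CuspForm (Gamma0 N) 2} (hf : f.IsNormalizedEigenform)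
    {𝔪 : Ideal (integralClosure ℤ ℂ)} (hmax : 𝔪.IsMaximal) (hpm : (p : integralClosure ℤ ℂ) ∈ 𝔪)
    (a : ℕ → ℤ) (G : Set ℕ)
    (hcong : ∀ ℓ : ℕ, ℓ.Prime → ¬ ℓ ∣ N → ℓ ∈ G →
      ∃ x : integralClosure ℤ ℂ, (x : ℂ) = ModularFormClass.qCoeff f ℓ ∧
        x - ((a ℓ : ℤ) : integralClosure ℤ ℂ) ∈ 𝔪)
    (hqN : ¬ q ∣ N)
    (hLR : ∃ x : integralClosure ℤ ℂ, (x : ℂ) = ModularFormClass.qCoeff f q ∧
      x ^ 2 - ((q : integralClosure ℤ ℂ) + 1) ^ 2 ∈ 𝔪) :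
    ∃ (φ : Period.H N (ZMod p) (ZMod p)) (ε : ℤ), φ ≠ 0 ∧ (ε = 1 ∨ ε = -1) ∧
      (∀ ℓ (hℓ : ℓ.Prime), ¬ ℓ ∣ N → ℓ ∈ G →
        HeckeH.heckeH N hℓ (ZMod p) (ZMod p) φ = (a ℓ : ZMod p) • φ) ∧
      HeckeH.heckeH N (Fact.out : q.Prime) (ZMod p) (ZMod p) φ =
        ((ε * (q + 1) : ℤ) : ZMod p) • φ := by
  haveI := IntStr.moduleFinite_heckeAlgebra_two N
  let ev : heckeAlgebra N 2 ∅ →+* integralClosure ℤ ℂ :=
    (Reps.eigenHom hf).codRestrict (integralClosure ℤ ℂ) fun t =>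
      map_isIntegral_int (Reps.eigenHom hf) (Algebra.IsIntegral.isIntegral t)
  have hev : ∀ (ℓ : ℕ) (hℓ : ℓ.Prime) (hℓN : ¬ ℓ ∣ N) (x : integralClosure ℤ ℂ),
      (x : ℂ) = ModularFormClass.qCoeff f ℓ → ev (tOf N hℓ hℓN) = x := fun ℓ hℓ hℓN x hx =>
    Subtype.ext ((Reps.eigenHom_T hf hℓ hℓN).trans hx.symm)
  haveI := hmax
  letI : Field (integralClosure ℤ ℂ ⧸ 𝔪) := Ideal.Quotient.field 𝔪
  haveI : CharP (integralClosure ℤ ℂ ⧸ 𝔪) p :=
    (CharP.charP_iff_prime_eq_zero Fact.out).mpr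
      ((map_natCast (Ideal.Quotient.mk 𝔪) p).symm.trans (Ideal.Quotient.eq_zero_iff_mem.mpr hpm))
  let ι : ZMod p →+* integralClosure ℤ ℂ ⧸ 𝔪 := ZMod.castHom dvd_rfl _
  let π : heckeAlgebra N 2 ∅ →+* integralClosure ℤ ℂ ⧸ 𝔪 := (Ideal.Quotient.mk 𝔪).comp ev
  let A₀ : Subring (heckeAlgebra N 2 ∅) := ι.range.comap π
  have hmemA : ∀ t : A₀, π.comp A₀.subtype t ∈ ι.range := fun t => t.2
  let eι : ZMod p ≃+* ι.range := RingEquiv.ofBijective ι.rangeRestrict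
    ⟨fun x y h => ι.injective (congrArg Subtype.val h), ι.rangeRestrict_surjective⟩
  let ψ₀ : A₀ →+* ZMod p :=
    eι.symm.toRingHom.comp ((π.comp A₀.subtype).codRestrict ι.range hmemA)
  have hψ : ∀ (t : A₀) (z : ℤ), π t = (z : integralClosure ℤ ℂ ⧸ 𝔪) → ψ₀ t = (z : ZMod p) := by
    intro t z ht
    apply ι.injective
    rw [map_intCast, ← ht]
    exact congrArg Subtype.val (eι.apply_symm_apply ⟨π t, hmemA t⟩)
  obtain ⟨φ, hφ, heig⟩ := exists_eigenvector A₀ ψ₀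
  have key : ∀ (ℓ : ℕ) (hℓ : ℓ.Prime) (hℓN : ¬ ℓ ∣ N) (z : ℤ),
      π (tOf N hℓ hℓN) = (z : integralClosure ℤ ℂ ⧸ 𝔪) →
        HeckeH.heckeH N hℓ (ZMod p) (ZMod p) φ = (z : ZMod p) • φ := by
    intro ℓ hℓ hℓN z hz
    have hmem : tOf N hℓ hℓN ∈ A₀ := ⟨(z : ZMod p), by rw [map_intCast, hz]⟩
    rw [heig ℓ hℓ hℓN hmem, hψ ⟨_, hmem⟩ z hz]
  obtain ⟨x, hx, hx2⟩ := hLR
  have hπq : π (tOf N Fact.out hqN) = Ideal.Quotient.mk 𝔪 x :=
    congrArg (Ideal.Quotient.mk 𝔪) (hev q Fact.out hqN x hx)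
  obtain ⟨ε, hε, hεx⟩ : ∃ ε : ℤ, (ε = 1 ∨ ε = -1) ∧
      Ideal.Quotient.mk 𝔪 x = ((ε * (q + 1) : ℤ) : integralClosure ℤ ℂ ⧸ 𝔪) := by
    have h2 : Ideal.Quotient.mk 𝔪 x ^ 2 = ((q : integralClosure ℤ ℂ ⧸ 𝔪) + 1) ^ 2 := by
      have := Ideal.Quotient.eq_zero_iff_mem.mpr hx2
      rwa [map_sub, map_pow, map_pow, map_add, map_one, map_natCast, sub_eq_zero] at this
    rcases sq_eq_sq_iff_eq_or_eq_neg.mp h2 with h | h
    · exact ⟨1, Or.inl rfl, by rw [h]; simp⟩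
    · exact ⟨-1, Or.inr rfl, by rw [h]; simp⟩
  refine ⟨φ, ε, hφ, hε, fun ℓ hℓ hℓN hG => key ℓ hℓ hℓN (a ℓ) ?_, key q Fact.out hqN _
    (hπq.trans hεx)⟩
  obtain ⟨y, hy, hym⟩ := hcong ℓ hℓ hℓN hG
  show Ideal.Quotient.mk 𝔪 (ev (tOf N hℓ hℓN)) = _
  rw [hev ℓ hℓ hℓN y hy, ← map_intCast (Ideal.Quotient.mk 𝔪), Ideal.Quotient.eq]
  exact hym

/-- Cayley-Hamilton modulo a stable submodule: an operator with image in `p` times the module,
modulo `S`, satisfies modulo `S` a monic equation which is `X ^ n` mod `p`. -/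
theorem exists_aeval_mem {V : Type*} [AddCommGroup V] [Module.Finite ℤ V] (S : Submodule ℤ V)
    (g : Module.End ℤ V) (hg : S ≤ S.comap g) (m : ℤ) (h : ∀ y, ∃ w, g y - m • w ∈ S) :
    ∃ P : ℤ[X], P.Monic ∧ (∀ k < P.natDegree, m ∣ P.coeff k) ∧ ∀ y, aeval g P y ∈ S := by
  have hrange : LinearMap.range (S.mapQ S g hg) ≤ Ideal.span {m} • (⊤ : Submodule ℤ (V ⧸ S)) := by
    rintro _ ⟨x, rfl⟩
    obtain ⟨y, rfl⟩ := S.mkQ_surjective x
    obtain ⟨w, hw⟩ := h y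
    have e : S.mapQ S g hg (S.mkQ y) = m • S.mkQ w := by
      rw [Submodule.mkQ_apply, Submodule.mapQ_apply, Submodule.mkQ_apply,
        ← Submodule.Quotient.mk_smul, Submodule.Quotient.eq]
      exact hw
    rw [e]
    exact Submodule.smul_mem_smul (Ideal.mem_span_singleton_self m) Submodule.mem_top
  obtain ⟨P, hPm, -, hPc, hP0⟩ :=
    LinearMap.exists_monic_and_natDegree_eq_and_coeff_mem_pow_and_aeval_eq_zero ℤ _ _ hrange
  refine ⟨P, hPm, fun k hk =>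
    Ideal.mem_span_singleton.mp (Ideal.pow_le_self (by omega) (hPc k)), fun y => ?_⟩
  have hQ : ∀ (R : ℤ[X]) y, S.mkQ (aeval g R y) = aeval (S.mapQ S g hg) R (S.mkQ y) := by
    intro R
    induction R using Polynomial.induction_on' with
    | add P Q hP hQ =>
      intro y
      rw [map_add, LinearMap.add_apply, map_add, hP, hQ, map_add, LinearMap.add_apply]
    | monomial n z =>
      intro y
      rw [aeval_monomial, aeval_monomial, eq_intCast (algebraMap ℤ (Module.End ℤ V)),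
        eq_intCast (algebraMap ℤ (Module.End ℤ (V ⧸ S))), Module.End.mul_apply,
        Module.End.mul_apply, Module.End.intCast_apply, Module.End.intCast_apply, map_zsmul]
      congr 1
      induction n with
      | zero => simp
      | succ n ih =>
        rw [pow_succ', pow_succ', Module.End.mul_apply, Module.End.mul_apply, ← ih]
        rfl
  have h0 := hQ P y
  rw [hP0, LinearMap.zero_apply, Submodule.mkQ_apply, Submodule.Quotient.mk_eq_zero] at h0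
  exact h0

variable (N) in
/-- The Eisenstein element `T_ℓ - ℓ - 1`. -/
def eisT {ℓ : ℕ} (hℓ : ℓ.Prime) (hℓN : ¬ ℓ ∣ N) : heckeAlgebra N 2 ∅ :=
  tOf N hℓ hℓN - ((ℓ + 1 : ℕ) : heckeAlgebra N 2 ∅)

theorem heckeEnd_eisT {ℓ : ℕ} (hℓ : ℓ.Prime) (hℓN : ¬ ℓ ∣ N) (R A : Type*) [Ring R]
    [AddCommGroup A] [Module R A] (m : Period.H N R A) :
    HeckeH.heckeEnd N R A (eisT N hℓ hℓN) m = HeckeH.heckeH N hℓ R A m - (ℓ + 1) • m := by
  rw [eisT, map_sub, map_natCast, LinearMap.sub_apply, HeckeH.heckeEnd_T,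
    Module.End.natCast_apply]

/-- A monic polynomial in `(T_ℓ - ℓ - 1) ^ 2`, a power of it mod `p`, maps integral pairs into the
image of `betaMap`. -/
theorem exists_eisPoly {ℓ : ℕ} (hℓ : ℓ.Prime) (hℓ2 : ℓ ≠ 2) (hℓN : ¬ ℓ ∣ N)
    (hℓNq : ¬ ℓ ∣ N * q) :
    ∃ P : ℤ[X], P.Monic ∧ P.map (Int.castRingHom (ZMod p)) = X ^ P.natDegree ∧
      ∀ y : Period.H N ℤ ℤ × Period.H N ℤ ℤ,
        (HeckeH.heckeEnd N ℤ ℤ (aeval (eisT N hℓ hℓN * eisT N hℓ hℓN) P) y.1,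
          HeckeH.heckeEnd N ℤ ℤ (aeval (eisT N hℓ hℓN * eisT N hℓ hℓN) P) y.2) ∈
          LinearMap.range (betaMap ℤ ℤ hqN) := by
  set t : heckeAlgebra N 2 ∅ := eisT N hℓ hℓN with ht
  have htapply : ∀ (R : Type) [CommRing R] (m : Period.H N R R),
      HeckeH.heckeEnd N R R t m = HeckeH.heckeH N hℓ R R m - (ℓ + 1) • m := by
    intro R _ m
    rw [ht, eisT, map_sub, map_natCast, LinearMap.sub_apply, HeckeH.heckeEnd_T, Module.End.natCast_apply]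
  have htk : ∀ m : Period.H N (ZMod p) (ZMod p),
      HeckeH.heckeEnd N (ZMod p) (ZMod p) t m = eisOp N hℓ (ZMod p) m := fun m => by
    rw [htapply, eisOp_apply, Nat.cast_smul_eq_nsmul]
  obtain ⟨G, hG⟩ : ∃ G : heckeAlgebra N 2 ∅ →+* Module.End ℤ (Period.H N ℤ ℤ × Period.H N ℤ ℤ),
      ∀ r y, G r y = (HeckeH.heckeEnd N ℤ ℤ r y.1, HeckeH.heckeEnd N ℤ ℤ r y.2) :=
    ⟨(LinearMap.prodMapRingHom ℤ (Period.H N ℤ ℤ) (Period.H N ℤ ℤ)).comp
      ((HeckeH.heckeEnd N ℤ ℤ).prod (HeckeH.heckeEnd N ℤ ℤ)), fun _ _ => rfl⟩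
  obtain ⟨S, hS⟩ : ∃ S : Submodule ℤ (Period.H N ℤ ℤ × Period.H N ℤ ℤ),
      S = LinearMap.range (betaMap ℤ ℤ hqN) := ⟨_, rfl⟩
  have hstab : ∀ z, G t (betaMap ℤ ℤ hqN z) =
      betaMap ℤ ℤ hqN (HeckeH.heckeH (N * q) hℓ ℤ ℤ z - (ℓ + 1) • z) := by
    intro z
    rw [hG, htapply ℤ, htapply ℤ, map_sub (betaMap ℤ ℤ hqN), map_nsmul, betaMap_heckeH hqN hℓ hℓNq]
    rfl
  have hgS : S ≤ S.comap (G (t * t)) := by
    rw [hS]
    rintro y ⟨z, rfl⟩
    rw [Submodule.mem_comap, map_mul, Module.End.mul_apply, hstab, hstab]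
    exact ⟨_, rfl⟩
  obtain ⟨P, hPm, hPc, hP0⟩ := exists_aeval_mem S (G (t * t)) hgS (p : ℤ) fun y => by
    obtain ⟨zb, hzb⟩ := eisOp_sq_mem_range hqN (ZMod p) hℓ hℓNq (cp := p) Fact.out hℓ2
      (Period.castH N (ZMod p) y.1, Period.castH N (ZMod p) y.2)
    obtain ⟨z, rfl⟩ := castH_zmod_surjective (N * q) p zb
    rw [← castH_betaMap, ← htk, ← htk, ← htk, ← htk, HeckeH.heckeEnd_castH, HeckeH.heckeEnd_castH,
      HeckeH.heckeEnd_castH, HeckeH.heckeEnd_castH, Prod.mk.injEq] at hzb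
    obtain ⟨w1, hw1⟩ := exists_smul_of_castH_eq_zero
      (φ := HeckeH.heckeEnd N ℤ ℤ t (HeckeH.heckeEnd N ℤ ℤ t y.1) - (betaMap ℤ ℤ hqN z).1)
      (by rw [map_sub, hzb.1, sub_self])
    obtain ⟨w2, hw2⟩ := exists_smul_of_castH_eq_zero
      (φ := HeckeH.heckeEnd N ℤ ℤ t (HeckeH.heckeEnd N ℤ ℤ t y.2) - (betaMap ℤ ℤ hqN z).2)
      (by rw [map_sub, hzb.2, sub_self])
    have e : G (t * t) y = betaMap ℤ ℤ hqN z + (p : ℤ) • (w1, w2) := by
      rw [map_mul, Module.End.mul_apply, hG, hG, Prod.smul_mk, ← hw1, ← hw2]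
      exact Prod.ext (add_sub_cancel _ _).symm (add_sub_cancel _ _).symm
    exact ⟨(w1, w2), by rw [e, add_sub_cancel_right, hS]; exact LinearMap.mem_range_self _ z⟩
  refine ⟨P, hPm, ?_, fun y => ?_⟩
  · ext k
    rw [coeff_map, coeff_X_pow, eq_intCast]
    rcases lt_trichotomy k P.natDegree with hk | hk | hk
    · rw [if_neg hk.ne, ZMod.intCast_zmod_eq_zero_iff_dvd]
      exact hPc k hk
    · subst hk
      rw [if_pos rfl, hPm.coeff_natDegree, Int.cast_one]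
    · rw [if_neg hk.ne', coeff_eq_zero_of_natDegree_lt hk, Int.cast_zero]
  · have h : G (aeval (t * t) P) y ∈ S :=
      (Polynomial.aeval_algHom_apply G.toIntAlgHom (t * t) P).symm ▸ hP0 y
    rw [hG, hS] at h
    exact h

/-- Up to an element congruent to a unit on the eigenvector, `betaMap` is onto over `ℤ`. -/
theorem exists_eisenstein_element {ℓ : ℕ} (hℓ : ℓ.Prime) (hℓ2 : ℓ ≠ 2) (hℓNq : ¬ ℓ ∣ N * q)
    {φ : Period.H N (ZMod p) (ZMod p)} {c : ZMod p} (hc : c ≠ 0)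
    (hφ : eisOp N hℓ (ZMod p) φ = c • φ) :
    ∃ (s : heckeAlgebra N 2 ∅) (d : ZMod p), d ≠ 0 ∧
      HeckeH.heckeEnd N (ZMod p) (ZMod p) s φ = d • φ ∧
      ∀ y : Period.H N ℤ ℤ × Period.H N ℤ ℤ,
        (HeckeH.heckeEnd N ℤ ℤ s y.1, HeckeH.heckeEnd N ℤ ℤ s y.2) ∈
          LinearMap.range (betaMap ℤ ℤ hqN) := by
  have hℓN : ¬ ℓ ∣ N := fun h => hℓNq (h.mul_right q)
  obtain ⟨P, -, hmap, hP⟩ := exists_eisPoly (p := p) hqN hℓ hℓ2 hℓN hℓNq
  set t : heckeAlgebra N 2 ∅ := eisT N hℓ hℓN with ht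
  have htk : ∀ m : Period.H N (ZMod p) (ZMod p),
      HeckeH.heckeEnd N (ZMod p) (ZMod p) t m = eisOp N hℓ (ZMod p) m := fun m => by
    rw [ht, heckeEnd_eisT, eisOp_apply, Nat.cast_smul_eq_nsmul]
  refine ⟨aeval (t * t) P, (c * c) ^ P.natDegree, pow_ne_zero _ (mul_ne_zero hc hc), ?_, hP⟩
  have htt : HeckeH.heckeEnd N (ZMod p) (ZMod p) (t * t) φ = (c * c) • φ := by
    rw [map_mul, Module.End.mul_apply, htk φ, hφ, map_smul, htk φ, hφ, smul_smul]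
  rw [aeval_eigen _ _ _ _ htt P, hmap, eval_pow, eval_X]

/-- An integral class killed by `betaMap` whose reduction is a nonzero eigen class. -/
theorem exists_kernel_class (hq : q.Prime) {φ : Period.H N (ZMod p) (ZMod p)} (hφ : φ ≠ 0) {ε : ℤ}
    (hε : ε = 1 ∨ ε = -1) (a : ℕ → ℤ) (G : Set ℕ)
    (hT : ∀ ℓ (hℓ : ℓ.Prime), ¬ ℓ ∣ N → ℓ ∈ G →
      HeckeH.heckeH N hℓ (ZMod p) (ZMod p) φ = (a ℓ : ZMod p) • φ)
    (hTq : HeckeH.heckeH N hq (ZMod p) (ZMod p) φ = ((ε * (q + 1) : ℤ) : ZMod p) • φ)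
    {ℓ₀ : ℕ} (hℓ₀ : ℓ₀.Prime) (hℓ₀2 : ℓ₀ ≠ 2) (hℓ₀Nq : ¬ ℓ₀ ∣ N * q) (hℓ₀G : ℓ₀ ∈ G)
    (hne : ¬ (p : ℤ) ∣ a ℓ₀ - 1 - ℓ₀) :
    ∃ v : Period.H (N * q) ℤ ℤ, betaMap ℤ ℤ hqN v = 0 ∧
      Period.castH (N * q) (ZMod p) v ≠ 0 ∧
      ∀ ℓ (hℓ : ℓ.Prime), ¬ ℓ ∣ N * q → ℓ ∈ G →
        HeckeH.heckeH (N * q) hℓ (ZMod p) (ZMod p) (Period.castH (N * q) (ZMod p) v) =
          (a ℓ : ZMod p) • Period.castH (N * q) (ZMod p) v := by
  have hℓ₀N : ¬ ℓ₀ ∣ N := fun h => hℓ₀Nq (h.mul_right q)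
  set c : ZMod p := (a ℓ₀ : ZMod p) - ((ℓ₀ + 1 : ℕ) : ZMod p) with hc
  have hc0 : c ≠ 0 := by
    intro h
    refine hne ((ZMod.intCast_zmod_eq_zero_iff_dvd _ _).mp ?_)
    rw [← h, hc]
    push_cast
    ring
  have heis : eisOp N hℓ₀ (ZMod p) φ = c • φ := by
    rw [eisOp_apply, hT ℓ₀ hℓ₀ hℓ₀N hℓ₀G, hc]
    exact (sub_smul _ _ _).symm
  obtain ⟨s, d, hd, hsφ, hsy⟩ := exists_eisenstein_element hqN hℓ₀ hℓ₀2 hℓ₀Nq hc0 heis
  obtain ⟨φt, hφt⟩ := castH_zmod_surjective N p φ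
  set y' := betaMap ℤ ℤ hqN (alpha (q := q) ℤ ℤ (φt, -(ε • φt))) with hy'
  have hεe : ((ε : ℤ) : ZMod p) * (ε : ZMod p) = 1 := by rcases hε with rfl | rfl <;> simp
  have hwker : betaMap (ZMod p) (ZMod p) hqN
      (alpha (q := q) (ZMod p) (ZMod p) (φ, -(ε • φ))) = 0 := by
    rw [betaMap_alpha, map_neg, map_zsmul, Prod.mk_eq_zero]
    rw [show HeckeH.heckeH N (Fact.out : q.Prime) (ZMod p) (ZMod p) φ = _ from hTq,
      ← Int.cast_smul_eq_zsmul (ZMod p), ← Int.cast_smul_eq_zsmul (ZMod p),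
      ← Nat.cast_smul_eq_nsmul (ZMod p), ← Nat.cast_smul_eq_nsmul (ZMod p), smul_neg, smul_smul,
      smul_smul, ← sub_eq_add_neg, ← sub_eq_add_neg]
    push_cast
    refine ⟨(sub_smul _ _ φ).symm.trans ?_, (sub_smul _ _ φ).symm.trans ?_⟩
    · rw [show ((q : ZMod p) + 1) - (ε : ZMod p) * ((ε : ZMod p) * ((q : ZMod p) + 1)) = 0 by
        linear_combination (-((q : ZMod p) + 1)) * hεe]
      exact zero_smul _ φ
    · rw [show (ε : ZMod p) * ((q : ZMod p) + 1) - ((q : ZMod p) + 1) * (ε : ZMod p) = 0 by ring]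
      exact zero_smul _ φ
  have hy0 : Period.castH N (ZMod p) y'.1 = 0 ∧ Period.castH N (ZMod p) y'.2 = 0 := by
    rw [← Prod.mk_eq_zero, hy', castH_betaMap, castH_alpha, map_neg, map_zsmul, hφt]
    exact hwker
  obtain ⟨y1, hy1⟩ := exists_smul_of_castH_eq_zero hy0.1
  obtain ⟨y2, hy2⟩ := exists_smul_of_castH_eq_zero hy0.2
  obtain ⟨z, hz⟩ := hsy (y1, y2)
  set E := HeckeH.heckeEnd N ℤ ℤ with hE
  refine ⟨alpha (q := q) ℤ ℤ (E s φt, -(ε • E s φt)) - (p : ℤ) • z, ?_, ?_⟩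
  · have hcomm : ∀ m, HeckeH.heckeH N (Fact.out : q.Prime) ℤ ℤ (E s m) =
        E s (HeckeH.heckeH N (Fact.out : q.Prime) ℤ ℤ m) := fun m => by
      rw [← HeckeH.heckeEnd_T N (Fact.out : q.Prime) hqN (Set.notMem_empty q), hE,
        ← Module.End.mul_apply, ← map_mul, mul_comm, map_mul, Module.End.mul_apply]
    rw [hy', betaMap_alpha] at hy1 hy2
    simp only at hy1 hy2
    have e1 : (q + 1) • E s φt + HeckeH.heckeH N (Fact.out : q.Prime) ℤ ℤ (-(ε • E s φt)) =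
        E s ((q + 1) • φt + HeckeH.heckeH N (Fact.out : q.Prime) ℤ ℤ (-(ε • φt))) := by
      simp only [map_add, map_nsmul, map_neg, map_zsmul, hcomm]
    have e2 : HeckeH.heckeH N (Fact.out : q.Prime) ℤ ℤ (E s φt) + (q + 1) • -(ε • E s φt) =
        E s (HeckeH.heckeH N (Fact.out : q.Prime) ℤ ℤ φt + (q + 1) • -(ε • φt)) := by
      simp only [map_add, map_nsmul, map_neg, map_zsmul, hcomm]
    rw [map_sub, map_zsmul, hz, betaMap_alpha, e1, e2, hy1, hy2, map_zsmul, map_zsmul,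
      Prod.smul_mk, sub_self]
  · have hcast : Period.castH (N * q) (ZMod p)
        (alpha (q := q) ℤ ℤ (E s φt, -(ε • E s φt)) - (p : ℤ) • z) =
          d • alpha (q := q) (ZMod p) (ZMod p) (φ, -(ε • φ)) := by
      rw [map_sub, map_zsmul, castH_alpha, map_neg, map_zsmul, hE, ← HeckeH.heckeEnd_castH, hφt,
        hsφ, ← Int.cast_smul_eq_zsmul (ZMod p) (p : ℤ), Int.cast_natCast, ZMod.natCast_self,
        zero_smul, sub_zero, smul_comm ε d φ, ← smul_neg, ← map_smul, Prod.smul_mk]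
    rw [hcast]
    refine ⟨fun h0 => ?_, fun ℓ hℓ hℓNq hG => ?_⟩
    · obtain ⟨k1, -⟩ := ihara_kernel hqN (cp := p) Fact.out hℓ₀ hℓ₀2 hℓ₀Nq
        ((smul_eq_zero.mp h0).resolve_left hd)
      rw [heis, map_smul, heis, smul_smul] at k1
      exact hφ ((smul_eq_zero.mp k1).resolve_left (mul_ne_zero hc0 hc0))
    · rw [map_smul, alpha_heckeH hℓ hℓNq, map_neg, map_zsmul,
        hT ℓ hℓ (fun h => hℓNq (h.mul_right q)) hG, smul_comm ε]
      have e : (((a ℓ : ZMod p) • φ, -((a ℓ : ZMod p) • ε • φ)) :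
          Period.H N (ZMod p) (ZMod p) × Period.H N (ZMod p) (ZMod p)) =
            (a ℓ : ZMod p) • (φ, -(ε • φ)) :=
        Prod.ext rfl (smul_neg (a ℓ : ZMod p) (ε • φ)).symm
      rw [e, map_smul, smul_comm]

/-- A character of level `N q` with `U_q ^ 2 = 1` congruent to the given values. -/
theorem exists_new_character (hq : q.Prime) {v : Period.H (N * q) ℤ ℤ}
    (hv : betaMap ℤ ℤ hqN v = 0) (hv0 : Period.castH (N * q) (ZMod p) v ≠ 0) (a : ℕ → ℤ) (G : Set ℕ)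
    (hT : ∀ ℓ (hℓ : ℓ.Prime), ¬ ℓ ∣ N * q → ℓ ∈ G →
      HeckeH.heckeH (N * q) hℓ (ZMod p) (ZMod p) (Period.castH (N * q) (ZMod p) v) =
        (a ℓ : ZMod p) • Period.castH (N * q) (ZMod p) v) :
    ∃ (χ : heckeAlgebra (N * q) 2 ∅ →+* ℂ) (𝔪' : Ideal (integralClosure ℤ ℂ)), 𝔪'.IsMaximal ∧
      (p : integralClosure ℤ ℂ) ∈ 𝔪' ∧
      χ (heckeAlgebra.U hq (dvd_mul_left q N) (Set.notMem_empty q)) ^ 2 = 1 ∧
      ∀ ℓ (hℓ : ℓ.Prime) (hℓNq : ¬ ℓ ∣ N * q), ℓ ∈ G →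
        ∃ x : integralClosure ℤ ℂ, (x : ℂ) = χ (tOf (N * q) hℓ hℓNq) ∧
          x - ((a ℓ : ℤ) : integralClosure ℤ ℂ) ∈ 𝔪' := by
  haveI := IntStr.moduleFinite_heckeAlgebra_two (N * q)
  set E := HeckeH.heckeEnd (N * q) ℤ ℤ with hE
  set Ep := HeckeH.heckeEnd (N * q) (ZMod p) (ZMod p) with hEp
  let J : Ideal (heckeAlgebra (N * q) 2 ∅) :=
    { carrier := {t | E t v = 0}
      add_mem' := fun {s t} hs ht => by
        show E (s + t) v = 0
        rw [map_add, LinearMap.add_apply, hs, ht, add_zero]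
      zero_mem' := by show E 0 v = 0; rw [map_zero, LinearMap.zero_apply]
      smul_mem' := fun r t ht => by
        show E (r * t) v = 0
        rw [map_mul, Module.End.mul_apply, ht, map_zero] }
  let J₂ : Ideal (heckeAlgebra (N * q) 2 ∅) :=
    { carrier := {t | Ep t (Period.castH (N * q) (ZMod p) v) = 0}
      add_mem' := fun {s t} hs ht => by
        show Ep (s + t) _ = 0
        rw [map_add, LinearMap.add_apply, hs, ht, add_zero]
      zero_mem' := by show Ep 0 _ = 0; rw [map_zero, LinearMap.zero_apply]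
      smul_mem' := fun r t ht => by
        show Ep (r * t) _ = 0
        rw [map_mul, Module.End.mul_apply, ht, map_zero] }
  have hJ : J ≤ J₂ := fun t ht => by
    show Ep t _ = 0
    rw [hEp, HeckeH.heckeEnd_castH, ← hE, ht, map_zero]
  obtain ⟨𝔫, h𝔫, hJ𝔫⟩ := J₂.exists_le_maximal (by
    rw [Ideal.ne_top_iff_one]
    intro h
    exact hv0 ((LinearMap.congr_fun (map_one Ep) _).symm.trans h))
  let Sig : Submonoid (heckeAlgebra (N * q) 2 ∅) :=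
    { carrier := {x | ∃ (m : ℤ) (s : heckeAlgebra (N * q) 2 ∅), m ≠ 0 ∧ s ∉ 𝔫 ∧ x = m * s}
      one_mem' := ⟨1, 1, one_ne_zero, 𝔫.ne_top_iff_one.mp h𝔫.ne_top, by simp⟩
      mul_mem' := by
        rintro _ _ ⟨m, s, hm, hs, rfl⟩ ⟨m', s', hm', hs', rfl⟩
        exact ⟨m * m', s * s', mul_ne_zero hm hm',
          fun h => (h𝔫.isPrime.mem_or_mem h).elim hs hs', by push_cast; ring⟩ }
  have hdis : Disjoint (J : Set (heckeAlgebra (N * q) 2 ∅)) Sig := by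
    rw [Set.disjoint_left]
    rintro _ hJx ⟨m, s, hm, hs, rfl⟩
    refine hs (hJ𝔫 (hJ ?_))
    have h : E (m * s) v = 0 := hJx
    rw [map_mul, map_intCast, Module.End.mul_apply, Module.End.intCast_apply] at h
    exact (smul_eq_zero.mp h).resolve_left hm
  obtain ⟨P, hP, hJP, hPdis⟩ := Ideal.exists_le_prime_disjoint J Sig hdis
  have hP𝔫 : P ≤ 𝔫 := fun x hx => by
    by_contra h
    exact Set.disjoint_left.mp hPdis hx ⟨1, x, one_ne_zero, h, by simp⟩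
  have hinj : Function.Injective
      (Int.castRingHom (heckeAlgebra (N * q) 2 ∅ ⧸ P)) := by
    rw [injective_iff_map_eq_zero]
    intro m hm
    by_contra hm0
    rw [eq_intCast, ← map_intCast (Ideal.Quotient.mk P), Ideal.Quotient.eq_zero_iff_mem] at hm
    exact Set.disjoint_left.mp hPdis hm
      ⟨m, 1, hm0, 𝔫.ne_top_iff_one.mp h𝔫.ne_top, by simp⟩
  haveI : CharZero (heckeAlgebra (N * q) 2 ∅ ⧸ P) := charZero_of_inj_zero fun n hn => by
    have := hinj (a₁ := (n : ℤ)) (a₂ := 0) (by simpa using hn)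
    exact_mod_cast this
  haveI hint : Algebra.IsIntegral ℤ (heckeAlgebra (N * q) 2 ∅ ⧸ P) := ⟨fun y => by
    obtain ⟨x, rfl⟩ := Ideal.Quotient.mk_surjective y
    exact map_isIntegral_int (Ideal.Quotient.mk P) (Algebra.IsIntegral.isIntegral x)⟩
  obtain ⟨χD, -⟩ := Reps.exists_ringHom_extension (Ω := ℂ) hinj (fun y => by
    have h : IsIntegral ℤ y := hint.isIntegral y
    rw [IsIntegral, RingHom.ext_int (algebraMap ℤ _) (Int.castRingHom (heckeAlgebra (N * q) 2 ∅ ⧸ P))] at h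
    exact h) (Int.castRingHom ℂ)
  let χ := χD.comp (Ideal.Quotient.mk P)
  let ψ : heckeAlgebra (N * q) 2 ∅ →+* integralClosure ℤ ℂ :=
    χ.codRestrict (integralClosure ℤ ℂ) fun t =>
      map_isIntegral_int χ (Algebra.IsIntegral.isIntegral t)
  have hker : RingHom.ker ψ ≤ 𝔫 := by
    intro t ht
    refine hP𝔫 (Ideal.Quotient.eq_zero_iff_mem.mp ?_)
    have hD : RingHom.ker χD = ⊥ := Ideal.eq_bot_of_comap_eq_bot (R := ℤ) (by
      rw [eq_bot_iff]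
      intro z hz
      simpa using hz)
    exact (RingHom.injective_iff_ker_eq_bot χD).mpr hD
      ((congrArg Subtype.val ht).trans (map_zero χD).symm)
  letI := ψ.toAlgebra
  haveI : Algebra.IsIntegral (heckeAlgebra (N * q) 2 ∅) (integralClosure ℤ ℂ) :=
    ⟨fun y => (Algebra.IsIntegral.isIntegral (R := ℤ) y).tower_top⟩
  haveI := h𝔫
  obtain ⟨𝔪', h𝔪', hcomap⟩ :=
    Ideal.exists_ideal_over_maximal_of_isIntegral (S := integralClosure ℤ ℂ) 𝔫 hker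
  have hmem : ∀ t, t ∈ J₂ → ψ t ∈ 𝔪' := fun t ht => by
    have := hJ𝔫 ht
    rwa [← hcomap] at this
  refine ⟨χ, 𝔪', h𝔪', ?_, ?_, fun ℓ hℓ hℓNq hG => ⟨ψ (tOf (N * q) hℓ hℓNq), rfl, ?_⟩⟩
  · rw [← map_natCast ψ]
    refine hmem _ ?_
    show Ep _ _ = 0
    rw [map_natCast, Module.End.natCast_apply, ← Nat.cast_smul_eq_nsmul (ZMod p),
      ZMod.natCast_self, zero_smul]
  · set U := heckeAlgebra.U (k := 2) (S := ∅) hq (dvd_mul_left q N) (Set.notMem_empty q) with hU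
    have hUJ : U ^ 2 - 1 ∈ J := by
      show E (U ^ 2 - 1) v = 0
      rw [map_sub, map_one, map_pow, sq, LinearMap.sub_apply, Module.End.mul_apply, hE, hU,
        HeckeH.heckeEnd_U, Module.End.one_apply, sub_eq_zero]
      exact heckeH_sq_of_betaMap_eq_zero hqN ℤ ℤ v hv
    have h0 : χ (U ^ 2 - 1) = 0 := by
      show χD (Ideal.Quotient.mk P (U ^ 2 - 1)) = 0
      rw [Ideal.Quotient.eq_zero_iff_mem.mpr (hJP hUJ), map_zero]
    rwa [map_sub, map_one, map_pow, sub_eq_zero] at h0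
  · rw [← map_intCast ψ, ← map_sub]
    refine hmem _ ?_
    show Ep _ _ = 0
    rw [map_sub, map_intCast, LinearMap.sub_apply, hEp, HeckeH.heckeEnd_T, hT ℓ hℓ hℓNq hG,
      Module.End.intCast_apply]
    exact sub_eq_zero.mpr
      (Int.cast_smul_eq_zsmul (ZMod p) (a ℓ) (Period.castH (N * q) (ZMod p) v))

/-- Level raising, given one non-Eisenstein prime. -/
theorem exists_newAt_of_congruence (hq : q.Prime) {f : CuspForm (Gamma0 N) 2}
    (hf : f.IsNormalizedEigenform) {𝔪 : Ideal (integralClosure ℤ ℂ)} (hmax : 𝔪.IsMaximal)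
    (hpm : (p : integralClosure ℤ ℂ) ∈ 𝔪) (a : ℕ → ℤ) (G : Set ℕ)
    (hcong : ∀ ℓ : ℕ, ℓ.Prime → ¬ ℓ ∣ N → ℓ ∈ G →
      ∃ x : integralClosure ℤ ℂ, (x : ℂ) = ModularFormClass.qCoeff f ℓ ∧
        x - ((a ℓ : ℤ) : integralClosure ℤ ℂ) ∈ 𝔪)
    (hLR : ∃ x : integralClosure ℤ ℂ, (x : ℂ) = ModularFormClass.qCoeff f q ∧
      x ^ 2 - ((q : integralClosure ℤ ℂ) + 1) ^ 2 ∈ 𝔪)
    (hne : ∃ ℓ : ℕ, ℓ.Prime ∧ ℓ ≠ 2 ∧ ¬ ℓ ∣ N * q ∧ ℓ ∈ G ∧ ¬ (p : ℤ) ∣ a ℓ - 1 - ℓ)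
    (hqN : ¬ q ∣ N) :
    ∃ (g : CuspForm (Gamma0 (N * q)) 2) (𝔪' : Ideal (integralClosure ℤ ℂ)),
      g.IsNormalizedEigenform ∧ 𝔪'.IsMaximal ∧ (p : integralClosure ℤ ℂ) ∈ 𝔪' ∧
      (∀ ℓ : ℕ, ℓ.Prime → ¬ ℓ ∣ N * q → ℓ ∈ G →
        ∃ x : integralClosure ℤ ℂ, (x : ℂ) = ModularFormClass.qCoeff g ℓ ∧
          x - ((a ℓ : ℤ) : integralClosure ℤ ℂ) ∈ 𝔪') ∧
      ModularFormClass.qCoeff g q ^ 2 = 1 := by
  obtain ⟨φ, ε, hφ, hε, hT, hTq⟩ :=
    exists_signed_eigenvector (q := q) hf hmax hpm a G hcong hqN hLR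
  obtain ⟨ℓ₀, h1, h2, h3, h4, h5⟩ := hne
  obtain ⟨v, hv, hv0, hvT⟩ :=
    exists_kernel_class hqN hq hφ hε a G hT hTq h1 h2 h3 h4 h5
  obtain ⟨χ, 𝔪', hm', hp', hU, hχ⟩ := exists_new_character hqN hq hv hv0 a G hvT
  obtain ⟨g, hg, hgT, hgU⟩ := exists_eigenform_of_hom_full χ
  refine ⟨g, 𝔪', hg, hm', hp', fun ℓ hℓ hℓNq hG => ?_, ?_⟩
  · rw [hgT ℓ hℓ hℓNq]
    exact hχ ℓ hℓ hℓNq hG
  · rw [hgU q hq (dvd_mul_left q N)]
    exact hU

end FLTAgent.Ihara
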