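import Fermat.Agent.Ihara.OldImage
import Fermat.Agent.Ihara.Lift

/-!
# Exactness at `q` up to Eisenstein elements

`exists_exactness`: there is an element congruent mod `p` to a power of `T_ℓ - ℓ - 1` up to which
`betaMap` is onto over `ℤ`, the annihilator of `U_q ^ 2 - 1` lies in the kernel of `piOld`, and the
image of `U_q ^ 2 - 1` is saturated at `p`. Input: `exists_eisPoly`, from Ihara's lemma and duality.
-/

set_option autoImplicit false
set_option linter.unusedSectionVars false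
set_option linter.style.haveILetI false
set_option maxHeartbeats 1000000

open CongruenceSubgroup ModularCurve.Period CuspForm Polynomial
open scoped MatrixGroups

noncomputable section

namespace FLTAgent.Ihara

variable {N q : ℕ} [NeZero N] [Fact q.Prime] (hqN : ¬ q ∣ N)

/-- The invertible matrix `[[-1, T_q], [0, -1]]` between corestrictions and old classes. -/
def oldM (y : HPair N) : HPair N :=
  (HeckeH.heckeH N (Fact.out : q.Prime) ℤ ℤ y.2 - y.1, -y.2)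

/-- The inverse of `oldM`. -/
def oldMInv (z : HPair N) : HPair N :=
  (-HeckeH.heckeH N (Fact.out : q.Prime) ℤ ℤ z.2 - z.1, -z.2)

theorem oldM_oldMInv (z : HPair N) : oldM (q := q) (oldMInv (q := q) z) = z := by
  simp only [oldM, oldMInv, map_neg, neg_neg]
  exact Prod.ext (by simp) rfl

include hqN in
theorem oldM_diagAct (s : heckeAlgebra N 2 ∅) (y : HPair N) :
    oldM (q := q) (diagAct N s y) = diagAct N s (oldM (q := q) y) := by
  simp only [oldM, diagAct_apply, map_sub, map_neg, heckeH_commute_end hqN]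

theorem heckeH_sq_sub_oldM (φ : Period.H (N * q) ℤ ℤ) :
    HeckeH.heckeH (N * q) (Fact.out : q.Prime) ℤ ℤ
        (HeckeH.heckeH (N * q) (Fact.out : q.Prime) ℤ ℤ φ) - φ =
      alpha (q := q) ℤ ℤ (oldM (q := q) (betaMap ℤ ℤ hqN φ)) :=
  heckeH_sq_sub hqN ℤ ℤ φ

include hqN in
/-- If `diag s` lands in the image of `betaMap`, every pair is `oldM (betaMap φ)` up to `s`. -/
theorem exists_oldM_eq {s : heckeAlgebra N 2 ∅}
    (hs : ∀ y : HPair N, diagAct N s y ∈ LinearMap.range (betaMap ℤ ℤ hqN)) (z : HPair N) :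
    ∃ φ : Period.H (N * q) ℤ ℤ, oldM (q := q) (betaMap ℤ ℤ hqN φ) = diagAct N s z := by
  obtain ⟨φ, hφ⟩ := hs (oldMInv (q := q) z)
  exact ⟨φ, by rw [hφ, oldM_diagAct hqN, oldM_oldMInv]⟩

/-- The converse of `mul_eq_zero_of_piOld_eq_zero`, up to `s`. -/
theorem of_mul_piOld_eq_zero (hq : q ∣ N * q) {s : heckeAlgebra N 2 ∅}
    (hs : ∀ y : HPair N, diagAct N s y ∈ LinearMap.range (betaMap ℤ ℤ hqN))
    {t : heckeAlgebra (N * q) 2 ∅}
    (h : t * (heckeAlgebra.U (Fact.out : q.Prime) hq (Set.notMem_empty q) ^ 2 - 1) = 0) :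
    piOld hqN t * AdjoinRoot.of _ s = 0 := by
  refine oldAct_injective hqN (LinearMap.ext fun z => ?_)
  obtain ⟨φ, hφ⟩ := exists_oldM_eq hqN hs z
  rw [map_mul, Module.End.mul_apply, oldAct_of, ← hφ, map_zero, LinearMap.zero_apply]
  refine alpha_int_injective hqN ?_
  rw [← heckeEnd_alpha, ← heckeH_sq_sub_oldM, map_zero,
    ← HeckeH.heckeEnd_U (N * q) (Fact.out : q.Prime) hq (Set.notMem_empty q)]
  have e := LinearMap.congr_fun (congrArg (HeckeH.heckeEnd (N * q) ℤ ℤ) h) φ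
  rw [map_mul, map_sub, map_pow, map_one, sq, Module.End.mul_apply, LinearMap.sub_apply,
    Module.End.mul_apply, Module.End.one_apply, map_zero, LinearMap.zero_apply] at e
  exact e

theorem piOld_eisT {ℓ : ℕ} (hℓ : ℓ.Prime) (hℓN : ¬ ℓ ∣ N) (hℓNq : ¬ ℓ ∣ N * q) :
    piOld hqN (eisT (N * q) hℓ hℓNq) = AdjoinRoot.of _ (eisT N hℓ hℓN) := by
  rw [eisT, eisT, map_sub, map_sub, piOld_T hqN hℓ hℓNq hℓN, map_natCast, map_natCast]

variable (p : ℕ) [Fact p.Prime]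

/-- Saturation of the image of `U_q ^ 2 - 1`, up to `t ^ 2 s`. -/
theorem exists_sq_sub_of_smul {ℓ : ℕ} (hℓ : ℓ.Prime) (hℓ2 : ℓ ≠ 2) (hℓN : ¬ ℓ ∣ N)
    (hℓNq : ¬ ℓ ∣ N * q) {s : heckeAlgebra N 2 ∅} {s' : heckeAlgebra (N * q) 2 ∅}
    (hs : ∀ y : HPair N, diagAct N s y ∈ LinearMap.range (betaMap ℤ ℤ hqN))
    (hs' : piOld hqN s' = AdjoinRoot.of _ s) {φ ψ : Period.H (N * q) ℤ ℤ}
    (h : HeckeH.heckeH (N * q) (Fact.out : q.Prime) ℤ ℤ
        (HeckeH.heckeH (N * q) (Fact.out : q.Prime) ℤ ℤ φ) - φ = (p : ℤ) • ψ) :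
    ∃ φ₁ : Period.H (N * q) ℤ ℤ,
      HeckeH.heckeEnd (N * q) ℤ ℤ (s' * (eisT (N * q) hℓ hℓNq * eisT (N * q) hℓ hℓNq)) ψ =
        HeckeH.heckeH (N * q) (Fact.out : q.Prime) ℤ ℤ
          (HeckeH.heckeH (N * q) (Fact.out : q.Prime) ℤ ℤ φ₁) - φ₁ := by
  set x := oldM (q := q) (betaMap ℤ ℤ hqN φ) with hx
  rw [heckeH_sq_sub_oldM hqN, ← hx] at h
  have hx0 : alpha (q := q) (ZMod p) (ZMod p)
      (Period.castH N (ZMod p) x.1, Period.castH N (ZMod p) x.2) = 0 := by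
    rw [← castH_alpha, h, map_zsmul, ← Int.cast_smul_eq_zsmul (ZMod p), Int.cast_natCast,
      ZMod.natCast_self, zero_smul]
  obtain ⟨k1, k2⟩ := ihara_kernel hqN (cp := p) Fact.out hℓ hℓ2 hℓNq hx0
  have hcast : ∀ m : Period.H N ℤ ℤ, eisOp N hℓ (ZMod p) (Period.castH N (ZMod p) m) =
      Period.castH N (ZMod p) (HeckeH.heckeEnd N ℤ ℤ (eisT N hℓ hℓN) m) := fun m => by
    rw [← HeckeH.heckeEnd_castH, heckeEnd_eisT, eisOp_apply, Nat.cast_smul_eq_nsmul]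
  rw [hcast, hcast] at k1 k2
  obtain ⟨w1, hw1⟩ := exists_smul_of_castH_eq_zero k1
  obtain ⟨w2, hw2⟩ := exists_smul_of_castH_eq_zero k2
  set t := eisT (N * q) hℓ hℓNq with ht
  have hπ : piOld hqN (t * t) = AdjoinRoot.of _ (eisT N hℓ hℓN * eisT N hℓ hℓN) := by
    rw [map_mul, map_mul, ht, piOld_eisT hqN hℓ hℓN hℓNq]
  have e : (p : ℤ) • (HeckeH.heckeEnd (N * q) ℤ ℤ (t * t) ψ - alpha (q := q) ℤ ℤ (w1, w2)) = 0 := by
    rw [smul_sub, ← map_zsmul (HeckeH.heckeEnd (N * q) ℤ ℤ (t * t)), ← h, heckeEnd_alpha hqN, hπ,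
      oldAct_of, diagAct_apply, map_mul, Module.End.mul_apply, Module.End.mul_apply, hw1, hw2,
      ← map_zsmul, Prod.smul_mk, sub_self]
  rw [smul_eq_zero, sub_eq_zero] at e
  have e' := e.resolve_left (by exact_mod_cast (Fact.out : p.Prime).ne_zero)
  obtain ⟨φ₁, hφ₁⟩ := exists_oldM_eq hqN hs (w1, w2)
  refine ⟨φ₁, ?_⟩
  rw [map_mul, Module.End.mul_apply, e', heckeEnd_alpha hqN, hs', oldAct_of, heckeH_sq_sub_oldM hqN,
    hφ₁]

/-- Everything at once: an element congruent mod `p` to a power of `T_ℓ - ℓ - 1` up to which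
`betaMap` is onto, `ker piOld` is the annihilator of `U_q ^ 2 - 1` and its image is saturated. -/
theorem exists_exactness {ℓ : ℕ} (hℓ : ℓ.Prime) (hℓ2 : ℓ ≠ 2) (hℓN : ¬ ℓ ∣ N)
    (hℓNq : ¬ ℓ ∣ N * q) (hq : q ∣ N * q) :
    ∃ (s : heckeAlgebra N 2 ∅) (s' : heckeAlgebra (N * q) 2 ∅) (n : ℕ),
      piOld hqN s' = AdjoinRoot.of _ s ∧
      (p : heckeAlgebra N 2 ∅) ∣ s - eisT N hℓ hℓN ^ n ∧
      (p : heckeAlgebra (N * q) 2 ∅) ∣ s' - eisT (N * q) hℓ hℓNq ^ n ∧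
      (∀ y : HPair N, diagAct N s y ∈ LinearMap.range (betaMap ℤ ℤ hqN)) ∧
      (∀ t : heckeAlgebra (N * q) 2 ∅,
        t * (heckeAlgebra.U (Fact.out : q.Prime) hq (Set.notMem_empty q) ^ 2 - 1) = 0 →
          piOld hqN t * AdjoinRoot.of _ s = 0) ∧
      (∀ φ ψ : Period.H (N * q) ℤ ℤ,
        HeckeH.heckeH (N * q) (Fact.out : q.Prime) ℤ ℤ
            (HeckeH.heckeH (N * q) (Fact.out : q.Prime) ℤ ℤ φ) - φ = (p : ℤ) • ψ →
          ∃ φ₁ : Period.H (N * q) ℤ ℤ, HeckeH.heckeEnd (N * q) ℤ ℤ s' ψ =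
            HeckeH.heckeH (N * q) (Fact.out : q.Prime) ℤ ℤ
              (HeckeH.heckeH (N * q) (Fact.out : q.Prime) ℤ ℤ φ₁) - φ₁) := by
  obtain ⟨P, -, hmap, hP⟩ := exists_eisPoly (p := p) hqN hℓ hℓ2 hℓN hℓNq
  have hdvd : C (p : ℤ) ∣ P - X ^ P.natDegree := by
    rw [C_dvd_iff_dvd_coeff]
    intro k
    rw [← ZMod.intCast_zmod_eq_zero_iff_dvd, ← eq_intCast (Int.castRingHom (ZMod p)),
      ← coeff_map, Polynomial.map_sub, hmap, Polynomial.map_pow, map_X, sub_self, coeff_zero]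
  have hpow : ∀ {A : Type} [CommRing A] (τ : A), (p : A) ∣
      aeval (τ * τ) P * (τ * τ) - τ ^ (2 * P.natDegree + 2) := by
    intro A _ τ
    obtain ⟨R, hR⟩ := hdvd
    generalize P.natDegree = n at hR ⊢
    rw [eq_add_of_sub_eq hR, map_add, map_mul, map_pow, aeval_X, aeval_C, map_natCast]
    exact ⟨aeval (τ * τ) R * (τ * τ), by ring⟩
  set t := eisT (N * q) hℓ hℓNq with ht
  set t₀ := eisT N hℓ hℓN with ht₀
  have hπ : ∀ Q : ℤ[X], piOld hqN (aeval (t * t) Q) =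
      AdjoinRoot.of (oldPoly hqN) (aeval (t₀ * t₀) Q) := by
    intro Q
    induction Q using Polynomial.induction_on' with
    | add Q R hQ hR => rw [map_add, map_add, map_add, map_add, hQ, hR]
    | monomial n z =>
      rw [aeval_monomial, aeval_monomial, map_mul, map_mul, map_pow, map_pow, map_mul, map_mul,
        ht, piOld_eisT hqN hℓ hℓN hℓNq, eq_intCast (algebraMap ℤ (heckeAlgebra (N * q) 2 ∅)),
        eq_intCast (algebraMap ℤ (heckeAlgebra N 2 ∅)), map_intCast, map_intCast]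
  have hrange : ∀ y : HPair N,
      diagAct N (aeval (t₀ * t₀) P * (t₀ * t₀)) y ∈ LinearMap.range (betaMap ℤ ℤ hqN) := fun y => by
    rw [map_mul, Module.End.mul_apply]
    exact hP _
  refine ⟨aeval (t₀ * t₀) P * (t₀ * t₀), aeval (t * t) P * (t * t), 2 * P.natDegree + 2, ?_,
    hpow t₀, hpow t, hrange, fun r hr => of_mul_piOld_eq_zero hqN hq hrange hr, fun φ ψ h => ?_⟩
  · rw [map_mul, map_mul, hπ, map_mul, map_mul, ht, piOld_eisT hqN hℓ hℓN hℓNq]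
  · exact exists_sq_sub_of_smul hqN p hℓ hℓ2 hℓN hℓNq (s := aeval (t₀ * t₀) P)
      (fun y => hP y) (hπ P) h

end FLTAgent.Ihara
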