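import Fermat.Agent.Ihara.Rows

/-!
# Ihara's lemma, elementary form

`ihara_kernel`: over a field of prime characteristic, a pair in the kernel of
`alpha : H(N)² → H(N q)` is killed by `(T_ℓ - ℓ - 1)²`, for an odd prime `ℓ ∤ N q`.
Idea: auxiliary primes `r ≡ -1 (mod N)` show that `T_ℓ` acts by `ℓ + 1` on such a character at
deep congruence elements (`hval_heckeH_deep`), and a character killing a principal congruence
subgroup is Eisenstein (`heckeH_of_deep`). No amalgam or congruence subgroup property is used.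
-/

set_option autoImplicit false
set_option linter.unusedSectionVars false

open CongruenceSubgroup ModularCurve.Period
open scoped MatrixGroups
open FLTAgent.HeckeH (M2 matOf mkGamma0 heckeBeta heckeIdx)

noncomputable section

namespace FLTAgent.Ihara

variable {N : ℕ} [NeZero N] {k : Type*} [Field k]

/-- The diagonal entries of a power are the powers of the diagonal entries, modulo a divisor of
the lower left entry. -/
theorem diag_pow {M r : ℕ} (hrM : r ∣ M) (γ : Gamma0 M) (n : ℕ) :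
    ((matOf (γ ^ n) 0 0 : ℤ) : ZMod r) = ((matOf γ 0 0 : ℤ) : ZMod r) ^ n ∧
      ((matOf (γ ^ n) 1 1 : ℤ) : ZMod r) = ((matOf γ 1 1 : ℤ) : ZMod r) ^ n := by
  have hz : ∀ δ : Gamma0 M, ((matOf δ 1 0 : ℤ) : ZMod r) = 0 := fun δ =>
    (ZMod.intCast_zmod_eq_zero_iff_dvd _ _).mpr
      ((Int.natCast_dvd_natCast.mpr hrM).trans (HeckeH.matOf_dvd δ))
  induction n with
  | zero => simp
  | succ n ih =>
    rw [pow_succ γ n, HeckeH.matOf_mul, Matrix.mul_apply, Matrix.mul_apply, Fin.sum_univ_two,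
      Fin.sum_univ_two, pow_succ, pow_succ]
    push_cast
    rw [hz γ, hz (γ ^ n), ih.1, ih.2]
    exact ⟨by ring, by ring⟩

variable {q : ℕ} [Fact q.Prime] (hqN : ¬ q ∣ N) {φ ψ : Period.H N k k}
  (hpair : IsKernelPair (q := q) φ ψ)
include hqN hpair

theorem hval_degHom_sq_of_dvd {r : ℕ} [NeZero (r ^ 2)] (hr : r.Prime)
    (hrq : ¬ (r : ℤ) ∣ (q : ℤ) ^ (4 * N) - 1) (hne : r ≠ q) (hrN : (N : ℤ) ∣ (r : ℤ) + 1)
    (γ : Gamma0 (N * r ^ 2)) (had : (r : ℤ) ∣ matOf γ 0 0 - matOf γ 1 1) :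
    hval φ (Degen.degHom (r ^ 2) dvd_rfl γ) =
      hval φ (Degen.degHom 1 (by simp : N * 1 ∣ N * r ^ 2) γ) := by
  set γ₀ := Degen.degHom 1 (by simp : N * 1 ∣ N * r ^ 2) γ with hγ₀
  have hm0 : matOf γ₀ = matOf γ := congrArg (fun g : SL(2, ℤ) => (g : M2)) (Degen.degHom_one_coe _ γ)
  obtain ⟨y, hy⟩ := hrN
  set x : ℤ := -y with hx
  have hu : (-(r : ℤ)) - 1 = (N : ℤ) * x := by rw [hx]; linear_combination -hy
  let K : Gamma0 N := mkGamma0 (-(r : ℤ)) x N 1 (by linear_combination hu) dvd_rfl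
  let L : Gamma0 N := mkGamma0 1 0 ((r : ℤ) * N) 1 (by ring) (dvd_mul_left _ _)
  set γ₁ := L * γ₀ * L⁻¹ with hγ₁
  obtain ⟨c₀, hc₀⟩ := HeckeH.matOf_dvd γ
  push_cast at hc₀
  obtain ⟨t₀, ht₀⟩ := had
  have hm1 : matOf γ₁ = !![matOf γ 0 0 - matOf γ 0 1 * ((r : ℤ) * N), matOf γ 0 1;
      matOf γ 1 0 + (r : ℤ) * N * (matOf γ 0 0 - matOf γ 1 1) -
        ((r : ℤ) * N) ^ 2 * matOf γ 0 1, matOf γ 1 1 + matOf γ 0 1 * ((r : ℤ) * N)] := by
    rw [hγ₁, HeckeH.matOf_mul, HeckeH.matOf_mul, hm0, matOf_inv]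
    show !![(1 : ℤ), 0; (r : ℤ) * N, 1] * _ * Matrix.adjugate !![(1 : ℤ), 0; (r : ℤ) * N, 1] = _
    rw [Matrix.adjugate_fin_two_of, Matrix.eta_fin_two (matOf γ), Matrix.mul_fin_two,
      Matrix.mul_fin_two]
    ext i j
    fin_cases i <;> fin_cases j <;> simp <;> ring
  set s : ℤ := c₀ + t₀ - (N : ℤ) * matOf γ 0 1 with hs
  set t : ℤ := t₀ - 2 * (N : ℤ) * matOf γ 0 1 with ht
  have hc1 : matOf γ₁ 1 0 = ((N * r ^ 2 : ℕ) : ℤ) * s := by
    rw [hm1]
    simp only [Matrix.of_apply, Matrix.cons_val', Matrix.cons_val_zero, Matrix.cons_val_one,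
      Matrix.cons_val_fin_one]
    rw [hc₀, ht₀, hs]; push_cast; ring
  have ht1 : matOf γ₁ 0 0 - matOf γ₁ 1 1 = (r : ℤ) * t := by
    rw [hm1]
    simp only [Matrix.of_apply, Matrix.cons_val', Matrix.cons_val_zero, Matrix.cons_val_one,
      Matrix.cons_val_fin_one]
    rw [ht]; linear_combination ht₀
  have hd1 := HeckeH.det_entries γ₁
  rw [hc1] at hd1
  push_cast at hd1
  let γ₂ : Gamma0 N := mkGamma0 (matOf γ₁ 0 0 + x * r * N * s)
    (matOf γ₁ 0 1 - x * t - x ^ 2 * N * s) (((N * r ^ 2 : ℕ) : ℤ) * s)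
    (matOf γ₁ 1 1 - x * r * N * s)
    (by push_cast; linear_combination hd1 - (x * r * N * s) * ht1) (level_dvd s)
  have hval2 : hval φ γ₂ = hval φ γ₁ := by
    have hco : IsCoprime (((N * r ^ 2 : ℕ) : ℤ) * s) (matOf γ₁ 1 1) :=
      ⟨-(matOf γ₁ 0 1), matOf γ₁ 0 0, by push_cast; linear_combination hd1⟩
    rw [← rowFun_eq φ γ₂ (c := ((N * r ^ 2 : ℕ) : ℤ) * s)
        (d := matOf γ₁ 1 1 + (-x) * ((N : ℤ) * r * s)) (by simp [γ₂]) (by simp [γ₂]; ring),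
      ← rowFun_eq φ γ₁ hc1 rfl]
    exact rowFun_shift hqN hpair hr hrq hne hco (-x)
  set V : M2 := !![(r : ℤ), x; 0, (r : ℤ)] with hV
  set D : M2 := !![-((r : ℤ) ^ 2), 0; 0, -1] with hD
  have hKVL : matOf K * V * matOf L = D := by
    show !![-(r : ℤ), x; (N : ℤ), 1] * V * !![(1 : ℤ), 0; (r : ℤ) * N, 1] = D
    rw [hV, hD, Matrix.mul_fin_two, Matrix.mul_fin_two]
    ext i j
    fin_cases i <;> fin_cases j <;> simp
    all_goals first
      | linear_combination (0 : ℤ) * hu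
      | linear_combination -hu
      | linear_combination -((N : ℤ) * r) * hu
  have hV2 : matOf γ₂ * V = V * matOf γ₁ := by
    simp only [γ₂, HeckeH.matOf_mkGamma0]
    rw [hV, Matrix.eta_fin_two (matOf γ₁), Matrix.mul_fin_two, Matrix.mul_fin_two, hc1]
    ext i j
    fin_cases i <;> fin_cases j <;> simp
    · ring
    · linear_combination x * ht1
    · ring
    · ring
  have hdeg : Degen.degHom (r ^ 2) dvd_rfl γ = K * γ₂ * K⁻¹ := by
    have hD2 : D = -(Degen.dMat (r ^ 2)) := by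
      rw [hD, Degen.dMat]; ext i j; fin_cases i <;> fin_cases j <;> simp
    have hdD : D.det ≠ 0 := by
      rw [hD, Matrix.det_fin_two_of]; simp [hr.ne_zero]
    refine HeckeH.matOf_injective (HeckeH.mul_right_cancel_of_det_ne hdD ?_)
    have h1 : matOf (Degen.degHom (r ^ 2) dvd_rfl γ) * D = D * matOf γ := by
      rw [hD2, Matrix.mul_neg, Matrix.neg_mul, Degen.dMat_mul_degHom]
    have h2 : matOf (K * γ₂ * K⁻¹) * D = D * matOf γ := by
      rw [← hKVL, ← Matrix.mul_assoc, ← Matrix.mul_assoc, ← HeckeH.matOf_mul,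
        inv_mul_cancel_right, HeckeH.matOf_mul, Matrix.mul_assoc (matOf K) (matOf γ₂) V, hV2,
        ← Matrix.mul_assoc, Matrix.mul_assoc (matOf K * V) (matOf γ₁), ← HeckeH.matOf_mul, hγ₁,
        inv_mul_cancel_right, HeckeH.matOf_mul, hm0, ← Matrix.mul_assoc]
    exact h1.trans h2.symm
  rw [hdeg, hval_conj, hval2, hγ₁, hval_conj]

/-- Invariance under `(a, b; c, d) ↦ (a, r² b; c / r², d)`. -/
theorem rowFun_mul_sq {r : ℕ} (hr : r.Prime) (hrq : ¬ (r : ℤ) ∣ (q : ℤ) ^ (4 * N) - 1)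
    (hne : r ≠ q) (hrN : (N : ℤ) ∣ (r : ℤ) + 1) (hodd : Odd r) (hr1 : ((r / 2 : ℕ) : k) ≠ 0) {c d : ℤ}
    (hc : (N : ℤ) ∣ c) (h : IsCoprime ((r : ℤ) ^ 2 * c) d) :
    rowFun φ ((r : ℤ) ^ 2 * c) d = rowFun φ c d := by
  have : NeZero (r ^ 2) := ⟨pow_ne_zero _ hr.ne_zero⟩
  have : Fact r.Prime := ⟨hr⟩
  obtain ⟨γ, h1, h2⟩ := exists_row (M := N * r ^ 2) (c := (r : ℤ) ^ 2 * c) (d := d)
    (by push_cast; rw [mul_comm ((r : ℤ) ^ 2)]; exact mul_dvd_mul_right hc _) h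
  have hN1 : N * 1 ∣ N * r ^ 2 := by simp
  have had : ∀ δ : Gamma0 (N * r ^ 2), (r : ℤ) ∣ matOf (δ ^ (r / 2)) 0 0 - matOf (δ ^ (r / 2)) 1 1 := by
    intro δ
    have hrM : r ∣ N * r ^ 2 := Dvd.dvd.mul_left (dvd_pow_self r two_ne_zero) N
    obtain ⟨e0, e1⟩ := diag_pow hrM δ (r / 2)
    have hprod : ((matOf δ 0 0 : ℤ) : ZMod r) * ((matOf δ 1 1 : ℤ) : ZMod r) = 1 := by
      have := congrArg (fun z : ℤ => (z : ZMod r)) (HeckeH.det_entries δ)
      push_cast at this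
      rwa [(ZMod.intCast_zmod_eq_zero_iff_dvd _ _).mpr
        ((Int.natCast_dvd_natCast.mpr hrM).trans (HeckeH.matOf_dvd δ)), mul_zero, sub_zero] at this
    rw [← ZMod.intCast_zmod_eq_zero_iff_dvd, Int.cast_sub, e0, e1]
    have h1 := ZMod.pow_card_sub_one_eq_one (right_ne_zero_of_mul_eq_one hprod)
    have h2 : ((matOf δ 0 0 : ℤ) : ZMod r) ^ (r / 2) * ((matOf δ 1 1 : ℤ) : ZMod r) ^ (r / 2) = 1 := by
      rw [← mul_pow, hprod, one_pow]
    rw [show r - 1 = r / 2 + r / 2 by obtain ⟨j, rfl⟩ := hodd; omega, pow_add] at h1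
    linear_combination ((matOf δ 1 1 : ℤ) : ZMod r) ^ (r / 2) * h2 -
      ((matOf δ 0 0 : ℤ) : ZMod r) ^ (r / 2) * h1
  have key := hval_degHom_sq_of_dvd hqN hpair hr hrq hne hrN (γ ^ (r / 2)) (had γ)
  rw [map_pow, map_pow, hval_pow, hval_pow, nsmul_eq_mul, nsmul_eq_mul] at key
  have key' := mul_left_cancel₀ hr1 key
  obtain ⟨j0, j1⟩ : matOf γ 1 0 = ((r : ℤ) ^ 2) * matOf (Degen.degHom (r ^ 2) dvd_rfl γ) 1 0 ∧
      matOf (Degen.degHom (r ^ 2) dvd_rfl γ) 1 1 = matOf γ 1 1 := by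
    have h := Degen.dMat_mul_degHom (r ^ 2) (dvd_refl (N * r ^ 2)) γ
    have h10 := congrFun (congrFun h 1) 0
    have h11 := congrFun (congrFun h 1) 1
    simp [Degen.dMat, Matrix.mul_apply, Fin.sum_univ_two] at h10 h11
    exact ⟨by rw [h10]; ring, h11.symm⟩
  have hm0 : matOf (Degen.degHom 1 hN1 γ) = matOf γ :=
    congrArg (fun g : SL(2, ℤ) => (g : M2)) (Degen.degHom_one_coe _ γ)
  rw [rowFun_eq φ (Degen.degHom 1 hN1 γ) (by rw [hm0, h1]) (by rw [hm0, h2]),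
    rowFun_eq φ (Degen.degHom (r ^ 2) dvd_rfl γ)
      (mul_left_cancel₀ (pow_ne_zero 2 (by exact_mod_cast hr.ne_zero)) (j0.symm.trans h1))
      (j1.trans h2)]
  exact key'.symm

/-- Multiplying the lower left entry by `ℓ` has no effect when `d ≡ 1 mod 4 ℓ`. -/
theorem rowFun_mul_prime {cp : ℕ} [CharP k cp] (hcp : cp.Prime) {ℓ : ℕ}
    (hℓ : ℓ.Prime) (hℓ2 : ℓ ≠ 2) {c d : ℤ} (hc : (N : ℤ) ∣ c) (h : IsCoprime ((ℓ : ℤ) * c) d)
    (hc0 : c ≠ 0) (h4 : (4 : ℤ) ∣ c) (hd4 : 4 * (ℓ : ℤ) ∣ d - 1) :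
    rowFun φ ((ℓ : ℤ) * c) d = rowFun φ c d := by
  have hℓ0 : (ℓ : ℤ) ≠ 0 := by exact_mod_cast hℓ.ne_zero
  obtain ⟨p, hp, hpB, hpd⟩ := exists_prime_dvd_sub (n := (ℓ : ℤ) * c) (a := d)
    (mul_ne_zero hℓ0 hc0) h.symm (ℓ + cp + q + N + 4)
  obtain ⟨u, hu⟩ := hpd
  have hpe : (p : ℤ) = d + u * ((ℓ : ℤ) * c) := by linear_combination hu
  have hcd : IsCoprime c d := h.of_mul_left_right
  have hcp' : IsCoprime c (p : ℤ) := by
    rw [hpe, show u * ((ℓ : ℤ) * c) = u * (ℓ : ℤ) * c by ring]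
    exact hcd.add_mul_right_right _
  have s1 : rowFun φ ((ℓ : ℤ) * c) d = rowFun φ ((ℓ : ℤ) * c) p := by
    rw [hpe, rowFun_add_mul φ (hc.mul_left _) h]
  have s2 : rowFun φ c d = rowFun φ c p := by
    rw [hpe, show u * ((ℓ : ℤ) * c) = u * (ℓ : ℤ) * c by ring, rowFun_add_mul φ hc hcd]
  rw [s1, s2]
  have h41 : 4 * (ℓ : ℤ) ∣ (p : ℤ) - 1 := by
    rw [show (p : ℤ) - 1 = (d - 1) + (ℓ : ℤ) * (u * c) by rw [hpe]; ring]
    refine hd4.add ?_
    rw [mul_comm 4 (ℓ : ℤ)]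
    exact mul_dvd_mul_left _ (h4.mul_left u)
  have : Fact p.Prime := ⟨hp⟩
  have : Fact ℓ.Prime := ⟨hℓ⟩
  have hp4 : p % 4 = 1 := by
    have : (4 : ℤ) ∣ (p : ℤ) - 1 := (dvd_mul_right 4 _).trans h41
    omega
  have hsq : IsSquare (ℓ : ZMod p) := by
    rw [ZMod.exists_sq_eq_prime_iff_of_mod_four_eq_one hp4 hℓ2]
    have h0 : ((p : ℤ) - 1 : ℤ) = ((p : ℤ) - 1) := rfl
    have : (((p : ℤ) - 1 : ℤ) : ZMod ℓ) = 0 :=
      (ZMod.intCast_zmod_eq_zero_iff_dvd _ _).mpr ((dvd_mul_left _ 4).trans h41)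
    push_cast at this
    rw [sub_eq_zero] at this
    rw [this]
    exact IsSquare.one
  obtain ⟨σ, hσ⟩ := hsq
  have hσ0 : σ ≠ 0 := by
    rintro rfl
    rw [mul_zero, ZMod.natCast_eq_zero_iff, Nat.prime_dvd_prime_iff_eq hp hℓ] at hσ
    omega
  -- the auxiliary prime
  set m : ℤ := (N : ℤ) * cp * 4 with hm
  have hm0 : m ≠ 0 := mul_ne_zero (mul_ne_zero (by exact_mod_cast NeZero.ne N)
    (by exact_mod_cast hcp.ne_zero)) four_ne_zero
  have hpp : Prime (p : ℤ) := Nat.prime_iff_prime_int.mp hp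
  have hpm : IsCoprime m (p : ℤ) := by
    refine (hpp.coprime_iff_not_dvd.mpr fun h0 => ?_).symm
    rcases (hpp.dvd_or_dvd h0).imp_left hpp.dvd_or_dvd with (h1 | h1) | h1
    · have := Nat.le_of_dvd (Nat.pos_of_ne_zero (NeZero.ne N)) (Int.natCast_dvd_natCast.mp h1)
      omega
    · have := Nat.le_of_dvd hcp.pos (Int.natCast_dvd_natCast.mp h1)
      omega
    · have := Nat.le_of_dvd (by norm_num) ((Int.natCast_dvd_natCast (n := 4)).mp h1)
      omega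
  obtain ⟨a, b, hab⟩ := hpm
  set ρ : ℤ := -1 + m * (a * ((σ.val : ℤ) + 1)) with hρ
  have hρm : IsCoprime ρ m := ⟨-1, a * ((σ.val : ℤ) + 1), by rw [hρ]; ring⟩
  have hρp' : ρ = (σ.val : ℤ) + (p : ℤ) * (-(b * ((σ.val : ℤ) + 1))) := by
    rw [hρ]; linear_combination ((σ.val : ℤ) + 1) * hab
  have hρp : IsCoprime ρ (p : ℤ) := by
    rw [hρp']
    refine IsCoprime.add_mul_left_left (hpp.coprime_iff_not_dvd.mpr ?_).symm _
    rw [← ZMod.intCast_zmod_eq_zero_iff_dvd, Int.cast_natCast, ZMod.natCast_zmod_val]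
    exact hσ0
  obtain ⟨r, hr, hrB, hrd⟩ := exists_prime_dvd_sub (n := m * p) (a := ρ)
    (mul_ne_zero hm0 (by exact_mod_cast hp.ne_zero)) (hρm.mul_right hρp)
    (q ^ (4 * N) + q + p)
  have hr1 : ((r : ℤ) + 1 : ℤ) = ((r : ℤ) - ρ) + (ρ + 1) := by ring
  have hmr : m ∣ (r : ℤ) + 1 := by
    rw [hr1]
    exact ((dvd_mul_right _ _).trans hrd).add ⟨a * ((σ.val : ℤ) + 1), by rw [hρ]; ring⟩
  have hrσ : (r : ZMod p) = σ := by
    have h1 : (((r : ℤ) - ρ : ℤ) : ZMod p) = 0 :=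
      (ZMod.intCast_zmod_eq_zero_iff_dvd _ _).mpr ((dvd_mul_left _ _).trans hrd)
    push_cast at h1
    rw [sub_eq_zero, hρp'] at h1
    push_cast at h1
    rw [h1, ZMod.natCast_zmod_val, ZMod.natCast_self, zero_mul, add_zero]
  have hr4 : (4 : ℤ) ∣ (r : ℤ) + 1 := (dvd_mul_left _ _).trans hmr
  have hodd : Odd r := Nat.odd_iff.mpr (by omega)
  have hrk : ((r / 2 : ℕ) : k) ≠ 0 := by
    rw [Ne, CharP.cast_eq_zero_iff k cp]
    intro h1
    have h2 : 2 * ((cp : ℤ) * 2) ∣ (r : ℤ) + 1 :=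
      dvd_trans ⟨(N : ℤ), by rw [hm]; ring⟩ hmr
    rw [show (r : ℤ) + 1 = 2 * (((r / 2 : ℕ) : ℤ) + 1) by omega,
      mul_dvd_mul_iff_left (two_ne_zero : (2 : ℤ) ≠ 0)] at h2
    have h3 := ((dvd_mul_right (cp : ℤ) 2).trans h2).sub (Int.natCast_dvd_natCast.mpr h1)
    rw [add_sub_cancel_left] at h3
    have := Int.le_of_dvd one_pos h3
    have : (2 : ℤ) ≤ cp := by exact_mod_cast hcp.two_le
    omega
  have hrq : ¬ (r : ℤ) ∣ (q : ℤ) ^ (4 * N) - 1 := by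
    intro h0
    have hpos : (1 : ℤ) < (q : ℤ) ^ (4 * N) :=
      one_lt_pow₀ (by exact_mod_cast (Fact.out : q.Prime).one_lt) (by
        have := NeZero.ne N; omega)
    have := Int.le_of_dvd (by omega) h0
    have : ((q ^ (4 * N) : ℕ) : ℤ) < (r : ℤ) := by exact_mod_cast (by omega : q ^ (4 * N) < r)
    push_cast at this
    omega
  obtain ⟨v, hv⟩ : (p : ℤ) ∣ (r : ℤ) ^ 2 - ℓ := by
    rw [← ZMod.intCast_zmod_eq_zero_iff_dvd]
    push_cast
    rw [hrσ, hσ]; ring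
  obtain ⟨c', hc'⟩ := hc
  have hco : IsCoprime ((r : ℤ) ^ 2 * c) (p : ℤ) := by
    refine IsCoprime.mul_left (IsCoprime.pow_left ?_) hcp'
    exact (Nat.prime_iff_prime_int.mp hr).coprime_iff_not_dvd.mpr fun h0 => by
      have := (Nat.prime_dvd_prime_iff_eq hr hp).mp (Int.natCast_dvd_natCast.mp h0)
      omega
  rw [← rowFun_mul_sq hqN hpair hr hrq (by omega) (((dvd_mul_right _ _).trans (dvd_mul_right _ _)).trans hmr) hodd hrk ⟨c', hc'⟩ hco,
    ← rowFun_add_level φ ((Dvd.intro c' hc'.symm).mul_left _) hco (-(v * c'))]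
  congr 1
  linear_combination (-c) * hv - ((p : ℤ) * v) * hc'

omit hqN hpair

/-- `T_ℓ` acts by `ℓ + 1` on deep elements. -/
theorem hval_heckeH_deep (hqN : ¬ q ∣ N) (hpair : IsKernelPair (q := q) φ ψ) {cp : ℕ} [CharP k cp]
    (hcp : cp.Prime) {ℓ : ℕ} (hℓ : ℓ.Prime) (hℓ2 : ℓ ≠ 2) (hℓN : ¬ ℓ ∣ N)
    (γ : Gamma0 N) (hc : (4 * N * ℓ : ℤ) ∣ matOf γ 1 0) (hd : (4 * N * ℓ : ℤ) ∣ matOf γ 1 1 - 1)
    (hb : (ℓ : ℤ) ∣ matOf γ 0 1) :
    hval (HeckeH.heckeH N hℓ k k φ) γ = ((ℓ + 1 : ℕ) : k) * hval φ γ := by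
  set a := matOf γ 0 0 with ha'
  set b := matOf γ 0 1 with hb'
  set c := matOf γ 1 0 with hc'
  set d := matOf γ 1 1 with hd'
  have hdet : a * d - b * c = 1 := HeckeH.det_entries γ
  have hℓ0 : (ℓ : ℤ) ≠ 0 := by exact_mod_cast hℓ.ne_zero
  have hℓc : (ℓ : ℤ) ∣ c := (dvd_mul_left _ _).trans hc
  have h4c : (4 : ℤ) ∣ c := (Dvd.intro ((N : ℤ) * ℓ) (by ring)).trans hc
  have hNc : (N : ℤ) ∣ c := (Dvd.intro (4 * (ℓ : ℤ)) (by ring)).trans hc
  have h4d : 4 * (ℓ : ℤ) ∣ d - 1 := (Dvd.intro (N : ℤ) (by ring)).trans hd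
  have hℓd : (ℓ : ℤ) ∣ d - 1 := (dvd_mul_left _ _).trans h4d
  have hℓa : (ℓ : ℤ) ∣ a - 1 := by
    rw [show a - 1 = b * c - a * (d - 1) by linear_combination hdet]
    exact (hℓc.mul_left b).sub (hℓd.mul_left a)
  have hcd : IsCoprime c d := ⟨-b, a, by linear_combination hdet⟩
  have hℓdco : IsCoprime (ℓ : ℤ) d := by
    obtain ⟨w, hw⟩ := hℓd
    exact ⟨-w, 1, by linear_combination hw⟩
  rw [hval, HeckeH.coe_heckeH, HeckeH.Reps.transfer_apply]
  show ∑ i, hval φ _ = _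
  have key : ∀ i : heckeIdx N ℓ, hval φ ((HeckeH.heckeReps N hℓ).coc γ i) = hval φ γ := by
    rcases eq_or_ne c 0 with hc0 | hc0
    · have hdu : IsUnit d := IsUnit.of_mul_eq_one a (by rw [hc0] at hdet; linear_combination hdet)
      have hd1 : d = 1 := by
        rcases Int.isUnit_iff.mp hdu with h | h
        · exact h
        · exfalso
          rw [h] at h4d
          have h2 : 4 * (ℓ : ℤ) ∣ 2 := by simpa using (dvd_neg.mpr h4d)
          have := Int.le_of_dvd (by norm_num) h2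
          have : (2 : ℤ) ≤ ℓ := by exact_mod_cast hℓ.two_le
          omega
      have ha1 : a = 1 := by rw [hc0, hd1] at hdet; linarith
      have htr : (matOf γ).trace ^ 2 = 4 := by
        rw [Matrix.trace_fin_two, ← ha', ← hd', ha1, hd1]; norm_num
      intro i
      rw [hval_parabolic φ htr]
      have hs := (HeckeH.heckeReps N hℓ).spec γ i
      have hfix : (HeckeH.heckeReps N hℓ).perm γ i = i := by
        obtain ⟨_ | j, hj⟩ := i
        · refine ((HeckeH.heckeReps N hℓ).eq_of_mul (δ := mkGamma0 1 ((ℓ : ℤ) * b) 0 1 (by ring)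
            (dvd_zero _)) ?_).2
          rw [HeckeH.heckeReps_β, HeckeH.heckeBeta_none, Matrix.eta_fin_two (matOf γ),
            HeckeH.matOf_mkGamma0, ← ha', ← hb', ← hc', ← hd', ha1, hd1, hc0]
          simp
        · obtain ⟨w, hw⟩ := hb
          refine ((HeckeH.heckeReps N hℓ).eq_of_mul (δ := mkGamma0 1 w 0 1 (by ring)
            (dvd_zero _)) ?_).2
          rw [HeckeH.heckeReps_β, HeckeH.heckeBeta_some, Matrix.eta_fin_two (matOf γ),
            HeckeH.matOf_mkGamma0, ← ha', ← hb', ← hc', ← hd', ha1, hd1, hc0, hw]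
          simp
          ring
      rw [hfix] at hs
      refine hval_parabolic φ ?_
      rw [← HeckeH.trace_eq_of_semiconj ((HeckeH.heckeReps N hℓ).det_ne i) hs]
      exact htr
    rintro ⟨_ | j, hj⟩
    · obtain ⟨c₁, hc₁⟩ := hℓc
      have hc₁4 : (4 * N : ℤ) ∣ c₁ :=
        (mul_dvd_mul_iff_right hℓ0).mp (by rw [mul_comm c₁, ← hc₁]; exact hc)
      rw [((HeckeH.heckeReps N hℓ).eq_of_mul (δ := mkGamma0 a ((ℓ : ℤ) * b) c₁ d
        (by linear_combination hdet + b * hc₁) ((dvd_mul_left _ _).trans hc₁4)) (j := ⟨none, hj⟩)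
        (by
          rw [HeckeH.heckeReps_β, HeckeH.heckeBeta_none, Matrix.eta_fin_two (matOf γ),
            HeckeH.matOf_mkGamma0, Matrix.mul_fin_two, Matrix.mul_fin_two, ← ha', ← hb', ← hc',
            ← hd', hc₁]
          simp [mul_comm])).1,
        ← rowFun_eq φ _ (c := c₁) (d := d) (by simp) (by simp), ← rowFun_eq φ γ hc'.symm hd'.symm,
        hc₁]
      refine (rowFun_mul_prime hqN hpair hcp hℓ hℓ2 ((dvd_mul_left _ _).trans hc₁4) ?_ ?_
        ((dvd_mul_right _ _).trans hc₁4) h4d).symm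
      · rw [← hc₁]; exact hcd
      · rintro rfl; exact hc0 (by rw [hc₁, mul_zero])
    · set i : ℤ := ((j : ℕ) : ℤ) with hi
      obtain ⟨w, hw⟩ : (ℓ : ℤ) ∣ b + i * d - i * (a + i * c) := by
        rw [show b + i * d - i * (a + i * c) = b + i * ((d - 1) - (a - 1)) - i ^ 2 * c by ring]
        exact (hb.add ((hℓd.sub hℓa).mul_left _)).sub (hℓc.mul_left _)
      have hcℓ : (N : ℤ) ∣ (ℓ : ℤ) * c := hNc.mul_left _
      rw [((HeckeH.heckeReps N hℓ).eq_of_mul (δ := mkGamma0 (a + i * c) w ((ℓ : ℤ) * c) (d - i * c)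
        (by linear_combination hdet + c * hw) hcℓ) (j := ⟨some j, hj⟩)
        (by
          rw [HeckeH.heckeReps_β, HeckeH.heckeBeta_some, Matrix.eta_fin_two (matOf γ),
            HeckeH.matOf_mkGamma0, Matrix.mul_fin_two, Matrix.mul_fin_two, ← ha', ← hb', ← hc',
            ← hd', ← hi]
          ext x y
          fin_cases x <;> fin_cases y <;> simp
          · linear_combination hw
          · ring)).1,
        ← rowFun_eq φ _ (c := (ℓ : ℤ) * c) (d := d - i * c) (by simp) (by simp),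
        ← rowFun_eq φ γ hc'.symm hd'.symm]
      have hcde : IsCoprime c (d - i * c) := by
        rw [sub_eq_add_neg, ← neg_mul]; exact hcd.add_mul_right_right _
      have hℓe : IsCoprime (ℓ : ℤ) (d - i * c) := by
        obtain ⟨c₁, hc₁⟩ := hℓc
        rw [hc₁, show d - i * ((ℓ : ℤ) * c₁) = d + (-(i * c₁)) * (ℓ : ℤ) by ring]
        exact hℓdco.add_mul_right_right _
      have h4e : 4 * (ℓ : ℤ) ∣ d - i * c - 1 := by
        rw [show d - i * c - 1 = (d - 1) - i * c by ring]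
        exact h4d.sub (((Dvd.intro (N : ℤ) (by ring)).trans hc).mul_left i)
      rw [rowFun_mul_prime hqN hpair hcp hℓ hℓ2 hNc (hℓe.mul_left hcde) hc0 h4c h4e,
        show d - i * c = d + (-i) * c by ring, rowFun_add_mul φ hNc hcd]
  rw [Finset.sum_congr rfl fun i _ => key i, Finset.sum_const, Finset.card_univ, nsmul_eq_mul,
    Fintype.card_congr (HeckeH.idxEquivT hℓN), Fintype.card_option, Fintype.card_fin]

/-- A character killing a principal congruence subgroup only depends on `d mod N`. -/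
theorem hval_eq_zero_of_deep (φ : Period.H N k k) {M : ℕ} [NeZero M] (hNM : N ∣ M)
    (hM : ∀ γ : Gamma0 N, (γ : SL(2, ℤ)) ∈ Gamma M → hval φ γ = 0) (γ : Gamma0 N)
    (hd : (N : ℤ) ∣ matOf γ 1 1 - 1) : hval φ γ = 0 := by
  have hN0 : (N : ℤ) ≠ 0 := by exact_mod_cast NeZero.ne N
  have hM0 : (M : ℤ) ≠ 0 := by exact_mod_cast NeZero.ne M
  set c := matOf γ 1 0 with hc
  set d := matOf γ 1 1 with hd'
  by_cases hc0 : c = 0
  · refine hval_parabolic φ ?_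
    have h1 := HeckeH.det_entries γ
    rw [← hc, hc0, mul_zero, sub_zero, ← hd'] at h1
    rw [Matrix.trace_fin_two, ← hd']
    rcases Int.mul_eq_one_iff_eq_one_or_neg_one.mp h1 with ⟨h2, h3⟩ | ⟨h2, h3⟩ <;>
      rw [h2, h3] <;> norm_num
  obtain ⟨p, hp, hpB, hpd⟩ := exists_prime_dvd_sub (n := c) (a := d) hc0
    ⟨matOf γ 0 0, -(matOf γ 0 1), by linear_combination HeckeH.det_entries γ⟩ M
  obtain ⟨i, hi⟩ := hpd
  obtain ⟨c', hc'⟩ := HeckeH.matOf_dvd γ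
  rw [← hc] at hc'
  have hpe : (p : ℤ) = d + c * i := by linear_combination hi
  obtain ⟨u, v, huv⟩ : IsCoprime (p : ℤ) (M : ℤ) :=
    (Nat.prime_iff_prime_int.mp hp).coprime_iff_not_dvd.mpr fun h0 => by
      have := Nat.le_of_dvd (Nat.pos_of_ne_zero (NeZero.ne M)) (Int.natCast_dvd_natCast.mp h0)
      omega
  let U₁ : Gamma0 N := mkGamma0 1 i 0 1 (by ring) (dvd_zero _)
  let L₁ : Gamma0 N := mkGamma0 1 0 ((N : ℤ) * (-(c' * u))) 1 (by ring) (dvd_mul_right _ _)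
  set γ₁ := γ * U₁ * L₁ with hγ₁
  let U₂ : Gamma0 N := mkGamma0 1 (-(matOf γ₁ 0 1 * u)) 0 1 (by ring) (dvd_zero _)
  set γ₂ := U₂ * γ₁ with hγ₂
  have htr : ∀ i : ℤ, hval φ (mkGamma0 1 i 0 1 (by ring) (dvd_zero _)) = 0 := fun i =>
    hval_parabolic φ (by simp [Matrix.trace_fin_two])
  have hval₂ : hval φ γ₂ = hval φ γ := by
    rw [hγ₂, hγ₁, hval_mul, hval_mul, hval_mul, htr, htr,
      hval_parabolic φ (γ := L₁) (by simp [L₁, Matrix.trace_fin_two])]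
    simp
  have e11 : matOf γ₁ 1 1 = p := by
    rw [hγ₁, HeckeH.matOf_mul, HeckeH.matOf_mul]
    simp [U₁, L₁, Matrix.mul_apply, Fin.sum_univ_two, ← hc, ← hd']
    linear_combination -hpe
  have e10 : matOf γ₁ 1 0 = c + (N : ℤ) * (-(c' * u)) * p := by
    rw [hγ₁, HeckeH.matOf_mul, HeckeH.matOf_mul]
    simp [U₁, L₁, Matrix.mul_apply, Fin.sum_univ_two, ← hc, ← hd']
    linear_combination -((N : ℤ) * c' * u) * hpe
  have f11 : ((matOf γ₂ 1 1 : ℤ) : ZMod M) = (p : ZMod M) := by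
    rw [hγ₂, HeckeH.matOf_mul]
    simp [U₂, Matrix.mul_apply, Fin.sum_univ_two, e11]
  have f10' : matOf γ₂ 1 0 = c + (N : ℤ) * (-(c' * u)) * p := by
    rw [hγ₂, HeckeH.matOf_mul]
    simp [U₂, Matrix.mul_apply, Fin.sum_univ_two, e10]
  have f10 : ((matOf γ₂ 1 0 : ℤ) : ZMod M) = 0 := by
    rw [f10', ZMod.intCast_zmod_eq_zero_iff_dvd]
    exact ⟨(N : ℤ) * c' * v, by rw [hc']; linear_combination -((N : ℤ) * c') * huv⟩
  have f01 : ((matOf γ₂ 0 1 : ℤ) : ZMod M) = 0 := by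
    rw [hγ₂, HeckeH.matOf_mul]
    simp only [U₂, HeckeH.matOf_mkGamma0, Matrix.mul_apply, Fin.sum_univ_two, Matrix.of_apply,
      Matrix.cons_val', Matrix.cons_val_zero, Matrix.cons_val_one, Matrix.cons_val_fin_one, e11]
    rw [ZMod.intCast_zmod_eq_zero_iff_dvd]
    exact ⟨matOf γ₁ 0 1 * v, by linear_combination -(matOf γ₁ 0 1) * huv⟩
  set A := matOf γ₂ 0 0 with hA
  have hAp : ((A : ℤ) : ZMod M) * (p : ZMod M) = 1 := by
    have := congrArg (fun z : ℤ => (z : ZMod M)) (HeckeH.det_entries γ₂)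
    push_cast at this
    rwa [f10, f11, mul_zero, sub_zero] at this
  have hNp : (N : ℤ) ∣ (p : ℤ) - 1 := by
    rw [show (p : ℤ) - 1 = (d - 1) + c * i by rw [hpe]; ring]
    exact hd.add ((hc' ▸ dvd_mul_right _ _ : (N : ℤ) ∣ c).mul_right i)
  obtain ⟨x, hx⟩ : (N : ℤ) ∣ A - 1 := by
    have h1 : (M : ℤ) ∣ A * p - 1 := by
      rw [← ZMod.intCast_zmod_eq_zero_iff_dvd]; push_cast; rw [hAp, sub_self]
    rw [show A - 1 = (A * p - 1) - A * ((p : ℤ) - 1) by ring]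
    exact ((Int.natCast_dvd_natCast.mpr hNM).trans h1).sub (hNp.mul_left A)
  let K : Gamma0 N := mkGamma0 A x N 1 (by linear_combination hx) dvd_rfl
  let Z : Gamma0 N := mkGamma0 1 (-((p : ℤ) * x)) 0 1 (by ring) (dvd_zero _)
  let L₂ : Gamma0 N := mkGamma0 1 0 (-(A * N)) 1 (by ring) ((dvd_mul_left _ _).neg_right)
  set E := K * Z * L₂ with hE
  have hvE : hval φ E = 0 := by
    have hK : K = mkGamma0 1 x 0 1 (by ring) (dvd_zero _) *
        mkGamma0 1 0 (N : ℤ) 1 (by ring) dvd_rfl := by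
      refine HeckeH.matOf_injective ?_
      rw [HeckeH.matOf_mul]
      simp only [K, HeckeH.matOf_mkGamma0, Matrix.mul_fin_two]
      ext a b
      fin_cases a <;> fin_cases b <;> simp
      linear_combination hx
    rw [hE, hval_mul, hval_mul, hK, hval_mul, htr, htr,
      hval_parabolic φ (γ := L₂) (by simp [L₂, Matrix.trace_fin_two]),
      hval_parabolic φ (γ := mkGamma0 1 0 (N : ℤ) 1 (by ring) dvd_rfl)
        (by simp [Matrix.trace_fin_two])]
    simp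
  have hmem : ((γ₂ * E⁻¹ : Gamma0 N) : SL(2, ℤ)) ∈ Gamma M := by
    have hxM : ((A : ℤ) : ZMod M) - 1 = (N : ZMod M) * ((x : ℤ) : ZMod M) := by
      have := congrArg (fun z : ℤ => (z : ZMod M)) hx
      push_cast at this
      exact this
    rw [Gamma_mem']
    push_cast
    rw [map_mul, map_inv, mul_inv_eq_one]
    refine Matrix.SpecialLinearGroup.ext _ _ fun i j => ?_
    simp only [Matrix.SpecialLinearGroup.map_apply_coe, RingHom.mapMatrix_apply, Matrix.map_apply,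
      Int.coe_castRingHom]
    show ((matOf γ₂ i j : ℤ) : ZMod M) = ((matOf E i j : ℤ) : ZMod M)
    have hE' : matOf E = !![A, x; (N : ℤ), 1] * !![1, -((p : ℤ) * x); 0, 1] *
        !![1, 0; -(A * N), 1] := by
      rw [hE, HeckeH.matOf_mul, HeckeH.matOf_mul]; rfl
    rw [hE', Matrix.mul_fin_two, Matrix.mul_fin_two, Matrix.eta_fin_two (matOf γ₂)]
    fin_cases i <;> fin_cases j <;> simp [← hA, f01, f10, f11]
    · linear_combination ((A : ℤ) : ZMod M) * ((x : ℤ) : ZMod M) * (N : ZMod M) * (-hAp)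
    · linear_combination ((x : ℤ) : ZMod M) * hAp
    · linear_combination (N : ZMod M) * hxM - (N : ZMod M) ^ 2 * ((x : ℤ) : ZMod M) * hAp
    · linear_combination -(p : ZMod M) * hxM + hAp
  have h := hM _ hmem
  rw [hval_mul, hval_inv, hvE, neg_zero, add_zero, hval₂] at h
  exact h

/-- A character killing a principal congruence subgroup is Eisenstein. -/
theorem heckeH_of_deep (φ : Period.H N k k) {M : ℕ} [NeZero M] (hNM : N ∣ M)
    (hM : ∀ γ : Gamma0 N, (γ : SL(2, ℤ)) ∈ Gamma M → hval φ γ = 0) {ℓ : ℕ} (hℓ : ℓ.Prime)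
    (hℓN : ¬ ℓ ∣ N) :
    HeckeH.heckeH N hℓ k k φ = ((ℓ + 1 : ℕ) : k) • φ := by
  classical
  have hdep : ∀ γ₁ γ₂ : Gamma0 N, ((matOf γ₁ 1 1 : ℤ) : ZMod N) = ((matOf γ₂ 1 1 : ℤ) : ZMod N) →
      hval φ γ₁ = hval φ γ₂ := by
    intro γ₁ γ₂ h12
    have h0 : hval φ (γ₁ * γ₂⁻¹) = 0 := by
      refine hval_eq_zero_of_deep φ hNM hM _ ?_
      rw [HeckeH.matOf_mul, matOf_inv, Matrix.adjugate_fin_two, Matrix.mul_apply,
        Fin.sum_univ_two, ← ZMod.intCast_zmod_eq_zero_iff_dvd]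
      have e := congrArg (fun z : ℤ => (z : ZMod N)) (HeckeH.det_entries γ₂)
      have c1 := (ZMod.intCast_zmod_eq_zero_iff_dvd _ N).mpr (HeckeH.matOf_dvd γ₁)
      have c2 := (ZMod.intCast_zmod_eq_zero_iff_dvd _ N).mpr (HeckeH.matOf_dvd γ₂)
      simp only [Matrix.of_apply, Matrix.cons_val', Matrix.cons_val_zero, Matrix.cons_val_one,
        Matrix.cons_val_fin_one]
      push_cast at e ⊢
      rw [c2] at e
      rw [c1, h12]
      linear_combination e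
    rwa [hval_mul, hval_inv, add_neg_eq_zero] at h0
  let G : ZMod N → k := fun u =>
    if h : ∃ γ : Gamma0 N, ((matOf γ 1 1 : ℤ) : ZMod N) = u then hval φ h.choose else 0
  have hG : ∀ γ : Gamma0 N, hval φ γ = G ((matOf γ 1 1 : ℤ) : ZMod N) := fun γ => by
    have h : ∃ δ : Gamma0 N, ((matOf δ 1 1 : ℤ) : ZMod N) = ((matOf γ 1 1 : ℤ) : ZMod N) :=
      ⟨γ, rfl⟩
    simp only [G, dif_pos h]
    exact hdep _ _ h.choose_spec.symm
  have hex : ∀ u : ZMod N, IsUnit u → ∃ γ : Gamma0 N, ((matOf γ 1 1 : ℤ) : ZMod N) = u := by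
    intro u hu
    obtain ⟨v, hv⟩ := hu.exists_right_inv
    obtain ⟨w, hw⟩ : (N : ℤ) ∣ (u.val : ℤ) * v.val - 1 := by
      rw [← ZMod.intCast_zmod_eq_zero_iff_dvd]
      push_cast
      rw [ZMod.natCast_zmod_val, ZMod.natCast_zmod_val, hv, sub_self]
    exact ⟨mkGamma0 (v.val : ℤ) w N (u.val : ℤ) (by linear_combination hw) dvd_rfl, by simp⟩
  have hGmul : ∀ u v : ZMod N, IsUnit u → IsUnit v → G (u * v) = G u + G v := by
    intro u v hu hv
    obtain ⟨a, rfl⟩ := hex u hu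
    obtain ⟨b, rfl⟩ := hex v hv
    rw [← hG a, ← hG b, ← hval_mul, hG (a * b)]
    congr 1
    rw [HeckeH.matOf_mul, Matrix.mul_apply, Fin.sum_univ_two]
    push_cast
    rw [(ZMod.intCast_zmod_eq_zero_iff_dvd _ N).mpr (HeckeH.matOf_dvd a)]
    ring
  have hunit : ∀ γ : Gamma0 N, IsUnit ((matOf γ 1 1 : ℤ) : ZMod N) := fun γ => by
    refine IsUnit.of_mul_eq_one ((matOf γ 0 0 : ℤ) : ZMod N) ?_
    have := congrArg (fun z : ℤ => (z : ZMod N)) (HeckeH.det_entries γ)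
    push_cast at this
    rw [(ZMod.intCast_zmod_eq_zero_iff_dvd _ N).mpr (HeckeH.matOf_dvd γ)] at this
    linear_combination this
  let e : heckeIdx N ℓ → ZMod N := fun i => ((heckeBeta i 1 1 : ℤ) : ZMod N)
  have he : ∀ i, IsUnit (e i) := by
    rintro ⟨_ | j, hj⟩
    · simp [e, HeckeH.heckeBeta_none]
    · simp only [e, HeckeH.heckeBeta_some, Matrix.of_apply, Matrix.cons_val', Matrix.cons_val_one,
        Matrix.cons_val_fin_one, Int.cast_natCast]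
      exact (ZMod.isUnit_iff_coprime ℓ N).mpr (hℓ.coprime_iff_not_dvd.mpr hℓN)
  refine Subtype.ext (AddMonoidHom.ext fun γ => ?_)
  obtain ⟨γ, rfl⟩ := Additive.ofMul.surjective γ
  rw [HeckeH.coe_heckeH, HeckeH.Reps.transfer_apply]
  show ∑ i, hval φ _ = ((ℓ + 1 : ℕ) : k) • hval φ γ
  have key : ∀ i, hval φ ((HeckeH.heckeReps N hℓ).coc γ i) =
      G (e i) + hval φ γ - G (e ((HeckeH.heckeReps N hℓ).perm γ i)) := by
    intro i
    have hs := congrFun (congrFun ((HeckeH.heckeReps N hℓ).spec γ i) 1) 1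
    rw [HeckeH.heckeReps_β, HeckeH.heckeReps_β, Matrix.mul_apply, Matrix.mul_apply,
      Fin.sum_univ_two, Fin.sum_univ_two] at hs
    have h10 : heckeBeta i 1 0 = 0 := by obtain ⟨_ | j, hj⟩ := i <;> simp [heckeBeta]
    rw [h10, zero_mul, zero_add] at hs
    have hs' := congrArg (fun z : ℤ => (z : ZMod N)) hs
    push_cast at hs'
    rw [(ZMod.intCast_zmod_eq_zero_iff_dvd _ N).mpr (HeckeH.matOf_dvd _), zero_mul, zero_add] at hs'
    change e i * _ = _ * e _ at hs'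
    have := congrArg G hs'
    rw [hGmul _ _ (he i) (hunit γ), hGmul _ _ (hunit _) (he _), ← hG, ← hG] at this
    linear_combination -this
  rw [Finset.sum_congr rfl fun i _ => key i, Finset.sum_sub_distrib, Finset.sum_add_distrib,
    show ∑ i, G (e ((HeckeH.heckeReps N hℓ).perm γ i)) = ∑ i, G (e i) from
      Equiv.sum_comp ((HeckeH.heckeReps N hℓ).permEquiv γ) (fun i => G (e i)), Finset.sum_const, Finset.card_univ,
    Fintype.card_congr (HeckeH.idxEquivT hℓN), Fintype.card_option, Fintype.card_fin, nsmul_eq_mul,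
    smul_eq_mul]
  ring

/-- `T_ℓ - (ℓ + 1)` on `H N k`. -/
def eisOp (N : ℕ) {ℓ : ℕ} (hℓ : ℓ.Prime) (k : Type*) [Field k] : Module.End k (Period.H N k k) :=
  HeckeH.heckeH N hℓ k k - ((ℓ + 1 : ℕ) : k) • 1

theorem eisOp_apply {ℓ : ℕ} (hℓ : ℓ.Prime) (φ : Period.H N k k) :
    eisOp N hℓ k φ = HeckeH.heckeH N hℓ k k φ - ((ℓ + 1 : ℕ) : k) • φ := rfl

include hqN in
/-- Ihara's lemma: the kernel of `alpha` is killed by `(T_ℓ - ℓ - 1)²`. -/
theorem ihara_kernel {cp : ℕ} [CharP k cp] (hcp : cp.Prime) {ℓ : ℕ} (hℓ : ℓ.Prime)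
    (hℓ2 : ℓ ≠ 2) (hℓNq : ¬ ℓ ∣ N * q) {φ ψ : Period.H N k k}
    (h : alpha (q := q) k k (φ, ψ) = 0) :
    eisOp N hℓ k (eisOp N hℓ k φ) = 0 ∧ eisOp N hℓ k (eisOp N hℓ k ψ) = 0 := by
  have hℓN : ¬ ℓ ∣ N := fun h0 => hℓNq (h0.mul_right q)
  have main : ∀ φ ψ : Period.H N k k, alpha (q := q) k k (φ, ψ) = 0 →
      eisOp N hℓ k (eisOp N hℓ k φ) = 0 := by
    intro φ ψ h
    have hcomm : alpha (q := q) k k (eisOp N hℓ k φ, eisOp N hℓ k ψ) = 0 := by
      have h' := congrArg (fun x => HeckeH.heckeH (N * q) hℓ k k x - ((ℓ + 1 : ℕ) : k) • x) h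
      simp only [alpha_apply, map_add, ← Degen.heckeH_degH hℓ 1 _ hℓN hℓNq,
        ← Degen.heckeH_degH hℓ q _ hℓN hℓNq, map_zero, smul_zero, sub_zero] at h'
      rw [alpha_apply, eisOp_apply, eisOp_apply, map_sub, map_sub, map_smul, map_smul, ← h',
        smul_add]
      abel
    have : NeZero (4 * N * ℓ) :=
      ⟨mul_ne_zero (mul_ne_zero four_ne_zero (NeZero.ne N)) hℓ.ne_zero⟩
    have hdeep : ∀ γ : Gamma0 N, (γ : SL(2, ℤ)) ∈ Gamma (4 * N * ℓ) →
        hval (eisOp N hℓ k φ) γ = 0 := by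
      intro γ hγ
      obtain ⟨-, h01, h10, h11⟩ := Gamma_mem.mp hγ
      have hc := (ZMod.intCast_zmod_eq_zero_iff_dvd _ _).mp h10
      have hb := (ZMod.intCast_zmod_eq_zero_iff_dvd _ _).mp h01
      have hd : ((4 * N * ℓ : ℕ) : ℤ) ∣ matOf γ 1 1 - 1 := by
        rw [← ZMod.intCast_zmod_eq_zero_iff_dvd, Int.cast_sub, Int.cast_one]
        exact sub_eq_zero.mpr h11
      push_cast at hc hb hd
      have := hval_heckeH_deep hqN (isKernelPair_of_alpha hqN h) hcp hℓ hℓ2 hℓN γ hc hd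
        ((dvd_mul_left _ _).trans hb)
      show hval (HeckeH.heckeH N hℓ k k φ) γ - ((ℓ + 1 : ℕ) : k) • hval φ γ = 0
      rw [this, smul_eq_mul, sub_self]
    rw [eisOp_apply, sub_eq_zero]
    exact heckeH_of_deep _ (Dvd.intro (4 * ℓ) (by ring)) hdeep hℓ hℓN
  exact ⟨main φ ψ h, main ψ φ (alpha_swap k k hqN h)⟩

end FLTAgent.Ihara
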