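import Fermat.Agent.Ihara.Naturality
import Fermat.Agent.Reps.HeckeEigen
import Fermat.Agent.Reps.Coeff
import Fermat.Agent.IntStr.Main
import Fermat.Agent.Small2.Duality

/-!
# Coefficients and mod `p` eigenvectors

Compatibility of the maps of `Degeneracy.lean` with change of coefficients (`castH_*`), reduction
mod `p` (`castH_zmod_surjective`, `exists_smul_of_castH_eq_zero`), eigenvectors in
`H N (ZMod p) (ZMod p)` for a character of a subring of the Hecke algebra (`exists_eigenvector`),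
and normalised eigenforms from characters of the full Hecke algebra
(`exists_eigenform_of_hom_full`).
-/

set_option autoImplicit false
set_option linter.unusedSectionVars false
set_option linter.style.haveILetI false

open CongruenceSubgroup ModularCurve.Period CuspForm
open scoped MatrixGroups

noncomputable section

namespace FLTAgent.Ihara

variable {N q : ℕ} [NeZero N] [Fact q.Prime] (hqN : ¬ q ∣ N)

/-! ### Change of coefficients -/

section Cast

variable (R : Type*) [CommRing R]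

theorem castH_resH (φ : Period.H N ℤ ℤ) :
    Period.castH (N * q) R (resH N q ℤ ℤ φ) = resH N q R R (Period.castH N R φ) := rfl

theorem castH_degQ (φ : Period.H N ℤ ℤ) :
    Period.castH (N * q) R (degQ N q ℤ ℤ φ) = degQ N q R R (Period.castH N R φ) := rfl

theorem castH_thetaH (φ : Period.H (N * q) ℤ ℤ) :
    Period.castH (N * q) R (thetaH ℤ ℤ hqN φ) = thetaH R R hqN (Period.castH (N * q) R φ) := rfl

theorem castH_alpha (x : Period.H N ℤ ℤ × Period.H N ℤ ℤ) :
    Period.castH (N * q) R (alpha (q := q) ℤ ℤ x) =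
      alpha (q := q) R R (Period.castH N R x.1, Period.castH N R x.2) := by
  rw [alpha_apply, alpha_apply, map_add, castH_resH, castH_degQ]

include hqN in
theorem castH_corH (φ : Period.H (N * q) ℤ ℤ) :
    Period.castH N R (Degen.corH (N := N) ℤ ℤ φ) =
      Degen.corH (N := N) R R (Period.castH (N * q) R φ) := by
  refine Subtype.ext (AddMonoidHom.ext fun γ => ?_)
  obtain ⟨γ, rfl⟩ := Additive.ofMul.surjective γ
  rw [Period.castH_apply, Degen.coe_corH, Degen.coe_corH, corFun_eq_sum hqN, corFun_eq_sum hqN]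
  simp [Int.cast_sum]

theorem castH_betaMap (φ : Period.H (N * q) ℤ ℤ) :
    (Period.castH N R (betaMap ℤ ℤ hqN φ).1, Period.castH N R (betaMap ℤ ℤ hqN φ).2) =
      betaMap R R hqN (Period.castH (N * q) R φ) := by
  rw [betaMap_apply, betaMap_apply, castH_corH hqN, castH_corH hqN, castH_thetaH]

theorem castH_heckeH {M ℓ : ℕ} [NeZero M] (hℓ : ℓ.Prime) (φ : Period.H M ℤ ℤ) :
    Period.castH M R (HeckeH.heckeH M hℓ ℤ ℤ φ) =
      HeckeH.heckeH M hℓ R R (Period.castH M R φ) := by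
  refine Subtype.ext (AddMonoidHom.ext fun γ => ?_)
  obtain ⟨γ, rfl⟩ := Additive.ofMul.surjective γ
  rw [Period.castH_apply, HeckeH.coe_heckeH, HeckeH.coe_heckeH, HeckeH.Reps.transfer_apply,
    HeckeH.Reps.transfer_apply]
  simp [Int.cast_sum]

end Cast

theorem castH_rat_injective (M : ℕ) [NeZero M] : Function.Injective (Period.castH M ℚ) := by
  intro a b h
  refine Subtype.ext (AddMonoidHom.ext fun γ => ?_)
  have := DFunLike.congr_fun (congrArg Subtype.val h) γ
  simpa using this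

/-- `castH` to `ZMod p` is onto. -/
theorem castH_zmod_surjective (M p : ℕ) [NeZero M] :
    Function.Surjective (Period.castH M (ZMod p)) := by
  intro φ
  refine ⟨(Period.evalEquiv M ℤ ℤ).symm fun i =>
    ((Period.evalEquiv M (ZMod p) (ZMod p) φ i).cast : ℤ),
    (Period.evalEquiv M (ZMod p) (ZMod p)).injective (funext fun i => ?_)⟩
  rw [Period.evalEquiv_apply, Period.castH_apply, ← Period.evalEquiv_apply,
    LinearEquiv.apply_symm_apply, ZMod.intCast_zmod_cast]

/-- A class killed by reduction mod `p` is a multiple of `p`. -/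
theorem exists_smul_of_castH_eq_zero {M p : ℕ} [NeZero M] {φ : Period.H M ℤ ℤ}
    (h : Period.castH M (ZMod p) φ = 0) : ∃ ψ : Period.H M ℤ ℤ, φ = (p : ℤ) • ψ := by
  have hd : ∀ i, (p : ℤ) ∣ Period.evalEquiv M ℤ ℤ φ i := fun i => by
    rw [← ZMod.intCast_zmod_eq_zero_iff_dvd, Period.evalEquiv_apply, ← Period.castH_apply, h]
    rfl
  choose c hc using hd
  refine ⟨(Period.evalEquiv M ℤ ℤ).symm c, (Period.evalEquiv M ℤ ℤ).injective (funext fun i => ?_)⟩
  rw [map_smul, LinearEquiv.apply_symm_apply, Pi.smul_apply, smul_eq_mul, hc i]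

/-- `T_ℓ` commutes with `betaMap` on integral classes. -/
theorem betaMap_heckeH {ℓ : ℕ} (hℓ : ℓ.Prime) (hℓNq : ¬ ℓ ∣ N * q) (φ : Period.H (N * q) ℤ ℤ) :
    betaMap ℤ ℤ hqN (HeckeH.heckeH (N * q) hℓ ℤ ℤ φ) =
      (HeckeH.heckeH N hℓ ℤ ℤ (betaMap ℤ ℤ hqN φ).1,
        HeckeH.heckeH N hℓ ℤ ℤ (betaMap ℤ ℤ hqN φ).2) := by
  have key : ∀ ψ : Period.H (N * q) ℤ ℤ,
      Degen.corH (N := N) ℤ ℤ (HeckeH.heckeH (N * q) hℓ ℤ ℤ ψ) =
        HeckeH.heckeH N hℓ ℤ ℤ (Degen.corH (N := N) ℤ ℤ ψ) := fun ψ =>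
    castH_rat_injective N (by
      rw [castH_corH hqN, castH_heckeH, castH_heckeH, castH_corH hqN,
        corH_heckeH hqN ℚ hℓ hℓNq])
  rw [betaMap_apply, betaMap_apply, key, heckeH_thetaH hqN hℓ hℓNq, key]

/-- `T_ℓ` commutes with `alpha`. -/
theorem alpha_heckeH {ℓ : ℕ} (hℓ : ℓ.Prime) (hℓNq : ¬ ℓ ∣ N * q) (R A : Type*) [Semiring R]
    [AddCommGroup A] [Module R A] (x : Period.H N R A × Period.H N R A) :
    HeckeH.heckeH (N * q) hℓ R A (alpha (q := q) R A x) =
      alpha (q := q) R A (HeckeH.heckeH N hℓ R A x.1, HeckeH.heckeH N hℓ R A x.2) := by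
  have hℓN : ¬ ℓ ∣ N := fun h => hℓNq (h.mul_right q)
  rw [alpha_apply, alpha_apply, map_add, ← Degen.heckeH_degH hℓ 1 _ hℓN hℓNq,
    ← Degen.heckeH_degH hℓ q _ hℓN hℓNq]

/-! ### The Hecke algebra and its eigen systems -/

variable (N) in
/-- `T_ℓ` in the full Hecke algebra. -/
abbrev tOf {ℓ : ℕ} (hℓ : ℓ.Prime) (hℓN : ¬ ℓ ∣ N) : heckeAlgebra N 2 ∅ :=
  heckeAlgebra.T hℓ hℓN (Set.notMem_empty ℓ)

/-- A nonzero element of a group killed by `p` is detected by a map to `ZMod p`. -/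
theorem exists_hom_zmod {p : ℕ} [Fact p.Prime] {V : Type*} [AddCommGroup V]
    (hkill : ∀ x : V, p • x = 0) {x : V} (hx : x ≠ 0) : ∃ f : V →+ ZMod p, f x ≠ 0 := by
  letI : Module (ZMod p) V := AddCommGroup.zmodModule hkill
  obtain ⟨b⟩ : Nonempty (Module.Basis (Module.Basis.ofVectorSpaceIndex (ZMod p) V) (ZMod p) V) := ⟨Module.Basis.ofVectorSpace (ZMod p) V⟩
  by_contra! h
  exact hx (b.forall_coord_eq_zero_iff.mp fun i => h (b.coord i).toAddMonoidHom)

/-- A faithful finite module carries a functional for every character into `ZMod p`. -/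
theorem exists_eigenFunctional' {p : ℕ} [Fact p.Prime] {A₀ M : Type*} [CommRing A₀]
    [AddCommGroup M] [Module A₀ M] [Module.Finite ℤ M]
    (hinj : ∀ r : A₀, (∀ m : M, r • m = 0) → r = 0) (ψ₀ : A₀ →+* ZMod p) :
    ∃ l : M →+ ZMod p, (∀ (a : A₀) (m : M), l (a • m) = ψ₀ a * l m) ∧ ∃ m, l m ≠ 0 := by
  classical
  set I : Ideal A₀ := RingHom.ker ψ₀ with hI
  set P : Submodule A₀ M := I • ⊤ with hP
  haveI : Module.Finite A₀ M := Module.Finite.of_restrictScalars_finite ℤ A₀ M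
  have hfg : (⊤ : Submodule A₀ M).FG := Module.Finite.fg_top
  have hne : P ≠ ⊤ := by
    intro h
    obtain ⟨r, hr, hr0⟩ := Submodule.exists_sub_one_mem_and_smul_eq_zero_of_fg_of_le_smul I ⊤ hfg
      (le_of_eq h.symm)
    have hr' : r = 0 := hinj r fun m => hr0 m trivial
    rw [hr', zero_sub, hI, RingHom.mem_ker, map_neg, map_one, neg_eq_zero] at hr
    exact one_ne_zero hr
  have hp0 : (p : A₀) ∈ I := by rw [hI, RingHom.mem_ker, map_natCast, ZMod.natCast_self]
  have hkill : ∀ x : M ⧸ P, p • x = 0 := by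
    intro x
    obtain ⟨y, rfl⟩ := Submodule.Quotient.mk_surjective P x
    rw [← Nat.cast_smul_eq_nsmul A₀, ← Submodule.Quotient.mk_smul,
      Submodule.Quotient.mk_eq_zero]
    exact Submodule.smul_mem_smul hp0 trivial
  obtain ⟨x, hx⟩ : ∃ x : M ⧸ P, x ≠ 0 := by
    haveI := Submodule.Quotient.nontrivial_iff.mpr hne
    exact exists_ne 0
  obtain ⟨f, hf⟩ := exists_hom_zmod hkill hx
  refine ⟨f.comp P.mkQ.toAddMonoidHom, fun a m => ?_, ?_⟩
  · obtain ⟨z, hz⟩ := ZMod.intCast_surjective (ψ₀ a)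
    have hmem : a - (z : A₀) ∈ I := by rw [hI, RingHom.mem_ker, map_sub, map_intCast, hz, sub_self]
    have h0 : f (P.mkQ ((a - (z : A₀)) • m)) = 0 := by
      rw [Submodule.mkQ_apply,
        (Submodule.Quotient.mk_eq_zero P).mpr (Submodule.smul_mem_smul hmem trivial), map_zero]
    rw [sub_smul, Int.cast_smul_eq_zsmul, map_sub, map_sub, map_zsmul, map_zsmul, sub_eq_zero,
      zsmul_eq_mul, hz] at h0
    exact h0
  · obtain ⟨y, hy⟩ := Submodule.Quotient.mk_surjective P x
    exact ⟨y, by rw [← hy] at hf; exact hf⟩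

/-- A faithful action on a finitely generated group carries a functional with values in `ZMod p`
for every character into `ZMod p`. -/
theorem exists_eigenFunctional {p : ℕ} [Fact p.Prime] {A₀ M : Type*} [CommRing A₀] [AddCommGroup M]
    [Module.Finite ℤ M] (act : A₀ →+* Module.End ℤ M) (hinj : Function.Injective act)
    (ψ₀ : A₀ →+* ZMod p) :
    ∃ l : M →+ ZMod p, (∀ a m, l (act a m) = ψ₀ a * l m) ∧ ∃ m, l m ≠ 0 :=
  let _modA : Module A₀ M := Module.compHom M act
  exists_eigenFunctional' (fun _ hr => hinj ((LinearMap.ext hr).trans (map_zero act).symm)) ψ₀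

/-- A character of part of the Hecke algebra mod `p` gives an eigenvector mod `p`. -/
theorem exists_eigenvector {p : ℕ} [Fact p.Prime]
    (A₀ : Subring (heckeAlgebra N 2 ∅)) (ψ₀ : A₀ →+* ZMod p) :
    ∃ φ : Period.H N (ZMod p) (ZMod p), φ ≠ 0 ∧
      ∀ (ℓ : ℕ) (hℓ : ℓ.Prime) (hℓN : ¬ ℓ ∣ N) (h : tOf N hℓ hℓN ∈ A₀),
        HeckeH.heckeH N hℓ (ZMod p) (ZMod p) φ = ψ₀ ⟨_, h⟩ • φ := by
  obtain ⟨l, hlmul, y, hy⟩ := exists_eigenFunctional ((HeckeH.heckeEnd N ℤ ℤ).comp A₀.subtype)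
    ((HeckeH.heckeEnd_injective N).comp Subtype.val_injective) ψ₀
  set Λ : Module.Dual (ZMod p) (Period.H N (ZMod p) (ZMod p)) :=
    (∑ i, l (Period.coordH N i) • LinearMap.proj i) ∘ₗ
      (Period.evalEquiv N (ZMod p) (ZMod p)).toLinearMap with hΛ
  have hΛcast : ∀ m, Λ (Period.castH N (ZMod p) m) = l m := by
    intro m
    have hm : m = ∑ i, Period.evalEquiv N ℤ ℤ m i • Period.coordH N i := by
      refine Subtype.ext (AddMonoidHom.ext fun γ => ?_)
      rw [Submodule.coe_sum, AddMonoidHom.finsetSum_apply, Period.H_decomp m γ]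
      refine Finset.sum_congr rfl fun i _ => ?_
      rw [Submodule.coe_smul, AddMonoidHom.smul_apply, Period.evalEquiv_apply, smul_eq_mul,
        smul_eq_mul, mul_comm]
    conv_rhs => rw [hm]
    rw [hΛ, LinearMap.comp_apply, LinearMap.sum_apply, map_sum]
    refine Finset.sum_congr rfl fun i _ => ?_
    rw [map_zsmul, LinearMap.smul_apply, LinearMap.proj_apply, LinearEquiv.coe_coe,
      Period.evalEquiv_apply, Period.castH_apply, Period.evalEquiv_apply, smul_eq_mul, zsmul_eq_mul,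
      mul_comm]
  refine ⟨Pmap (ZMod p) Λ, ?_, fun ℓ hℓ hℓN h => ?_⟩
  · intro h0
    have hΛ0 : Λ = 0 := Pmap_injective (h0.trans (map_zero _).symm)
    refine hy ?_
    rw [← hΛcast, hΛ0, LinearMap.zero_apply]
  · rw [← Pmap_comp_heckeH hℓ hℓN, ← map_smul]
    congr 1
    refine LinearMap.ext fun m => ?_
    obtain ⟨m, rfl⟩ := castH_zmod_surjective N p m
    have e := castH_heckeH (ZMod p) (M := N) hℓ m
    show Λ (HeckeH.heckeH N hℓ (ZMod p) (ZMod p) (Period.castH N (ZMod p) m)) =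
      ψ₀ ⟨_, h⟩ * Λ (Period.castH N (ZMod p) m)
    refine (congrArg Λ e.symm).trans ?_
    refine (hΛcast (HeckeH.heckeH N hℓ ℤ ℤ m)).trans ?_
    refine Eq.trans ?_ (congrArg (fun z => ψ₀ ⟨_, h⟩ * z) (hΛcast m).symm)
    have e2 : HeckeH.heckeEnd N ℤ ℤ (tOf N hℓ hℓN) m = HeckeH.heckeH N hℓ ℤ ℤ m :=
      LinearMap.congr_fun (HeckeH.heckeEnd_T N hℓ hℓN (Set.notMem_empty ℓ) ℤ ℤ) m
    exact (congrArg l e2.symm).trans (hlmul ⟨_, h⟩ m)

/-- Every system of eigenvalues of the full Hecke algebra comes from a normalised eigenform, also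
at the primes dividing the level. -/
theorem exists_eigenform_of_hom_full {M : ℕ} [NeZero M] (χ : heckeAlgebra M 2 ∅ →+* ℂ) :
    ∃ g : CuspForm (Gamma0 M) 2, g.IsNormalizedEigenform ∧
      (∀ (ℓ : ℕ) (hℓ : ℓ.Prime) (hℓM : ¬ ℓ ∣ M),
        ModularFormClass.qCoeff g ℓ = χ (tOf M hℓ hℓM)) ∧
      ∀ (r : ℕ) (hr : r.Prime) (hrM : r ∣ M),
        ModularFormClass.qCoeff g r = χ (heckeAlgebra.U hr hrM (Set.notMem_empty r)) := by
  obtain ⟨g, hg⟩ := (IntStr.heckePairing_two_bijective M).2 χ.toAddMonoidHom.toIntLinearMap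
  have hev : ∀ t : heckeAlgebra M 2 ∅,
      ModularFormClass.qCoeff ((t : Module.End ℂ (CuspForm (Gamma0 M) 2)) g) 1 = χ t :=
    fun t => LinearMap.congr_fun hg t
  have heig : ∀ t : heckeAlgebra M 2 ∅,
      (t : Module.End ℂ (CuspForm (Gamma0 M) 2)) g = χ t • g := by
    intro t
    refine (IntStr.heckePairing_two_bijective M).1 (LinearMap.ext fun s => ?_)
    rw [map_smul, LinearMap.smul_apply, IntStr.heckePairing_apply, IntStr.heckePairing_apply,
      hev s, smul_eq_mul, ← map_mul, ← hev (t * s), mul_comm t s]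
    rfl
  have h1 : Small2.coeffL 1 g = 1 := Eq.trans (hev 1) (map_one χ)
  have hgn : g.IsNormalizedEigenform := by
    refine Small2.isNormalizedEigenform_of_eigen h1 (fun r => if hr : r.Prime then
      if hrM : r ∣ M then χ (heckeAlgebra.U hr hrM (Set.notMem_empty r))
      else χ (tOf M hr hrM) else 0) ?_ ?_
    · intro r hr hrM
      rw [dif_pos hr, dif_neg hrM]
      exact heig (tOf M hr hrM)
    · intro r hr hrM
      rw [dif_pos hr, dif_pos hrM]
      exact heig (heckeAlgebra.U hr hrM (Set.notMem_empty r))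
  refine ⟨g, hgn, fun ℓ hℓ hℓM => ?_, fun r hr hrM => ?_⟩
  · rw [← hev (tOf M hℓ hℓM)]
    show ModularFormClass.qCoeff g ℓ = Small2.coeffL 1 (heckeTLin 2 hℓ hℓM g)
    rw [Reps.heckeT_eigen hgn hℓ hℓM, map_smul, h1, smul_eq_mul, mul_one]
  · rw [← hev (heckeAlgebra.U hr hrM (Set.notMem_empty r))]
    show ModularFormClass.qCoeff g r = Small2.coeffL 1 (heckeULin 2 hrM g)
    rw [Reps.heckeU_eigen hgn hr hrM, map_smul, h1, smul_eq_mul, mul_one]

end FLTAgent.Ihara
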