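import Fermat.Agent.Ihara.Pairing
import Fermat.Agent.Ihara.Kernel

/-!
# Naturality of the intersection pairing

`Pmap` turns the transpose of corestriction into restriction (`Pmap_comp_corH`) and commutes with
`T_ℓ` (`Pmap_comp_heckeH`) and the Atkin–Lehner involution (`Pmap_comp_thetaH`). Consequences:
`heckeH_thetaH_of_ne` (proved on representatives), `corH_heckeH`, and `eisOp_sq_mem_range`: by
duality with `ihara_kernel`, `betaMap` is onto up to `(T_ℓ - ℓ - 1)²`.
-/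

set_option autoImplicit false
set_option linter.unusedSectionVars false

open CongruenceSubgroup ModularCurve.Period
open scoped MatrixGroups
open FLTAgent.HeckeH (M2 matOf mkGamma0 heckeBeta heckeIdx)

noncomputable section

namespace FLTAgent.Ihara

/-! ### Sums over double cosets -/

theorem adj_adj (M : M2) : M.adjugate.adjugate = M := by
  rw [Matrix.adjugate_fin_two M, Matrix.adjugate_fin_two_of, neg_neg, neg_neg,
    ← Matrix.eta_fin_two]

/-- A transfer sum of `Phi` as a sum over the matrices `δ g`. -/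
theorem sum_Phi_transfer {M : ℕ} [NeZero M] {ι : Type*} [Fintype ι] (g : ι → M2)
    (hg : ∀ i, 0 < (g i).det) (T : M2) (c : ι → Gamma0 M) (π : ι ≃ ι)
    (h : ∀ i, g i * T = matOf (c i) * g (π i)) (u v : Vec) :
    ∑ i, Phi (c i) u v =
      ∑ i, ∑ᶠ δ : Gamma0 M, (Lfun u v (matOf δ * g i * T) - Lfun u v (matOf δ * g i)) := by
  set F : ι → Gamma0 M → ℤ := fun i δ => Lfun u v (matOf δ * g i) - Lfun u v (matOf δ) with hF
  have hfin : ∀ i, (Function.support (F i)).Finite := fun i =>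
    finite_Lfun_ne_gamma0 u v (hg i)
  have hfin' : ∀ i, (Function.support fun δ => F (π i) (δ * c i)).Finite := fun i =>
    (hfin (π i)).preimage (mul_left_injective (c i)).injOn
  have hterm : ∀ i, ∑ᶠ δ : Gamma0 M, (Lfun u v (matOf δ * g i * T) - Lfun u v (matOf δ * g i)) =
      Phi (c i) u v + (∑ᶠ δ, F (π i) δ - ∑ᶠ δ, F i δ) := by
    intro i
    have e : ∑ᶠ δ, F (π i) δ = ∑ᶠ δ, F (π i) (δ * c i) := by
      have := finsum_comp_equiv (Equiv.mulRight (c i)) (f := F (π i))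
      simp only [Equiv.coe_mulRight] at this
      exact this.symm
    rw [e, ← finsum_sub_distrib (hfin' i) (hfin i), Phi,
      ← finsum_add_distrib (finite_support_Phi (c i) u v)
        (((hfin' i).union (hfin i)).subset (Function.support_sub _ _))]
    refine finsum_congr fun δ => ?_
    simp only [hF]
    rw [Matrix.mul_assoc, h i, ← Matrix.mul_assoc, ← HeckeH.matOf_mul]
    ring
  rw [Finset.sum_congr rfl fun i _ => hterm i, Finset.sum_add_distrib, Finset.sum_sub_distrib,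
    Equiv.sum_comp π (fun i => ∑ᶠ δ, F i δ), sub_self, add_zero]

theorem finite_variation {M : ℕ} [NeZero M] (u v : Vec) {β T : M2} (hβ : 0 < β.det)
    (hT : 0 < T.det) :
    (Function.support fun δ : Gamma0 M =>
      Lfun u v (matOf δ * β * T) - Lfun u v (matOf δ * β)).Finite := by
  refine (((finite_Lfun_ne_gamma0 u v (β := β * T) (by rw [Matrix.det_mul]; exact mul_pos hβ hT))).union
    (finite_Lfun_ne_gamma0 u v hβ)).subset fun δ hδ => ?_
  by_contra h0
  simp only [Set.mem_union, Function.mem_support, not_or, not_not] at h0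
  apply hδ
  show Lfun u v (matOf δ * β * T) - Lfun u v (matOf δ * β) = 0
  rw [Matrix.mul_assoc]
  linarith [h0.1, h0.2]

theorem sum_finsum {α ι : Type*} [Fintype ι] (f : ι × α → ℤ)
    (hf : ∀ i, (Function.support fun a => f (i, a)).Finite) :
    ∑ i, ∑ᶠ a, f (i, a) = ∑ᶠ p, f p := by
  have h : (Function.support f).Finite := by
    refine (Set.finite_iUnion fun i => (hf i).image (Prod.mk i)).subset ?_
    rintro ⟨i, a⟩ ha
    exact Set.mem_iUnion.mpr ⟨i, a, ha, rfl⟩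
  rw [finsum_curry f h, finsum_eq_sum_of_fintype]

variable {N q : ℕ} [NeZero N] [Fact q.Prime] (hqN : ¬ q ∣ N)

section Cor

include hqN

theorem coset_bijective :
    Function.Bijective fun p : Option (Fin q) × Gamma0 (N * q) =>
      inclHom N q p.2 * gOf N q p.1 := by
  constructor
  · rintro ⟨o, δ⟩ ⟨o', δ'⟩ h
    simp only at h
    have hclass : cosOf (N := N) (q := q) o = cosOf o' := by
      rw [cosOf, cosOf, QuotientGroup.eq, inv_inv]
      have : gOf N q o * (gOf N q o')⁻¹ = (inclHom N q δ)⁻¹ * inclHom N q δ' := by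
        rw [mul_inv_eq_iff_eq_mul, mul_assoc, ← h, inv_mul_cancel_left]
      rw [this]
      exact mul_mem (inv_mem (inclHom_mem_subG0 δ)) (inclHom_mem_subG0 δ')
    obtain rfl := (cosOf_bijective hqN).1 hclass
    refine Prod.ext rfl (Subtype.ext ?_)
    have := mul_right_cancel h
    rw [← coe_inclHom N q δ, this, coe_inclHom]
  · intro x
    obtain ⟨o, ho⟩ := (cosOf_bijective hqN).2 ((x⁻¹ : Gamma0 N) : Gamma0 N ⧸ Degen.subG0 N (N * q))
    rw [cosOf, eq_comm, QuotientGroup.eq, inv_inv] at ho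
    refine ⟨(o, ⟨((x * (gOf N q o)⁻¹ : Gamma0 N) : SL(2, ℤ)), ho⟩), ?_⟩
    show inclHom N q _ * _ = x
    have e : inclHom N q ⟨((x * (gOf N q o)⁻¹ : Gamma0 N) : SL(2, ℤ)), ho⟩ = x * (gOf N q o)⁻¹ :=
      Subtype.ext (coe_inclHom N q _)
    rw [e, inv_mul_cancel_right]

theorem sum_Phi_cosCoc (γ : Gamma0 N) (u v : Vec) :
    ∑ o, Phi (cosCoc hqN γ o) u v = Phi γ u v := by
  have hspec : ∀ o, matOf (gOf N q o) * matOf γ =
      matOf (cosCoc hqN γ o) * matOf (gOf N q (cosPerm hqN γ o)) := by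
    intro o
    rw [← matOf_inclHom N q (cosCoc hqN γ o), inclHom_cosCoc]
    simp only [← HeckeH.matOf_mul, inv_mul_cancel_right]
  rw [sum_Phi_transfer (fun o => matOf (gOf N q o)) (fun o => by
      rw [HeckeH.det_matOf]; exact one_pos) (matOf γ) (cosCoc hqN γ) (cosPerm hqN γ) hspec u v]
  have hfin : ∀ o, (Function.support fun δ : Gamma0 (N * q) =>
      Lfun u v (matOf δ * matOf (gOf N q o) * matOf γ) -
        Lfun u v (matOf δ * matOf (gOf N q o))).Finite := fun o =>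
    finite_variation u v (by rw [HeckeH.det_matOf]; exact one_pos)
      (by rw [HeckeH.det_matOf]; exact one_pos)
  refine (sum_finsum (fun p : Option (Fin q) × Gamma0 (N * q) =>
    Lfun u v (matOf p.2 * matOf (gOf N q p.1) * matOf γ) -
      Lfun u v (matOf p.2 * matOf (gOf N q p.1))) hfin).trans ?_
  refine Eq.trans ?_ (finsum_comp_equiv (Equiv.ofBijective _ (coset_bijective hqN))
    (f := fun x : Gamma0 N => Lfun u v (matOf (x * γ)) - Lfun u v (matOf x)))
  refine finsum_congr fun p => ?_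
  simp only [Equiv.ofBijective_apply, HeckeH.matOf_mul, matOf_inclHom]

variable (k : Type*) [Field k]

theorem corH_EK (δ : Gamma0 (N * q)) :
    Degen.corH k k (EK k δ) = EK k (inclHom N q δ) := by
  refine Subtype.ext (AddMonoidHom.ext fun γ => ?_)
  obtain ⟨γ, rfl⟩ := Additive.ofMul.surjective γ
  rw [Degen.coe_corH, corFun_eq_sum hqN]
  show ∑ o, (Eform (cosCoc hqN γ o) δ : k) = (Eform γ (inclHom N q δ) : k)
  rw [← Int.cast_sum]
  congr 1
  refine mul_left_cancel₀ (four_ne_zero : (4 : ℤ) ≠ 0) ?_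
  rw [Finset.mul_sum, four_mul_Eform]
  simp only [four_mul_Eform, Eform4, coe_inclHom]
  exact sum_Phi_cosCoc hqN γ _ _

theorem Pmap_comp_corH (Λ : Module.Dual k (Period.H N k k)) :
    Pmap k (Λ ∘ₗ Degen.corH k k) = resH N q k k (Pmap k Λ) := by
  refine Subtype.ext (AddMonoidHom.ext fun δ => ?_)
  show Λ (Degen.corH k k (EK k (Additive.toMul δ))) = Λ (EK k (inclHom N q (Additive.toMul δ)))
  rw [corH_EK hqN]

end Cor

/-! ### Hecke operators -/

section Hecke

variable {ℓ : ℕ} (hℓ : ℓ.Prime) (hℓN : ¬ ℓ ∣ N)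
include hℓ hℓN

theorem exists_adj (p : heckeIdx N ℓ × Gamma0 N) : ∃ p' : heckeIdx N ℓ × Gamma0 N,
    matOf p.2 * heckeBeta p.1 = (heckeBeta p'.1).adjugate * matOf p'.2 := by
  obtain ⟨i, δ⟩ := p
  have : Fact ℓ.Prime := ⟨hℓ⟩
  have hco : IsCoprime (ℓ : ℤ) (N : ℤ) :=
    Int.isCoprime_iff_gcd_eq_one.mpr (by
      simpa [Int.gcd] using (Nat.Prime.coprime_iff_not_dvd hℓ).mpr hℓN)
  have hd : IsCoprime (matOf δ 1 1) (N : ℤ) := by
    obtain ⟨c, hc⟩ := HeckeH.matOf_dvd δ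
    exact ⟨matOf δ 0 0, -(matOf δ 0 1) * c,
      by linear_combination HeckeH.det_entries δ + matOf δ 0 1 * hc⟩
  obtain ⟨ε, j, hj⟩ := HeckeH.exists_heckeBeta (N := N) hℓ (matOf δ * heckeBeta i).adjugate
    (by rw [Matrix.det_adjugate, Matrix.det_mul, HeckeH.det_matOf, HeckeH.det_heckeBeta]; simp)
    (by
      rw [Matrix.adjugate_fin_two]
      obtain ⟨_ | a, ha⟩ := i <;>
        simp [HeckeH.heckeBeta_none, HeckeH.heckeBeta_some, Matrix.mul_apply, Fin.sum_univ_two,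
          HeckeH.matOf_dvd δ, dvd_mul_of_dvd_left (HeckeH.matOf_dvd δ)])
    (by
      rw [Matrix.adjugate_fin_two]
      obtain ⟨c, hc⟩ := HeckeH.matOf_dvd δ
      obtain ⟨_ | a, ha⟩ := i <;>
        simp [HeckeH.heckeBeta_none, HeckeH.heckeBeta_some, Matrix.mul_apply, Fin.sum_univ_two]
      · exact hd
      · rw [hc, show (N : ℤ) * c * (a : ℕ) + matOf δ 1 1 * ℓ =
          matOf δ 1 1 * ℓ + (c * (a : ℕ)) * (N : ℤ) by ring]
        exact (hd.mul_left hco).add_mul_right_left _)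
  refine ⟨(j, ε⁻¹), ?_⟩
  have h2 := congrArg Matrix.adjugate hj
  rw [adj_adj, Matrix.adjugate_mul_distrib, ← matOf_inv] at h2
  exact h2

/-- The matching of `δ β i` with `adj (β j) δ'`. -/
def adjIdx (p : heckeIdx N ℓ × Gamma0 N) : heckeIdx N ℓ × Gamma0 N := (exists_adj hℓ hℓN p).choose

theorem adjIdx_spec (p : heckeIdx N ℓ × Gamma0 N) :
    matOf p.2 * heckeBeta p.1 =
      (heckeBeta (adjIdx hℓ hℓN p).1).adjugate * matOf (adjIdx hℓ hℓN p).2 :=
  (exists_adj hℓ hℓN p).choose_spec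

theorem adjIdx_bijective : Function.Bijective (adjIdx hℓ hℓN) := by
  have hinj : ∀ p p' : heckeIdx N ℓ × Gamma0 N,
      matOf p.2 * heckeBeta p.1 = matOf p'.2 * heckeBeta p'.1 → p = p' := by
    rintro ⟨i, δ⟩ ⟨i', δ'⟩ h
    obtain ⟨h1, h2⟩ := (HeckeH.heckeReps N hℓ).unique h
    exact Prod.ext h2 h1
  have hinj' : ∀ p p' : heckeIdx N ℓ × Gamma0 N,
      (heckeBeta p.1).adjugate * matOf p.2 = (heckeBeta p'.1).adjugate * matOf p'.2 → p = p' := by
    rintro ⟨i, δ⟩ ⟨i', δ'⟩ h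
    have h2 := congrArg Matrix.adjugate h
    rw [Matrix.adjugate_mul_distrib, Matrix.adjugate_mul_distrib, adj_adj, adj_adj, ← matOf_inv,
      ← matOf_inv] at h2
    obtain ⟨h3, h4⟩ := (HeckeH.heckeReps N hℓ).unique h2
    exact Prod.ext h4 (inv_injective h3)
  refine ⟨fun p p' h => hinj p p' (by rw [adjIdx_spec hℓ hℓN p, adjIdx_spec hℓ hℓN p', h]),
    fun p' => ?_⟩
  obtain ⟨⟨i', δ'⟩, rfl⟩ : ∃ x, x = p' := ⟨p', rfl⟩
  obtain ⟨j, ε, hj⟩ : ∃ (j : heckeIdx N ℓ) (ε : Gamma0 N),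
      (heckeBeta i').adjugate * matOf δ' = matOf ε * heckeBeta j := by
    obtain ⟨⟨j, ε⟩, hj⟩ := exists_adj hℓ hℓN (i', δ'⁻¹)
    refine ⟨j, ε⁻¹, ?_⟩
    have h2 := congrArg Matrix.adjugate hj
    rw [Matrix.adjugate_mul_distrib, Matrix.adjugate_mul_distrib, adj_adj, matOf_inv, adj_adj] at h2
    rw [h2, matOf_inv]
  exact ⟨(j, ε), hinj' _ _ ((adjIdx_spec hℓ hℓN (j, ε)).symm.trans hj.symm)⟩

theorem sum_Phi_coc (γ : Gamma0 N) (u v : Vec) :
    ∑ i, Phi ((HeckeH.heckeReps N hℓ).coc γ i) u v =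
      ∑ i : heckeIdx N ℓ, Phi γ (act (heckeBeta i) u) (act (heckeBeta i) v) := by
  have hdet : ∀ i : heckeIdx N ℓ, 0 < (heckeBeta i).det := fun i => by
    rw [HeckeH.det_heckeBeta]; exact_mod_cast hℓ.pos
  have hγ : 0 < (matOf γ).det := by rw [HeckeH.det_matOf]; exact one_pos
  rw [sum_Phi_transfer heckeBeta hdet (matOf γ) ((HeckeH.heckeReps N hℓ).coc γ)
    ((HeckeH.heckeReps N hℓ).permEquiv γ) (fun i => (HeckeH.heckeReps N hℓ).spec γ i) u v]
  have h1 : ∀ i, (Function.support fun δ : Gamma0 N =>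
      Lfun u v (matOf δ * heckeBeta i * matOf γ) - Lfun u v (matOf δ * heckeBeta i)).Finite :=
    fun i => finite_variation u v (hdet i) hγ
  refine (sum_finsum (fun p : heckeIdx N ℓ × Gamma0 N =>
    Lfun u v (matOf p.2 * heckeBeta p.1 * matOf γ) - Lfun u v (matOf p.2 * heckeBeta p.1)) h1).trans ?_
  have h2 : ∀ i : heckeIdx N ℓ, (Function.support fun δ : Gamma0 N =>
      Lfun (act (heckeBeta i) u) (act (heckeBeta i) v) (matOf (δ * γ)) -
        Lfun (act (heckeBeta i) u) (act (heckeBeta i) v) (matOf δ)).Finite :=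
    fun i => finite_support_Phi γ _ _
  refine Eq.trans ?_ (sum_finsum (fun p : heckeIdx N ℓ × Gamma0 N =>
    Lfun (act (heckeBeta p.1) u) (act (heckeBeta p.1) v) (matOf (p.2 * γ)) -
      Lfun (act (heckeBeta p.1) u) (act (heckeBeta p.1) v) (matOf p.2)) h2).symm
  refine Eq.trans ?_ (finsum_comp_equiv (Equiv.ofBijective _ (adjIdx_bijective hℓ hℓN)))
  refine finsum_congr fun p => ?_
  rw [Equiv.ofBijective_apply, adjIdx_spec hℓ hℓN p, HeckeH.matOf_mul, Matrix.mul_assoc,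
    Lfun_mul_left u v, Lfun_mul_left u v, adj_adj]

variable (k : Type*) [Field k]

theorem heckeH_EK (δ : Gamma0 N) :
    HeckeH.heckeH N hℓ k k (EK k δ) = ∑ i, EK k ((HeckeH.heckeReps N hℓ).coc δ i) := by
  refine Subtype.ext (AddMonoidHom.ext fun γ => ?_)
  obtain ⟨γ, rfl⟩ := Additive.ofMul.surjective γ
  rw [HeckeH.coe_heckeH, HeckeH.Reps.transfer_apply, Submodule.coe_sum,
    AddMonoidHom.finsetSum_apply]
  show ∑ i, (Eform ((HeckeH.heckeReps N hℓ).coc γ i) δ : k) =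
    ∑ i, (Eform γ ((HeckeH.heckeReps N hℓ).coc δ i) : k)
  rw [← Int.cast_sum, ← Int.cast_sum]
  refine congrArg (fun z : ℤ => (z : k)) ?_
  refine mul_left_cancel₀ (four_ne_zero : (4 : ℤ) ≠ 0) ?_
  rw [Finset.mul_sum, Finset.mul_sum]
  simp only [four_mul_Eform, Eform4]
  rw [sum_Phi_coc hℓ hℓN γ]
  have hne : ∀ i : heckeIdx N ℓ, act (heckeBeta i) vec1 ≠ 0 := by
    rintro ⟨_ | j, hj⟩ <;> simp [HeckeH.heckeBeta_none, HeckeH.heckeBeta_some, act, vec1, hℓ.ne_zero]
  have key : ∀ i : heckeIdx N ℓ,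
      Phi γ (act (heckeBeta i) vec1) (act (heckeBeta i) (sv (δ : SL(2, ℤ)) vec1)) =
        Phi γ (act (heckeBeta i) vec1) vec1 +
          Phi γ vec1 (sv ((HeckeH.heckeReps N hℓ).coc δ i : SL(2, ℤ)) vec1) -
          Phi γ (act (heckeBeta ((HeckeH.heckeReps N hℓ).perm δ i)) vec1) vec1 := by
    intro i
    have hs : act (heckeBeta i) (sv (δ : SL(2, ℤ)) vec1) =
        sv ((HeckeH.heckeReps N hℓ).coc δ i : SL(2, ℤ))
          (act (heckeBeta ((HeckeH.heckeReps N hℓ).perm δ i)) vec1) := by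
      rw [sv, sv, ← act_mul, ← act_mul]
      exact congrArg (act · vec1) ((HeckeH.heckeReps N hℓ).spec δ i)
    rw [hs, Phi_add γ (hne i) vec1_ne_zero (sv_ne_zero _ (hne _)),
      Phi_add γ vec1_ne_zero (sv_ne_zero _ vec1_ne_zero) (sv_ne_zero _ (hne _)), Phi_invariant,
      Phi_swap γ (act (heckeBeta ((HeckeH.heckeReps N hℓ).perm δ i)) vec1) vec1]
    ring
  rw [Finset.sum_congr rfl fun i _ => key i, Finset.sum_sub_distrib, Finset.sum_add_distrib]
  have hp : ∑ i, Phi γ (act (heckeBeta ((HeckeH.heckeReps N hℓ).perm δ i)) vec1) vec1 =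
      ∑ i, Phi γ (act (heckeBeta i) vec1) vec1 :=
    Equiv.sum_comp ((HeckeH.heckeReps N hℓ).permEquiv δ)
      (fun i => Phi γ (act (heckeBeta i) vec1) vec1)
  rw [hp]
  ring

theorem Pmap_comp_heckeH (Λ : Module.Dual k (Period.H N k k)) :
    Pmap k (Λ ∘ₗ HeckeH.heckeH N hℓ k k) = HeckeH.heckeH N hℓ k k (Pmap k Λ) := by
  refine Subtype.ext (AddMonoidHom.ext fun δ => ?_)
  obtain ⟨δ, rfl⟩ := Additive.ofMul.surjective δ
  rw [HeckeH.coe_heckeH, HeckeH.Reps.transfer_apply]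
  show Λ (HeckeH.heckeH N hℓ k k (EK k δ)) = ∑ i, Λ (EK k ((HeckeH.heckeReps N hℓ).coc δ i))
  rw [heckeH_EK hℓ hℓN, map_sum]

theorem Pmap_comp_eisOp (Λ : Module.Dual k (Period.H N k k)) :
    Pmap k (Λ ∘ₗ eisOp N hℓ k) = eisOp N hℓ k (Pmap k Λ) := by
  have e : Λ ∘ₗ eisOp N hℓ k = Λ ∘ₗ HeckeH.heckeH N hℓ k k - ((ℓ + 1 : ℕ) : k) • Λ :=
    LinearMap.ext fun x => by simp [eisOp_apply]
  rw [e, map_sub, map_smul, Pmap_comp_heckeH hℓ hℓN, eisOp_apply]

end Hecke

/-! ### The Atkin-Lehner involution -/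

section Theta

include hqN

/-- The Atkin-Lehner matrix at `q`. -/
def wMatQ : M2 := matOf (omegaL hqN) * Degen.dMat q

theorem det_wMatQ : (wMatQ hqN).det = q := by
  rw [wMatQ, Matrix.det_mul, HeckeH.det_matOf, one_mul, Degen.dMat, Matrix.det_fin_two_of]
  simp

theorem wMatQ_mul (γ : Gamma0 (N * q)) :
    wMatQ hqN * matOf γ = matOf (theta hqN γ) * wMatQ hqN := by
  rw [wMatQ, Matrix.mul_assoc, dMat_mul_iqHom, ← matOf_inclHom N q (theta hqN γ), inclHom_theta,
    ← Matrix.mul_assoc, ← Matrix.mul_assoc, ← HeckeH.matOf_mul, ← HeckeH.matOf_mul,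
    inv_mul_cancel_right]

theorem theta_bijective : Function.Bijective (theta hqN) := by
  constructor
  · intro a b h
    have := congrArg (theta hqN) h
    rw [theta_theta, theta_theta] at this
    exact mul_left_cancel (mul_right_cancel this)
  · intro b
    refine ⟨(thetaSqElt hqN)⁻¹ * theta hqN b * thetaSqElt hqN, ?_⟩
    refine mul_left_cancel (a := theta hqN (thetaSqElt hqN)) (mul_right_cancel
      (b := (theta hqN (thetaSqElt hqN))⁻¹) ?_)
    have hfix : theta hqN (theta hqN b) = thetaSqElt hqN * b * (thetaSqElt hqN)⁻¹ := theta_theta hqN b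
    have hc : theta hqN (thetaSqElt hqN) = thetaSqElt hqN := by
      apply HeckeH.matOf_injective
      refine HeckeH.mul_right_cancel_of_det_ne (c := wMatQ hqN)
        (by rw [det_wMatQ]; exact_mod_cast NeZero.ne q) ?_
      rw [← wMatQ_mul]
      have e : matOf (thetaSqElt hqN) = matOf (omegaL hqN) * matOf (omegaR hqN) := by
        rw [← HeckeH.matOf_mul]; rfl
      have e2 : (q : ℤ) • matOf (thetaSqElt hqN) = wMatQ hqN * wMatQ hqN := by
        rw [e, wMatQ, Matrix.mul_assoc (matOf (omegaL hqN)) (Degen.dMat q), dMat_omegaL_dMat,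
          Matrix.mul_smul]
      have h3 : (q : ℤ) • (wMatQ hqN * matOf (thetaSqElt hqN)) =
          (q : ℤ) • (matOf (thetaSqElt hqN) * wMatQ hqN) := by
        rw [← Matrix.mul_smul, ← Matrix.smul_mul, e2, Matrix.mul_assoc]
      exact smul_right_injective M2 (by exact_mod_cast NeZero.ne q : (q : ℤ) ≠ 0) h3
    rw [hc, map_mul, map_mul, map_inv, hc, hfix]
    group

theorem Phi_theta (γ : Gamma0 (N * q)) (u v : Vec) :
    Phi (theta hqN γ) u v =
      Phi γ (act (wMatQ hqN).adjugate u) (act (wMatQ hqN).adjugate v) := by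
  have hdet : 0 < (wMatQ hqN).det := by rw [det_wMatQ]; exact_mod_cast (Fact.out : q.Prime).pos
  have h := sum_Phi_transfer (ι := Unit) (fun _ => wMatQ hqN) (fun _ => hdet) (matOf γ)
    (fun _ => theta hqN γ) (Equiv.refl _) (fun _ => wMatQ_mul hqN γ) u v
  simp only [Finset.univ_unique, Finset.sum_singleton] at h
  rw [h]
  refine ((finsum_comp_equiv (Equiv.ofBijective _ (theta_bijective hqN))).symm).trans
    (finsum_congr fun δ => ?_)
  rw [Equiv.ofBijective_apply, ← wMatQ_mul, HeckeH.matOf_mul, Matrix.mul_assoc, Lfun_mul_left u v,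
    Lfun_mul_left u v]

variable (k : Type*) [Field k]

theorem thetaH_EK (δ : Gamma0 (N * q)) :
    thetaH k k hqN (EK k δ) = EK k (theta hqN δ) := by
  have h : ∀ δ : Gamma0 (N * q), thetaH k k hqN (EK k (theta hqN δ)) = EK k δ := by
    intro δ
    refine Subtype.ext (AddMonoidHom.ext fun γ => ?_)
    obtain ⟨γ, rfl⟩ := Additive.ofMul.surjective γ
    show (Eform (theta hqN γ) (theta hqN δ) : k) = (Eform γ δ : k)
    refine congrArg (fun z : ℤ => (z : k)) ?_
    refine mul_left_cancel₀ (four_ne_zero : (4 : ℤ) ≠ 0) ?_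
    rw [four_mul_Eform, four_mul_Eform, Eform4, Eform4, Phi_theta]
    set A := (wMatQ hqN).adjugate
    have hA : A * matOf (theta hqN δ) = matOf δ * A := by
      have e := congrArg (fun x : M2 => A * x * A) (wMatQ_mul hqN δ)
      simp only [A, ← Matrix.mul_assoc, Matrix.adjugate_mul, Matrix.smul_mul, Matrix.one_mul] at e
      rw [Matrix.mul_assoc ((wMatQ hqN).adjugate * matOf (theta hqN δ)), Matrix.mul_adjugate,
        Matrix.mul_smul, Matrix.mul_one] at e
      exact smul_right_injective M2 (by rw [det_wMatQ]; exact_mod_cast NeZero.ne q) e.symm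
    have hw : act A vec1 ≠ 0 := by
      intro h0
      have h1 := congrArg (act (wMatQ hqN)) h0
      rw [← act_mul, Matrix.mul_adjugate, det_wMatQ] at h1
      simp [act, vec1, NeZero.ne q] at h1
    have hs : act A (sv (theta hqN δ : SL(2, ℤ)) vec1) = sv (δ : SL(2, ℤ)) (act A vec1) := by
      rw [sv, sv, ← act_mul, ← act_mul]
      exact congrArg (act · vec1) hA
    rw [hs, Phi_add γ hw vec1_ne_zero (sv_ne_zero _ hw),
      Phi_add γ vec1_ne_zero (sv_ne_zero _ vec1_ne_zero) (sv_ne_zero _ hw), Phi_invariant,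
      Phi_swap γ (act A vec1) vec1]
    ring
  conv_lhs => rw [← h δ, thetaH_thetaH]

theorem Pmap_comp_thetaH (Λ : Module.Dual k (Period.H (N * q) k k)) :
    Pmap k (Λ ∘ₗ thetaH k k hqN) = thetaH k k hqN (Pmap k Λ) := by
  refine Subtype.ext (AddMonoidHom.ext fun δ => ?_)
  show Λ (thetaH k k hqN (EK k (Additive.toMul δ))) = Λ (EK k (theta hqN (Additive.toMul δ)))
  rw [thetaH_EK]

theorem exists_thetaBeta {ℓ : ℕ} (hℓ : ℓ.Prime) (hℓq : ℓ ≠ q) (i : heckeIdx (N * q) ℓ) :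
    ∃ (ε : Gamma0 (N * q)) (j : heckeIdx (N * q) ℓ),
      wMatQ hqN * heckeBeta i = matOf ε * heckeBeta j * wMatQ hqN := by
  obtain ⟨m00, m01, m11, hb, hdetm, hu⟩ : ∃ m00 m01 m11 : ℤ,
      Degen.dMat q * heckeBeta i = !![m00, (q : ℤ) * m01; 0, m11] * Degen.dMat q ∧
        m00 * m11 = ℓ ∧ (IsCoprime m00 (N : ℤ) ∧ IsCoprime m11 (q : ℤ)) := by
    have hq : IsCoprime (ℓ : ℤ) (q : ℤ) := Int.isCoprime_iff_gcd_eq_one.mpr (by
      simpa [Int.gcd] using (Nat.coprime_primes hℓ (Fact.out : q.Prime)).mpr hℓq)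
    obtain ⟨_ | j, hj⟩ := i
    · have hN : IsCoprime (ℓ : ℤ) (N : ℤ) := Int.isCoprime_iff_gcd_eq_one.mpr (by
        simpa [Int.gcd] using (Nat.Prime.coprime_iff_not_dvd hℓ).mpr
          fun h => hj rfl (h.mul_right q))
      exact ⟨ℓ, 0, 1, by simp [HeckeH.heckeBeta_none, Degen.dMat, mul_comm], by ring, hN,
        isCoprime_one_left⟩
    · exact ⟨1, (j : ℕ), ℓ, by simp [HeckeH.heckeBeta_some, Degen.dMat], by ring,
        isCoprime_one_left, hq⟩
  set X : M2 := matOf (omegaL hqN) * !![m00, (q : ℤ) * m01; 0, m11] *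
    (matOf (omegaL hqN)).adjugate with hX
  have hXe : X = !![m00 * ((q : ℤ) * atT N q) - ((q : ℤ) * m01 + atY N q * m11) * N,
        -(m00 * atY N q) + ((q : ℤ) * m01 + atY N q * m11);
      (N : ℤ) * m00 * ((q : ℤ) * atT N q) - ((N : ℤ) * ((q : ℤ) * m01) + (q : ℤ) * atT N q * m11) * N,
        -((N : ℤ) * m00 * atY N q) + ((N : ℤ) * ((q : ℤ) * m01) + (q : ℤ) * atT N q * m11)] := by
    rw [hX, omegaL, HeckeH.matOf_mkGamma0, Matrix.adjugate_fin_two_of, Matrix.mul_fin_two,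
      Matrix.mul_fin_two]
    ext a b
    fin_cases a <;> fin_cases b <;> simp <;> ring
  obtain ⟨ε, j, hj⟩ := HeckeH.exists_heckeBeta (N := N * q) hℓ X
    (by rw [hX, Matrix.det_mul, Matrix.det_mul, Matrix.det_adjugate, HeckeH.det_matOf,
      Matrix.det_fin_two_of]; simp [hdetm])
    (by
      rw [hXe]
      simp only [Matrix.of_apply, Matrix.cons_val', Matrix.cons_val_zero, Matrix.cons_val_one,
        Matrix.cons_val_fin_one]
      push_cast
      exact ⟨m00 * atT N q - (N : ℤ) * m01 - atT N q * m11, by ring⟩)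
    (by
      rw [hXe]
      simp only [Matrix.of_apply, Matrix.cons_val', Matrix.cons_val_zero,
        Matrix.cons_val_fin_one]
      push_cast
      refine IsCoprime.mul_right ?_ ?_
      · have hc : IsCoprime m00 (N : ℤ) := hu.1
        rw [show m00 * ((q : ℤ) * atT N q) - ((q : ℤ) * m01 + atY N q * m11) * N =
          m00 + (m00 * atY N q - ((q : ℤ) * m01 + atY N q * m11)) * N by
            linear_combination m00 * at_eq hqN]
        exact hc.add_mul_right_left _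
      · have hc : IsCoprime m11 (q : ℤ) := hu.2
        rw [show m00 * ((q : ℤ) * atT N q) - ((q : ℤ) * m01 + atY N q * m11) * N =
          m11 + (m00 * atT N q - m01 * N - atT N q * m11) * q by
            linear_combination m11 * at_eq hqN]
        exact hc.add_mul_right_left _)
  refine ⟨ε, j, ?_⟩
  rw [← hj, hX, wMatQ, Matrix.mul_assoc, hb, ← Matrix.mul_assoc (_ * _ * _),
    Matrix.mul_assoc (_ * _) (matOf (omegaL hqN)).adjugate, Matrix.adjugate_mul, HeckeH.det_matOf,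
    one_smul, Matrix.mul_one, Matrix.mul_assoc]

/-- `T_ℓ` and `U_ℓ` commute with the Atkin-Lehner involution at `q` for `ℓ ≠ q`. -/
theorem heckeH_thetaH_of_ne {ℓ : ℕ} (hℓ : ℓ.Prime) (hℓq : ℓ ≠ q) (R A : Type*) [Semiring R]
    [AddCommGroup A] [Module R A] (φ : Period.H (N * q) R A) :
    thetaH R A hqN (HeckeH.heckeH (N * q) hℓ R A φ) =
      HeckeH.heckeH (N * q) hℓ R A (thetaH R A hqN φ) := by
  have : NeZero ℓ := ⟨hℓ.ne_zero⟩
  choose ε e hε using exists_thetaBeta hqN hℓ hℓq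
  have hinj : Function.Injective e := by
    intro i i' h
    obtain ⟨x, hx⟩ := (theta_bijective hqN).2 (ε i * (ε i')⁻¹)
    refine (HeckeH.heckeReps (N * q) hℓ).inj x i i' ?_
    have h1 : wMatQ hqN * heckeBeta i = wMatQ hqN * (matOf x * heckeBeta i') := by
      rw [← Matrix.mul_assoc, wMatQ_mul, hx, Matrix.mul_assoc, hε i', hε i, h, ← Matrix.mul_assoc,
        ← Matrix.mul_assoc, ← HeckeH.matOf_mul, inv_mul_cancel_right]
    have h2 := congrArg (fun y : M2 => (wMatQ hqN).adjugate * y) h1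
    simp only [← Matrix.mul_assoc, Matrix.adjugate_mul, Matrix.smul_mul, Matrix.one_mul] at h2
    exact smul_right_injective M2 (by rw [det_wMatQ]; exact_mod_cast NeZero.ne q) h2
  let e' : heckeIdx (N * q) ℓ ≃ heckeIdx (N * q) ℓ :=
    Equiv.ofBijective e ⟨hinj, Finite.surjective_of_injective hinj⟩
  refine Subtype.ext (AddMonoidHom.ext fun γ => ?_)
  exact Degen.transfer_comp_conj (HeckeH.heckeReps (N * q) hℓ) (HeckeH.heckeReps (N * q) hℓ)
    (wMatQ hqN) (by rw [det_wMatQ]; exact_mod_cast NeZero.ne q) (theta hqN) (wMatQ_mul hqN) e' ε hε R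
    (φ : Additive (Gamma0 (N * q)) →+ A) (Additive.toMul γ)

/-- `T_ℓ` commutes with the Atkin-Lehner involution. -/
theorem heckeH_thetaH {ℓ : ℕ} (hℓ : ℓ.Prime) (hℓNq : ¬ ℓ ∣ N * q) (R A : Type*) [Semiring R]
    [AddCommGroup A] [Module R A] (φ : Period.H (N * q) R A) :
    thetaH R A hqN (HeckeH.heckeH (N * q) hℓ R A φ) =
      HeckeH.heckeH (N * q) hℓ R A (thetaH R A hqN φ) :=
  heckeH_thetaH_of_ne hqN hℓ (fun h => hℓNq (h ▸ dvd_mul_left q N)) R A φ

end Theta

/-! ### Consequences over a field -/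

section Field

variable (k : Type*) [Field k] {ℓ : ℕ} (hℓ : ℓ.Prime) (hℓNq : ¬ ℓ ∣ N * q)
include hqN hℓNq

theorem corH_heckeH (φ : Period.H (N * q) k k) :
    Degen.corH (N := N) k k (HeckeH.heckeH (N * q) hℓ k k φ) =
      HeckeH.heckeH N hℓ k k (Degen.corH k k φ) := by
  have hℓN : ¬ ℓ ∣ N := fun h => hℓNq (h.mul_right q)
  have h : ∀ Λ : Module.Dual k (Period.H N k k),
      (Λ ∘ₗ Degen.corH k k) ∘ₗ HeckeH.heckeH (N * q) hℓ k k =
        (Λ ∘ₗ HeckeH.heckeH N hℓ k k) ∘ₗ Degen.corH k k := by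
    intro Λ
    refine Pmap_injective ?_
    rw [Pmap_comp_heckeH hℓ hℓNq, Pmap_comp_corH hqN, Pmap_comp_corH hqN,
      Pmap_comp_heckeH hℓ hℓN]
    exact (Degen.heckeH_degH hℓ 1 _ hℓN hℓNq _).symm
  refine sub_eq_zero.mp ((Module.forall_dual_apply_eq_zero_iff k _).mp fun Λ => ?_)
  rw [map_sub, sub_eq_zero]
  exact LinearMap.congr_fun (h Λ) φ

/-- Up to `(T_ℓ - ℓ - 1)²` the map `betaMap` is surjective. -/
theorem eisOp_sq_mem_range {cp : ℕ} [CharP k cp] (hcp : cp.Prime) (hℓ2 : ℓ ≠ 2)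
    (y : Period.H N k k × Period.H N k k) :
    (eisOp N hℓ k (eisOp N hℓ k y.1), eisOp N hℓ k (eisOp N hℓ k y.2)) ∈
      LinearMap.range (betaMap k k hqN) := by
  have hℓN : ¬ ℓ ∣ N := fun h => hℓNq (h.mul_right q)
  by_contra hmem
  obtain ⟨Λ, hΛ, hker⟩ := Submodule.exists_dual_map_eq_bot_of_notMem hmem inferInstance
  set Λ₁ := Λ ∘ₗ LinearMap.inl k (Period.H N k k) (Period.H N k k) with hΛ₁
  set Λ₂ := Λ ∘ₗ LinearMap.inr k (Period.H N k k) (Period.H N k k) with hΛ₂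
  have hsplit : ∀ a b, Λ (a, b) = Λ₁ a + Λ₂ b := fun a b => by
    rw [hΛ₁, hΛ₂, LinearMap.comp_apply, LinearMap.comp_apply, ← map_add]; simp
  have hrel : Λ₁ ∘ₗ Degen.corH k k + (Λ₂ ∘ₗ Degen.corH k k) ∘ₗ thetaH k k hqN = 0 := by
    refine LinearMap.ext fun φ => ?_
    have h0 : Λ (betaMap k k hqN φ) ∈ (LinearMap.range (betaMap k k hqN)).map Λ :=
      ⟨_, ⟨φ, rfl⟩, rfl⟩
    rw [hker, Submodule.mem_bot, betaMap_apply, hsplit] at h0
    exact h0
  have hα : alpha (q := q) k k (Pmap k Λ₁, Pmap k Λ₂) = 0 := by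
    have := congrArg (Pmap (N := N * q) k) hrel
    rw [map_add, map_zero, Pmap_comp_thetaH hqN, Pmap_comp_corH hqN, Pmap_comp_corH hqN,
      thetaH_resH] at this
    exact this
  obtain ⟨k1, k2⟩ := ihara_kernel hqN hcp hℓ hℓ2 hℓNq hα
  have z : ∀ Λ' : Module.Dual k (Period.H N k k),
      eisOp N hℓ k (eisOp N hℓ k (Pmap k Λ')) = 0 →
        ∀ x, Λ' (eisOp N hℓ k (eisOp N hℓ k x)) = 0 := by
    intro Λ' h x
    rw [← Pmap_comp_eisOp hℓ hℓN, ← Pmap_comp_eisOp hℓ hℓN] at h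
    exact LinearMap.congr_fun (Pmap_injective (h.trans (map_zero _).symm)) x
  exact hΛ (by rw [hsplit, z _ k1, z _ k2, add_zero])

end Field

end FLTAgent.Ihara
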