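import Fermat.Agent.EllFrob.Interface
import Fermat.Agent.EllLocal.Semistable
import Fermat.Agent.EllTorsion.Det
import Fermat.Agent.Density.Main
import Fermat.Agent.GalCommon.Frobenius
import Fermat.Prelude.Def_FLTPrelim_ModularRep

/-!
# An irreducible `E[p]` is not Eisenstein

`exists_not_eisenstein`: for odd `p` and irreducible `E[p]` there is a good prime `ℓ` outside any
finite set with `p ∤ a_ℓ - 1 - ℓ`. Otherwise the Frobenius relation and density give
`(g - 1) (g - det g) = 0` on all of the Galois group, and an element of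
determinant `-1` then forces an invariant line (`exists_invariant_line`). Also
`modRepIsIrreducible_of_model`: irreducibility passes to integral models.
-/

set_option autoImplicit false
set_option linter.style.haveILetI false
set_option maxHeartbeats 400000

noncomputable section

open WeierstrassCurve WeierstrassCurve.Affine WeierstrassCurve.Affine.Point

namespace FLTAgent.Ihara

/-! ### Linear algebra -/

/-- In dimension two a group with `(g - 1)(g - det g) = 0` throughout, containing an element of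
determinant `-1`, fixes a line. -/
theorem exists_invariant_line {k V Γ : Type*} [Field k] [AddCommGroup V] [Module k V] [Monoid Γ]
    (hV : Module.finrank k V = 2) (h2 : (2 : k) ≠ 0) (ρ : Γ →* Module.End k V)
    (hdet : ∀ g, LinearMap.det (ρ g) ≠ 0)
    (hrel : ∀ g, (ρ g - 1) * (ρ g - LinearMap.det (ρ g) • 1) = 0)
    (hodd : ∃ c, LinearMap.det (ρ c) = -1) :
    ∃ v : V, v ≠ 0 ∧ ∀ g, ρ g v ∈ Submodule.span k {v} := by
  classical
  haveI : FiniteDimensional k V := Module.finite_of_finrank_eq_succ hV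
  obtain ⟨c, hc⟩ := hodd
  have hc2 := hrel c
  rw [hc, neg_smul, one_smul, sub_neg_eq_add] at hc2
  have hone : LinearMap.det (1 : Module.End k V) = 1 := map_one _
  have hne1 : ρ c - 1 ≠ 0 := fun h => by
    rw [sub_eq_zero.mp h, hone] at hc
    exact h2 (by linear_combination hc)
  have hne2 : ρ c + 1 ≠ 0 := fun h => by
    rw [eq_neg_of_add_eq_zero_left h, ← neg_one_smul k (1 : Module.End k V), LinearMap.det_smul, hV,
      hone] at hc
    exact h2 (by linear_combination hc)
  obtain ⟨x, hx⟩ : ∃ x, (ρ c + 1) x ≠ 0 := by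
    by_contra! h
    exact hne2 (LinearMap.ext h)
  obtain ⟨y, hy⟩ : ∃ y, (ρ c - 1) y ≠ 0 := by
    by_contra! h
    exact hne1 (LinearMap.ext h)
  set e : V := (ρ c + 1) x with he
  set f : V := (ρ c - 1) y with hf
  have hce : ρ c e = e := by
    have := LinearMap.congr_fun hc2 x
    rw [Module.End.mul_apply, ← he, LinearMap.sub_apply, Module.End.one_apply,
      LinearMap.zero_apply, sub_eq_zero] at this
    exact this
  have hc2' : (ρ c + 1) * (ρ c - 1) = 0 := by
    rw [← hc2]
    noncomm_ring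
  have hcf : ρ c f = -f := by
    have := LinearMap.congr_fun hc2' y
    rw [Module.End.mul_apply, ← hf, LinearMap.add_apply, Module.End.one_apply,
      LinearMap.zero_apply] at this
    exact eq_neg_of_add_eq_zero_left this
  have hli : LinearIndependent k ![e, f] := by
    rw [LinearIndependent.pair_iff]
    intro s t hst
    have h' := congrArg (ρ c) hst
    rw [map_add, map_smul, map_smul, _root_.map_zero, hce, hcf, smul_neg] at h'
    have hs : (2 * s) • e = 0 := by
      rw [two_mul, add_smul]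
      have : s • e + t • f + (s • e + -(t • f)) = 0 := by rw [hst, h', add_zero]
      rw [← this]; abel
    have ht : (2 * t) • f = 0 := by
      rw [two_mul, add_smul]
      have : s • e + t • f - (s • e + -(t • f)) = 0 := by rw [hst, h', sub_zero]
      rw [← this]; abel
    exact ⟨(mul_eq_zero.mp ((smul_eq_zero.mp hs).resolve_right hx)).resolve_left h2,
      (mul_eq_zero.mp ((smul_eq_zero.mp ht).resolve_right hy)).resolve_left h2⟩
  set b : Module.Basis (Fin 2) k V := basisOfLinearIndependentOfCardEqFinrank hli (by simp [hV])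
    with hb
  have hb0 : b 0 = e := by simp [hb]
  have hb1 : b 1 = f := by simp [hb]
  set Φ := LinearMap.toMatrixAlgEquiv b with hΦ
  set M : Γ → Matrix (Fin 2) (Fin 2) k := fun g => Φ (ρ g) with hM
  have hMdet : ∀ g, (M g).det = LinearMap.det (ρ g) := fun g => LinearMap.det_toMatrix b (ρ g)
  have htr : ∀ g, M g 0 0 + M g 1 1 = 1 + (M g).det := by
    intro g
    have h := congrArg Φ (hrel g)
    rw [map_mul, map_sub, map_sub, map_one, map_smul, map_one, _root_.map_zero, ← hMdet] at h
    have h00 := congrFun (congrFun h 0) 0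
    have h01 := congrFun (congrFun h 0) 1
    have h11 := congrFun (congrFun h 1) 1
    have h10 := congrFun (congrFun h 1) 0
    simp only [Matrix.mul_apply, Fin.sum_univ_two, Matrix.sub_apply, Matrix.one_apply_eq,
      Matrix.smul_apply, smul_eq_mul, Matrix.zero_apply, ne_eq, zero_ne_one, one_ne_zero,
      not_false_eq_true, Matrix.one_apply_ne, mul_one, mul_zero, sub_zero] at h00 h01 h11 h10
    change (M g 0 0 - 1) * (M g 0 0 - (M g).det) + M g 0 1 * M g 1 0 = 0 at h00
    change (M g 0 0 - 1) * M g 0 1 + M g 0 1 * (M g 1 1 - (M g).det) = 0 at h01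
    change M g 1 0 * M g 0 1 + (M g 1 1 - 1) * (M g 1 1 - (M g).det) = 0 at h11
    change M g 1 0 * (M g 0 0 - (M g).det) + (M g 1 1 - 1) * M g 1 0 = 0 at h10
    have hd := Matrix.det_fin_two (M g)
    have h0 : (M g).det * (M g 0 0 + M g 1 1 - 1 - (M g).det) = 0 := by
      have ha : M g 0 0 * (M g 0 0 + M g 1 1 - 1 - (M g).det) = 0 := by
        linear_combination h00 - hd
      have hb' : M g 0 1 * (M g 0 0 + M g 1 1 - 1 - (M g).det) = 0 := by
        linear_combination h01
      linear_combination (M g 1 1) * ha - (M g 1 0) * hb' + (M g 0 0 + M g 1 1 - 1 - (M g).det) * hd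
    have := (mul_eq_zero.mp h0).resolve_left (by rw [hMdet]; exact hdet g)
    linear_combination this
  have hcol0 : ∀ i, M c i 0 = if i = 0 then 1 else 0 := by
    intro i
    show LinearMap.toMatrixAlgEquiv b (ρ c) i 0 = _
    rw [LinearMap.toMatrixAlgEquiv_apply, hb0, hce, ← hb0, b.repr_self, Finsupp.single_apply]
    simp [eq_comm]
  have hcol1 : ∀ i, M c i 1 = if i = 1 then -1 else 0 := by
    intro i
    show LinearMap.toMatrixAlgEquiv b (ρ c) i 1 = _
    rw [LinearMap.toMatrixAlgEquiv_apply, hb1, hcf, ← hb1, map_neg, b.repr_self, Finsupp.neg_apply,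
      Finsupp.single_apply]
    by_cases hi : i = 1 <;> simp [hi, eq_comm]
  have hmul : ∀ g h, M (g * h) = M g * M h := fun g h => by
    show Φ (ρ (g * h)) = Φ (ρ g) * Φ (ρ h)
    rw [map_mul, map_mul]
  have ha : ∀ g, M g 0 0 = 1 := by
    intro g
    have h1 := htr g
    have h3 := htr (c * g)
    rw [Matrix.det_fin_two (M (c * g)), hmul] at h3
    rw [Matrix.det_fin_two (M g)] at h1
    simp only [Matrix.mul_apply, Fin.sum_univ_two, hcol0, hcol1] at h3
    simp at h3
    exact mul_left_cancel₀ h2 (by linear_combination h1 + h3)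
  have hbc : ∀ g h, M g 0 1 * M h 1 0 = 0 := by
    intro g h
    have e1 := ha (g * h)
    rw [hmul, Matrix.mul_apply, Fin.sum_univ_two, ha g, ha h] at e1
    linear_combination e1
  have hspan : ∀ g (j : Fin 2), ρ g (b j) = M g 0 j • b 0 + M g 1 j • b 1 := by
    intro g j
    conv_lhs => rw [← b.sum_repr (ρ g (b j)), Fin.sum_univ_two]
    simp only [hM, hΦ, LinearMap.toMatrixAlgEquiv_apply]
  by_cases hall : ∀ g, M g 1 0 = 0
  · refine ⟨b 0, b.ne_zero 0, fun g => ?_⟩
    rw [hspan g 0, hall g, zero_smul, add_zero]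
    exact Submodule.smul_mem _ _ (Submodule.mem_span_singleton_self _)
  · obtain ⟨h, hh⟩ := not_forall.mp hall
    refine ⟨b 1, b.ne_zero 1, fun g => ?_⟩
    rw [hspan g 1, (mul_eq_zero.mp (hbc g h)).resolve_right hh, zero_smul, zero_add]
    exact Submodule.smul_mem _ _ (Submodule.mem_span_singleton_self _)

/-! ### The cyclotomic determinant -/

local notation "Qb" => AlgebraicClosure ℚ
local notation "Γℚ" => (AlgebraicClosure ℚ ≃ₐ[ℚ] AlgebraicClosure ℚ)

theorem exists_primRoot (p : ℕ) [Fact p.Prime] : ∃ ζ : Qb, IsPrimitiveRoot ζ p := by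
  haveI : NeZero ((p : ℕ) : Qb) := ⟨Nat.cast_ne_zero.mpr (Fact.out : p.Prime).ne_zero⟩
  obtain ⟨ζ, hζ⟩ := IsAlgClosed.exists_root (Polynomial.cyclotomic p Qb)
    (by rw [Polynomial.degree_cyclotomic]
        exact_mod_cast (Nat.totient_pos.mpr (Fact.out : p.Prime).pos).ne')
  exact ⟨ζ, Polynomial.isRoot_cyclotomic_iff.mp hζ⟩

theorem det_eq_of_apply_root (E : WeierstrassCurve ℚ) [E.IsElliptic] {p : ℕ} [Fact p.Prime]
    {σ : Γℚ} {ζ : Qb} (hζ : IsPrimitiveRoot ζ p) {m : ℕ} (h : σ ζ = ζ ^ m) :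
    LinearMap.det (galoisRepModuleEnd (K := Qb) ℚ E p σ) = (m : ZMod p) := by
  rw [EllTorsion.det_galoisRepModuleEnd]
  have hp := Fact.out (p := p.Prime)
  have hu : ζ ≠ 0 := hζ.ne_zero hp.ne_zero
  have hmem : Units.mk0 ζ hu ∈ rootsOfUnity p Qb := by
    rw [mem_rootsOfUnity]
    exact Units.ext (by rw [Units.val_pow_eq_pow_val]; exact hζ.pow_eq_one)
  have hspec := modularCyclotomicCharacter.spec Qb (EllTorsion.card_rootsOfUnity_Qbar p)
    (σ : Qb ≃+* Qb) hmem
  rw [Units.val_mk0] at hspec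
  change σ ζ = _ at hspec
  rw [h, (isOfFinOrder_iff_pow_eq_one.mpr ⟨p, hp.pos, hζ.pow_eq_one⟩).pow_eq_pow_iff_modEq,
    ← hζ.eq_orderOf] at hspec
  rw [← ZMod.natCast_eq_natCast_iff, ZMod.natCast_zmod_val] at hspec
  exact hspec.symm

/-- Some element of the Galois group acts on `E[p]` with determinant `-1`. -/
theorem exists_det_neg_one (E : WeierstrassCurve ℚ) [E.IsElliptic] (p : ℕ) [Fact p.Prime] :
    ∃ c : Γℚ, LinearMap.det (galoisRepModuleEnd (K := Qb) ℚ E p c) = -1 := by
  have hp := Fact.out (p := p.Prime)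
  obtain ⟨ζ, hζ⟩ := exists_primRoot p
  have hζ' : IsPrimitiveRoot (ζ ^ (p - 1)) p := hζ.pow_of_coprime _ (by
    rw [Nat.coprime_comm, hp.coprime_iff_not_dvd]
    intro h
    have h1 := hp.one_lt
    exact absurd (Nat.le_of_dvd (by omega) h) (by omega))
  haveI := GalCommon.normal_Qbar
  have hconj : minpoly ℚ ζ = minpoly ℚ (ζ ^ (p - 1)) := by
    rw [← Polynomial.cyclotomic_eq_minpoly_rat hζ hp.pos,
      ← Polynomial.cyclotomic_eq_minpoly_rat hζ' hp.pos]
  obtain ⟨σ, hσ⟩ := (isConjRoot_iff_exists_algEquiv (K := ℚ) (L := Qb)).mp hconj.symm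
  refine ⟨σ, ?_⟩
  rw [det_eq_of_apply_root E hζ hσ, Nat.cast_sub hp.one_lt.le, ZMod.natCast_self, zero_sub,
    Nat.cast_one]

/-! ### Transport to an integral model -/

section Transport

variable (E E' : WeierstrassCurve ℚ) (C : VariableChange ℚ) (h : C • E = E')

/-- The Galois equivariant map on geometric points of a change of model. -/
def vcQ : (E⁄Qb).Point →+ (E'⁄Qb).Point :=
  (EllLocal.castPoint (by rw [← h]; exact WeierstrassCurve.map_variableChange E C _)).comp
    (EllLocal.vcPoint (E⁄Qb) (C.map (algebraMap ℚ Qb)))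

theorem vcQ_injective : Function.Injective (vcQ E E' C h) :=
  (EllLocal.castPoint_injective _).comp (EllLocal.vcPoint_injective _)

theorem vcQ_smul (σ : Γℚ) (P : (E⁄Qb).Point) : vcQ E E' C h (σ • P) = σ • vcQ E E' C h P := by
  have hC : (C.map (algebraMap ℚ Qb)).map (σ : Qb →+* Qb) = C.map (algebraMap ℚ Qb) := by
    ext <;> simp [VariableChange.map]
  cases P with
  | zero =>
    show vcQ E E' C h 0 = σ • vcQ E E' C h 0
    rw [_root_.map_zero]
    rfl
  | some x y hxy =>
    simp only [algEquiv_smul_def, vcQ, AddMonoidHom.comp_apply, Point.map_some,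
      EllLocal.vcPoint_some, EllLocal.castPoint_some]
    simp only [Point.some.injEq]
    exact ⟨(EllLocal.map_vcX _ hC x).symm, (EllLocal.map_vcY _ hC x y).symm⟩

end Transport

/-- Irreducibility passes to any integral model. -/
theorem modRepIsIrreducible_of_model {E : WeierstrassCurve ℚ} [E.IsElliptic]
    {W : WeierstrassCurve ℤ} (hW : W.IsIntegralModelOf E) {p : ℕ} [Fact p.Prime]
    (hirr : GaloisRepIsIrreducible (K := Qb) ℚ E p) : W.ModRepIsIrreducible p := by
  obtain ⟨C, hC⟩ := hW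
  set E' : WeierstrassCurve ℚ := W.map (Int.castRingHom ℚ) with hE'
  haveI : E'.IsElliptic := by rw [← hC]; infer_instance
  have hinv : C⁻¹ • E' = E := by rw [← hC, inv_smul_smul]
  let φ : Submodule.torsionBy ℤ (E'⁄Qb).Point (p : ℤ) →ₗ[ZMod p]
      Submodule.torsionBy ℤ (E⁄Qb).Point (p : ℤ) :=
    AddMonoidHom.toZModLinearMap p
      (((vcQ E' E C⁻¹ hinv).comp
        (Submodule.torsionBy ℤ (E'⁄Qb).Point (p : ℤ)).subtype.toAddMonoidHom).codRestrict
        (Submodule.torsionBy ℤ (E⁄Qb).Point (p : ℤ)).toAddSubgroup fun x => by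
          rw [Submodule.mem_toAddSubgroup, Submodule.mem_torsionBy_iff]
          show (p : ℤ) • vcQ E' E C⁻¹ hinv (x : (E'⁄Qb).Point) = 0
          rw [← map_zsmul, show (p : ℤ) • (x : (E'⁄Qb).Point) = 0 from
            (Submodule.mem_torsionBy_iff _ _).mp x.2, _root_.map_zero])
  have hφ : ∀ x, ((φ x : Submodule.torsionBy ℤ (E⁄Qb).Point (p : ℤ)) : (E⁄Qb).Point) =
      vcQ E' E C⁻¹ hinv (x : (E'⁄Qb).Point) := fun _ => rfl
  have hφi : Function.Injective φ := fun x y hxy =>
    Subtype.ext (vcQ_injective E' E C⁻¹ _ ((hφ x).symm.trans ((congrArg Subtype.val hxy).trans (hφ y))))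
  have hE := EllTorsion.finrank_torsionBy_rat E p
  have hE'2 := EllTorsion.finrank_torsionBy_rat E' p
  haveI := Module.finite_of_finrank_eq_succ hE
  haveI := Module.finite_of_finrank_eq_succ hE'2
  have hφs : Function.Surjective φ :=
    (LinearMap.injective_iff_surjective_of_finrank_eq_finrank (hE'2.trans hE.symm)).mp hφi
  refine ⟨Module.nontrivial_of_finrank_eq_succ hE'2, fun N hN => ?_⟩
  have hst : IsGaloisStable ℚ (N.map φ) := by
    rintro σ _ ⟨x, hx, rfl⟩
    exact ⟨σ • x, hN σ x hx, Subtype.ext (vcQ_smul E' E C⁻¹ hinv σ _)⟩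
  rcases hirr.2 _ hst with h | h
  · left
    rw [← Submodule.comap_map_eq_of_injective hφi N, h, Submodule.comap_bot,
      LinearMap.ker_eq_bot.mpr hφi]
  · right
    rw [← Submodule.comap_map_eq_of_injective hφi N, h, Submodule.comap_top]

/-- An irreducible `E[p]` is not Eisenstein. -/
theorem exists_not_eisenstein (W : WeierstrassCurve ℤ) (hΔ0 : W.Δ ≠ 0) {p : ℕ} [Fact p.Prime]
    (hp2 : p ≠ 2) (hirr : W.ModRepIsIrreducible p) (B : Finset ℕ) :
    ∃ ℓ : ℕ, ℓ.Prime ∧ ℓ ∉ B ∧ ℓ ≠ p ∧ W.IsGoodPrimeFor ℓ ∧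
      ¬ (p : ℤ) ∣ W.apOfModel ℓ - 1 - ℓ := by
  classical
  by_contra! hall
  have hp := Fact.out (p := p.Prime)
  set E : WeierstrassCurve ℚ := W.map (Int.castRingHom ℚ) with hE
  haveI : E.IsElliptic := ⟨by
    rw [hE, WeierstrassCurve.map_Δ]
    exact isUnit_iff_ne_zero.mpr (by simpa using hΔ0)⟩
  set ρ := galoisRepModuleEnd (K := Qb) ℚ E p with hρ
  have hV := EllTorsion.finrank_torsionBy_rat E p
  have hdet : ∀ g, LinearMap.det (ρ g) ≠ 0 := fun g => by
    rw [hρ, EllTorsion.det_galoisRepModuleEnd]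
    exact Units.ne_zero _
  have hrel : ∀ g, (ρ g - 1) * (ρ g - LinearMap.det (ρ g) • 1) = 0 := by
    intro g
    refine Density.forall_of_forall_isFrobeniusAt
      (P := fun g => (ρ g - 1) * (ρ g - LinearMap.det (ρ g) • 1) = 0) ρ.ker
      (EllTorsion.isOpen_ker_galoisRepModuleEnd E p hp.ne_zero)
      (B ∪ {p} ∪ W.Δ.natAbs.primeFactors) ?_ ?_ ?_ g
    · intro g u hu h
      rw [map_mul, show ρ u = 1 from hu, mul_one]
      exact h
    · intro g n h
      rw [map_pow, map_pow]
      set f := ρ g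
      set d := LinearMap.det f
      have e1 : f ^ n - 1 = (∑ i ∈ Finset.range n, f ^ i) * (f - 1) := (geom_sum_mul f n).symm
      have e2 : f ^ n - (d ^ n) • 1 =
          (f - d • 1) * ∑ i ∈ Finset.range n, f ^ i * (d • 1) ^ (n - 1 - i) := by
        rw [((Commute.one_right f).smul_right d).mul_geom_sum₂ n, smul_pow, one_pow]
      rw [e1, e2, ← mul_assoc, mul_assoc _ (f - 1), h, mul_zero, zero_mul]
    · intro ℓ hℓ hℓS A hA τ hτ
      simp only [Finset.mem_union, Finset.mem_singleton, not_or] at hℓS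
      have hgood : W.IsGoodPrimeFor ℓ := fun hd => hℓS.2 (Nat.mem_primeFactors.mpr
        ⟨hℓ, Int.natCast_dvd.mp hd, Int.natAbs_ne_zero.mpr hΔ0⟩)
      have hdvd := hall ℓ hℓ hℓS.1.1 hℓS.1.2 hgood
      obtain ⟨ζ, hζ⟩ := exists_primRoot p
      have hdetτ : LinearMap.det (ρ τ) = (ℓ : ZMod p) :=
        det_eq_of_apply_root E hζ (GalCommon.frobenius_apply_of_pow_eq_one hℓ hA
          (fun hd => hℓS.1.2 ((Nat.prime_dvd_prime_iff_eq hℓ hp).mp hd)) hτ hζ.pow_eq_one)
      refine LinearMap.ext fun P => Subtype.ext ?_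
      have h0 := EllFrob.frobenius_relation W hℓ hgood (hp.odd_of_ne_two hp2)
        ((Nat.coprime_primes hp hℓ).mpr (Ne.symm hℓS.1.2)) hA hτ (P : EllP.QPoint W)
        (by rw [← natCast_zsmul]; exact (Submodule.mem_torsionBy_iff _ _).mp P.2)
      obtain ⟨z, hz⟩ := hdvd
      have hPp : (p : ℤ) • (τ • (P : EllP.QPoint W)) = 0 :=
        (Submodule.mem_torsionBy_iff _ _).mp (smul_mem_torsionBy τ P.2)
      rw [show W.apOfModel ℓ = 1 + (ℓ : ℤ) + z * p by linear_combination hz, add_zsmul, mul_zsmul,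
        hPp, zsmul_zero, add_zero, add_zsmul, one_zsmul] at h0
      have hd : LinearMap.det (ρ τ) • P = (ℓ : ℤ) • P := by
        rw [hdetτ, ← Int.cast_natCast (R := ZMod p), Int.cast_smul_eq_zsmul]
      show ((ρ τ (ρ τ P - LinearMap.det (ρ τ) • P) - (ρ τ P - LinearMap.det (ρ τ) • P) :
        Submodule.torsionBy ℤ (E⁄Qb).Point (p : ℤ)) : (E⁄Qb).Point) = 0
      rw [hd, map_sub, map_zsmul, Submodule.coe_sub, Submodule.coe_sub, Submodule.coe_sub]
      show (τ • τ • (P : EllP.QPoint W) - (ℓ : ℤ) • τ • (P : EllP.QPoint W)) -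
        (τ • (P : EllP.QPoint W) - (ℓ : ℤ) • (P : EllP.QPoint W)) = 0
      refine Eq.trans ?_ h0
      abel
  obtain ⟨v, hv0, hv⟩ := exists_invariant_line (k := ZMod p) hV (by
      rw [show (2 : ZMod p) = ((2 : ℕ) : ZMod p) by norm_num, Ne, ZMod.natCast_eq_zero_iff]
      exact fun hd => hp2 ((Nat.prime_dvd_prime_iff_eq hp Nat.prime_two).mp hd))
    ρ hdet hrel (exists_det_neg_one E p)
  have hst : IsGaloisStable ℚ (Submodule.span (ZMod p) {v}) := by
    intro σ x hx
    obtain ⟨a, rfl⟩ := Submodule.mem_span_singleton.mp hx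
    show ρ σ (a • v) ∈ _
    rw [map_smul]
    exact Submodule.smul_mem _ _ (hv σ)
  rcases hirr.2 _ hst with h | h
  · exact hv0 (Submodule.span_singleton_eq_bot.mp h)
  · have := finrank_span_singleton (K := ZMod p) hv0
    rw [h, finrank_top, hV] at this
    exact absurd this (by norm_num)

end FLTAgent.Ihara
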