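import Fermat.Agent.Ihara.Operators

/-!
# The old quotient of the Hecke algebra

`piOld : T(N q) →+* T(N)[X] / (X ^ 2 - T_q X + q)`, characterised by its action on pairs of
integral classes of level `N` through `alpha` (`heckeEnd_alpha`); values on generators (`piOld_T`,
`piOld_U`, `piOld_Uq`); `mul_eq_zero_of_piOld_eq_zero`: its kernel is killed by `U_q ^ 2 - 1`.
-/

set_option autoImplicit false
set_option linter.unusedSectionVars false
set_option linter.style.haveILetI false
set_option maxHeartbeats 1000000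

open CongruenceSubgroup ModularCurve.Period CuspForm Polynomial
open scoped MatrixGroups

noncomputable section

namespace FLTAgent.Ihara

variable {N q : ℕ} [NeZero N] [Fact q.Prime] (hqN : ¬ q ∣ N)

/-- The pairs of integral classes of level `N`. -/
abbrev HPair (N : ℕ) : Type := ↥(Period.H N ℤ ℤ) × ↥(Period.H N ℤ ℤ)

variable (q) in
/-- `T_q` in the Hecke algebra of level `N`. -/
abbrev tq : heckeAlgebra N 2 ∅ := tOf N (Fact.out : q.Prime) hqN

/-- The polynomial `X ^ 2 - T_q X + q`. -/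
def oldPoly : (heckeAlgebra N 2 ∅)[X] := X ^ 2 - C (tq q hqN) * X + C (q : heckeAlgebra N 2 ∅)

/-- The ring `T(N)[X] / (X ^ 2 - T_q X + q)`. -/
abbrev OldRing := AdjoinRoot (oldPoly hqN)

/-- The diagonal action on pairs. -/
def diagAct (N : ℕ) [NeZero N] : heckeAlgebra N 2 ∅ →+* Module.End ℤ (HPair N) :=
  (LinearMap.prodMapRingHom ℤ (Period.H N ℤ ℤ) (Period.H N ℤ ℤ)).comp
    ((HeckeH.heckeEnd N ℤ ℤ).prod (HeckeH.heckeEnd N ℤ ℤ))

theorem diagAct_apply (t : heckeAlgebra N 2 ∅) (x : HPair N) :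
    diagAct N t x = (HeckeH.heckeEnd N ℤ ℤ t x.1, HeckeH.heckeEnd N ℤ ℤ t x.2) := rfl

variable (q) in
/-- The action of `U_q` on pairs. -/
def oldOp : Module.End ℤ (HPair N) :=
  ((HeckeH.heckeH N (Fact.out : q.Prime) ℤ ℤ).comp
      (LinearMap.fst ℤ (Period.H N ℤ ℤ) (Period.H N ℤ ℤ)) +
    (q : ℤ) • LinearMap.snd ℤ (Period.H N ℤ ℤ) (Period.H N ℤ ℤ)).prod
    (-LinearMap.fst ℤ (Period.H N ℤ ℤ) (Period.H N ℤ ℤ))

theorem oldOp_apply (x : HPair N) :
    oldOp q x = (HeckeH.heckeH N (Fact.out : q.Prime) ℤ ℤ x.1 + (q : ℤ) • x.2, -x.1) := rfl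

include hqN in
theorem heckeH_commute_end (t : heckeAlgebra N 2 ∅) (φ : Period.H N ℤ ℤ) :
    HeckeH.heckeEnd N ℤ ℤ t (HeckeH.heckeH N (Fact.out : q.Prime) ℤ ℤ φ) =
      HeckeH.heckeH N (Fact.out : q.Prime) ℤ ℤ (HeckeH.heckeEnd N ℤ ℤ t φ) := by
  rw [← HeckeH.heckeEnd_T N (Fact.out : q.Prime) hqN (Set.notMem_empty q),
    ← Module.End.mul_apply, ← Module.End.mul_apply, ← map_mul, ← map_mul, mul_comm]

include hqN in
theorem diagAct_commute (t : heckeAlgebra N 2 ∅) : Commute (diagAct N t) (oldOp q) := by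
  refine LinearMap.ext fun x => ?_
  rw [Module.End.mul_apply, Module.End.mul_apply, diagAct_apply, oldOp_apply, oldOp_apply,
    diagAct_apply]
  simp only [map_add, map_neg, map_zsmul, heckeH_commute_end hqN]

/-- Evaluation of polynomials on pairs. -/
def oldEval : (heckeAlgebra N 2 ∅)[X] →+* Module.End ℤ (HPair N) :=
  eval₂RingHom' (diagAct N) (oldOp q) (diagAct_commute hqN)

theorem oldEval_C (t : heckeAlgebra N 2 ∅) : oldEval hqN (C t) = diagAct N t := eval₂_C _ _

theorem oldEval_X : oldEval hqN X = oldOp q := eval₂_X _ _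

theorem oldEval_oldPoly : oldEval hqN (oldPoly hqN) = 0 := by
  rw [oldPoly, map_add, map_sub, map_mul, map_pow, oldEval_X, oldEval_C, oldEval_C, map_natCast]
  refine LinearMap.ext fun x => ?_
  simp only [LinearMap.add_apply, LinearMap.sub_apply, Module.End.mul_apply, sq, oldOp_apply,
    diagAct_apply, Module.End.natCast_apply, LinearMap.zero_apply,
    HeckeH.heckeEnd_T N (Fact.out : q.Prime) hqN (Set.notMem_empty q)]
  simp only [map_add, map_neg, natCast_zsmul, Prod.mk_sub_mk, smul_neg]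
  refine Prod.ext ?_ ?_ <;> simp

/-- The action of the old ring on pairs. -/
def oldAct : OldRing hqN →+* Module.End ℤ (HPair N) :=
  Ideal.Quotient.lift _ (oldEval hqN) fun g hg => by
    obtain ⟨c, rfl⟩ := Ideal.mem_span_singleton.mp hg
    rw [map_mul, oldEval_oldPoly, zero_mul]

theorem oldAct_of (t : heckeAlgebra N 2 ∅) :
    oldAct hqN (AdjoinRoot.of _ t) = diagAct N t := oldEval_C hqN t

theorem oldAct_root : oldAct hqN (AdjoinRoot.root _) = oldOp q := oldEval_X hqN

theorem monic_oldPoly : (oldPoly hqN).Monic := by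
  rw [oldPoly]
  monicity!

theorem natDegree_oldPoly [Nontrivial (heckeAlgebra N 2 ∅)] : (oldPoly hqN).natDegree = 2 := by
  rw [oldPoly]
  compute_degree!

/-- Every element of the old ring is `a + b X`. -/
theorem exists_eq_add_mul_root (z : OldRing hqN) :
    ∃ a b : heckeAlgebra N 2 ∅,
      z = AdjoinRoot.of _ a + AdjoinRoot.of _ b * AdjoinRoot.root _ := by
  rcases subsingleton_or_nontrivial (heckeAlgebra N 2 ∅) with hA | hA
  · obtain ⟨g, rfl⟩ := AdjoinRoot.mk_surjective z
    exact ⟨0, 0, by rw [Subsingleton.elim g 0]; simp⟩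
  obtain ⟨g, rfl⟩ := AdjoinRoot.mk_surjective z
  refine ⟨(g %ₘ oldPoly hqN).coeff 0, (g %ₘ oldPoly hqN).coeff 1, ?_⟩
  have hlt : (g %ₘ oldPoly hqN).natDegree < 2 := by
    have h := Polynomial.natDegree_modByMonic_lt g (monic_oldPoly hqN)
      (fun h => by simpa [h] using natDegree_oldPoly hqN)
    rwa [natDegree_oldPoly hqN] at h
  conv_lhs => rw [← modByMonic_add_div g (oldPoly hqN), map_add, map_mul, AdjoinRoot.mk_self,
    zero_mul, add_zero, eq_X_add_C_of_natDegree_le_one (show (g %ₘ oldPoly hqN).natDegree ≤ 1 by omega)]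
  rw [map_add, map_mul, AdjoinRoot.mk_X, AdjoinRoot.mk_C, AdjoinRoot.mk_C, add_comm]

/-- The old ring acts faithfully on pairs. -/
theorem oldAct_injective : Function.Injective (oldAct hqN) := by
  rw [injective_iff_map_eq_zero]
  intro z hz
  obtain ⟨a, b, rfl⟩ := exists_eq_add_mul_root hqN z
  have hb : b = 0 := by
    refine HeckeH.heckeEnd_injective N (LinearMap.ext fun φ => ?_)
    have h := congrArg Prod.snd (LinearMap.congr_fun hz (φ, 0))
    rw [map_add, map_mul, oldAct_of, oldAct_of, oldAct_root, LinearMap.add_apply,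
      Module.End.mul_apply, oldOp_apply, diagAct_apply, diagAct_apply, LinearMap.zero_apply] at h
    simp only [Prod.snd_add, Prod.snd_zero, map_zero, zero_add, map_neg, neg_eq_zero] at h
    rw [map_zero]
    exact h
  subst hb
  have ha : a = 0 := by
    refine HeckeH.heckeEnd_injective N (LinearMap.ext fun φ => ?_)
    have h := congrArg Prod.fst (LinearMap.congr_fun hz (φ, 0))
    rw [map_zero (AdjoinRoot.of (oldPoly hqN)), zero_mul, add_zero, oldAct_of, diagAct_apply,
      LinearMap.zero_apply] at h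
    rw [map_zero]
    exact h
  rw [ha, map_zero, zero_mul, add_zero]

/-! ### The homomorphism from level `N q` -/

include hqN in
theorem exists_oldImage (t : heckeAlgebra (N * q) 2 ∅) :
    ∃ s : OldRing hqN, ∀ x : HPair N,
      HeckeH.heckeEnd (N * q) ℤ ℤ t (alpha (q := q) ℤ ℤ x) =
        alpha (q := q) ℤ ℤ (oldAct hqN s x) := by
  have hgood : ∀ (r : ℕ) (hr : r.Prime), r ≠ q → ∀ (u : heckeAlgebra N 2 ∅),
      HeckeH.heckeEnd N ℤ ℤ u = HeckeH.heckeH N hr ℤ ℤ → ∀ x : HPair N,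
      HeckeH.heckeH (N * q) hr ℤ ℤ (alpha (q := q) ℤ ℤ x) =
        alpha (q := q) ℤ ℤ (oldAct hqN (AdjoinRoot.of _ u) x) := by
    intro r hr hrq u hu x
    rw [alpha_heckeH_of_ne hr hrq, oldAct_of, diagAct_apply, hu]
  obtain ⟨t, ht⟩ := t
  induction ht using Algebra.adjoin_induction with
  | mem y hy =>
    rcases hy with ⟨r, hr, hrN, -, rfl⟩ | ⟨r, hrN, hr, -, rfl⟩
    · have hrq : r ≠ q := fun h => hrN (h ▸ dvd_mul_left q N)
      have hrN' : ¬ r ∣ N := fun h => hrN (h.mul_right q)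
      refine ⟨AdjoinRoot.of _ (tOf N hr hrN'), fun x => ?_⟩
      rw [show (⟨_, _⟩ : heckeAlgebra (N * q) 2 ∅) = heckeAlgebra.T hr hrN (Set.notMem_empty r)
        from rfl, HeckeH.heckeEnd_T]
      exact hgood r hr hrq _ (HeckeH.heckeEnd_T N hr hrN' (Set.notMem_empty r) ℤ ℤ) x
    · by_cases hrq : r = q
      · subst hrq
        refine ⟨AdjoinRoot.root _, fun x => ?_⟩
        rw [show (⟨_, _⟩ : heckeAlgebra (N * r) 2 ∅) = heckeAlgebra.U hr hrN (Set.notMem_empty r)
          from rfl, HeckeH.heckeEnd_U, heckeH_alpha_self hqN, oldAct_root, oldOp_apply,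
          natCast_zsmul]
      · have hrN' : r ∣ N := (dvd_mul_iff_of_ne hr hrq).mp hrN
        refine ⟨AdjoinRoot.of _ (heckeAlgebra.U hr hrN' (Set.notMem_empty r)), fun x => ?_⟩
        rw [show (⟨_, _⟩ : heckeAlgebra (N * q) 2 ∅) = heckeAlgebra.U hr hrN (Set.notMem_empty r)
          from rfl, HeckeH.heckeEnd_U]
        exact hgood r hr hrq _ (HeckeH.heckeEnd_U N hr hrN' (Set.notMem_empty r) ℤ ℤ) x
  | algebraMap z =>
    refine ⟨(z : OldRing hqN), fun x => ?_⟩
    show HeckeH.heckeEnd (N * q) ℤ ℤ (algebraMap ℤ (heckeAlgebra (N * q) 2 ∅) z)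
      (alpha (q := q) ℤ ℤ x) = _
    rw [eq_intCast (algebraMap ℤ (heckeAlgebra (N * q) 2 ∅)), map_intCast, map_intCast,
      Module.End.intCast_apply, Module.End.intCast_apply, map_zsmul]
  | add a b ha hb iha ihb =>
    obtain ⟨s1, h1⟩ := iha
    obtain ⟨s2, h2⟩ := ihb
    refine ⟨s1 + s2, fun x => ?_⟩
    rw [show (⟨a + b, _⟩ : heckeAlgebra (N * q) 2 ∅) = ⟨a, ha⟩ + ⟨b, hb⟩ from rfl, map_add,
      map_add, LinearMap.add_apply, LinearMap.add_apply, h1, h2, map_add]
  | mul a b ha hb iha ihb =>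
    obtain ⟨s1, h1⟩ := iha
    obtain ⟨s2, h2⟩ := ihb
    refine ⟨s1 * s2, fun x => ?_⟩
    rw [show (⟨a * b, _⟩ : heckeAlgebra (N * q) 2 ∅) = ⟨a, ha⟩ * ⟨b, hb⟩ from rfl, map_mul,
      map_mul, Module.End.mul_apply, Module.End.mul_apply, h2, h1]

theorem oldImage_unique {s s' : OldRing hqN}
    (h : ∀ x : HPair N, alpha (q := q) ℤ ℤ (oldAct hqN s x) =
      alpha (q := q) ℤ ℤ (oldAct hqN s' x)) : s = s' :=
  oldAct_injective hqN (LinearMap.ext fun x => alpha_int_injective hqN (h x))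

/-- The homomorphism to the old ring. -/
def piOld : heckeAlgebra (N * q) 2 ∅ →+* OldRing hqN where
  toFun t := (exists_oldImage hqN t).choose
  map_one' := oldImage_unique hqN fun x => by
    rw [← (exists_oldImage hqN 1).choose_spec, map_one, map_one, Module.End.one_apply,
      Module.End.one_apply]
  map_mul' a b := oldImage_unique hqN fun x => by
    rw [← (exists_oldImage hqN (a * b)).choose_spec, map_mul, Module.End.mul_apply,
      (exists_oldImage hqN b).choose_spec, (exists_oldImage hqN a).choose_spec, map_mul,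
      Module.End.mul_apply]
  map_zero' := oldImage_unique hqN fun x => by
    rw [← (exists_oldImage hqN 0).choose_spec, map_zero, map_zero, LinearMap.zero_apply,
      LinearMap.zero_apply, map_zero]
  map_add' a b := oldImage_unique hqN fun x => by
    rw [← (exists_oldImage hqN (a + b)).choose_spec, map_add, LinearMap.add_apply,
      (exists_oldImage hqN a).choose_spec, (exists_oldImage hqN b).choose_spec, map_add,
      LinearMap.add_apply, map_add]

/-- The defining property of `piOld`. -/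
theorem heckeEnd_alpha (t : heckeAlgebra (N * q) 2 ∅) (x : HPair N) :
    HeckeH.heckeEnd (N * q) ℤ ℤ t (alpha (q := q) ℤ ℤ x) =
      alpha (q := q) ℤ ℤ (oldAct hqN (piOld hqN t) x) :=
  (exists_oldImage hqN t).choose_spec x

theorem piOld_T {r : ℕ} (hr : r.Prime) (hrNq : ¬ r ∣ N * q) (hrN : ¬ r ∣ N) :
    piOld hqN (tOf (N * q) hr hrNq) = AdjoinRoot.of _ (tOf N hr hrN) := by
  refine oldImage_unique hqN fun x => ?_
  rw [← heckeEnd_alpha, oldAct_of, diagAct_apply, HeckeH.heckeEnd_T, HeckeH.heckeEnd_T,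
    alpha_heckeH_of_ne hr (fun h => hrNq (h ▸ dvd_mul_left q N))]

theorem piOld_U {r : ℕ} (hr : r.Prime) (hrq : r ≠ q) (hrNq : r ∣ N * q) (hrN : r ∣ N) :
    piOld hqN (heckeAlgebra.U hr hrNq (Set.notMem_empty r)) =
      AdjoinRoot.of _ (heckeAlgebra.U hr hrN (Set.notMem_empty r)) := by
  refine oldImage_unique hqN fun x => ?_
  rw [← heckeEnd_alpha, oldAct_of, diagAct_apply, HeckeH.heckeEnd_U, HeckeH.heckeEnd_U,
    alpha_heckeH_of_ne hr hrq]

theorem piOld_Uq (hq : q ∣ N * q) :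
    piOld hqN (heckeAlgebra.U (Fact.out : q.Prime) hq (Set.notMem_empty q)) =
      AdjoinRoot.root _ := by
  refine oldImage_unique hqN fun x => ?_
  rw [← heckeEnd_alpha, oldAct_root, oldOp_apply, HeckeH.heckeEnd_U, heckeH_alpha_self hqN,
    natCast_zsmul]

/-- If `t` vanishes on the old part then `t * (U_q ^ 2 - 1) = 0`. -/
theorem mul_eq_zero_of_piOld_eq_zero (hq : q ∣ N * q) {t : heckeAlgebra (N * q) 2 ∅}
    (h : piOld hqN t = 0) :
    t * (heckeAlgebra.U (Fact.out : q.Prime) hq (Set.notMem_empty q) ^ 2 - 1) = 0 := by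
  refine HeckeH.heckeEnd_injective (N * q) (LinearMap.ext fun φ => ?_)
  rw [map_mul, map_sub, map_pow, map_one, sq, Module.End.mul_apply, LinearMap.sub_apply,
    Module.End.mul_apply, Module.End.one_apply, HeckeH.heckeEnd_U, heckeH_sq_sub hqN,
    heckeEnd_alpha hqN, h, map_zero, LinearMap.zero_apply, map_zero, map_zero,
    LinearMap.zero_apply]

end FLTAgent.Ihara
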