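import Fermat.Agent.Ihara.Degeneracy

/-!
# Characters as functions of the bottom row

A character in `Period.H N k k` depends only on the bottom row `(c, d)` (`rowFun`), as it kills
parabolic elements. For a pair in the kernel of `alpha` (`IsKernelPair`) this function is invariant
under `c ↦ q² c` (`rowFun_sq_mul`); with Dirichlet's theorem on primes this gives periodicity of
its twists and the translation invariance `rowFun_shift` used for Ihara's lemma.
-/

set_option autoImplicit false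
set_option linter.unusedSectionVars false

open CongruenceSubgroup ModularCurve.Period
open scoped MatrixGroups
open FLTAgent.HeckeH (M2 matOf mkGamma0)

noncomputable section

namespace FLTAgent.Ihara

/-- A prime above any bound in a residue class prime to the modulus. -/
theorem exists_prime_dvd_sub {n a : ℤ} (hn : n ≠ 0) (h : IsCoprime a n) (B : ℕ) :
    ∃ p : ℕ, p.Prime ∧ B < p ∧ n ∣ (p : ℤ) - a := by
  have : NeZero n.natAbs := ⟨Int.natAbs_ne_zero.mpr hn⟩
  have hu : IsUnit (a : ZMod n.natAbs) := by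
    obtain ⟨u, v, huv⟩ := h
    have h0 : ((n : ℤ) : ZMod n.natAbs) = 0 :=
      (ZMod.intCast_zmod_eq_zero_iff_dvd _ _).mpr (Int.natAbs_dvd.mpr dvd_rfl)
    have h1 := congrArg (fun z : ℤ => (z : ZMod n.natAbs)) huv
    simp only [Int.cast_add, Int.cast_mul, h0, mul_zero, add_zero, Int.cast_one] at h1
    exact IsUnit.of_mul_eq_one _ (by rw [mul_comm]; exact h1)
  obtain ⟨p, hp1, hp2, hp3⟩ := Nat.forall_exists_prime_gt_and_eq_mod hu B
  refine ⟨p, hp2, hp1, Int.natAbs_dvd.mp ?_⟩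
  rw [← ZMod.intCast_zmod_eq_zero_iff_dvd, Int.cast_sub, Int.cast_natCast, hp3, sub_self]

variable {N : ℕ} [NeZero N] {k : Type*} [Field k]

/-- The value of a character. -/
def hval (φ : Period.H N k k) (γ : Gamma0 N) : k :=
  (φ : Additive (Gamma0 N) →+ k) (Additive.ofMul γ)

theorem hval_mul (φ : Period.H N k k) (γ δ : Gamma0 N) :
    hval φ (γ * δ) = hval φ γ + hval φ δ := by rw [hval, ofMul_mul, map_add]; rfl

theorem hval_one (φ : Period.H N k k) : hval φ 1 = 0 := by rw [hval, ofMul_one, map_zero]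

theorem hval_inv (φ : Period.H N k k) (γ : Gamma0 N) : hval φ γ⁻¹ = -hval φ γ := by
  rw [hval, ofMul_inv, map_neg]; rfl

theorem hval_conj (φ : Period.H N k k) (δ γ : Gamma0 N) : hval φ (δ * γ * δ⁻¹) = hval φ γ := by
  rw [hval_mul, hval_mul, hval_inv]; abel

theorem hval_parabolic (φ : Period.H N k k) {γ : Gamma0 N} (h : (matOf γ).trace ^ 2 = 4) :
    hval φ γ = 0 :=
  Period.H_parabolic φ h

theorem hval_pow (φ : Period.H N k k) (γ : Gamma0 N) (n : ℕ) :
    hval φ (γ ^ n) = n • hval φ γ := by rw [hval, ofMul_pow, map_nsmul]; rfl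

theorem eq_bottom_row {γ γ' : Gamma0 N} (hc : matOf γ 1 0 = matOf γ' 1 0)
    (hd : matOf γ 1 1 = matOf γ' 1 1) : (matOf (γ' * γ⁻¹)).trace ^ 2 = 4 := by
  have e1 := HeckeH.det_entries γ
  have e2 := HeckeH.det_entries γ'
  have h : matOf (γ' * γ⁻¹) = matOf γ' * (matOf γ).adjugate := by
    rw [HeckeH.matOf_mul, matOf_inv]
  rw [h, Matrix.adjugate_fin_two, Matrix.trace_fin_two, Matrix.mul_apply, Matrix.mul_apply,
    Fin.sum_univ_two, Fin.sum_univ_two]
  simp only [Matrix.of_apply, Matrix.cons_val', Matrix.cons_val_zero, Matrix.cons_val_one,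
    Matrix.cons_val_fin_one]
  rw [← hc, ← hd] at e2
  rw [← hc, ← hd]
  have : matOf γ' 0 0 * matOf γ 1 1 + matOf γ' 0 1 * -matOf γ 1 0 +
      (matOf γ 1 0 * -matOf γ 0 1 + matOf γ 1 1 * matOf γ 0 0) = 2 := by
    linear_combination e1 + e2
  rw [this]; norm_num

open Classical in
/-- The value at any element with the given bottom row. -/
def rowFun (φ : Period.H N k k) (c d : ℤ) : k :=
  if h : ∃ γ : Gamma0 N, matOf γ 1 0 = c ∧ matOf γ 1 1 = d then hval φ h.choose else 0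

theorem rowFun_eq (φ : Period.H N k k) (γ : Gamma0 N) {c d : ℤ} (hc : matOf γ 1 0 = c)
    (hd : matOf γ 1 1 = d) : rowFun φ c d = hval φ γ := by
  have h : ∃ γ : Gamma0 N, matOf γ 1 0 = c ∧ matOf γ 1 1 = d := ⟨γ, hc, hd⟩
  rw [rowFun, dif_pos h]
  have hp := hval_parabolic φ (eq_bottom_row (γ := γ) (γ' := h.choose)
    (hc.trans h.choose_spec.1.symm) (hd.trans h.choose_spec.2.symm))
  rw [hval_mul, hval_inv, add_neg_eq_zero] at hp
  exact hp

theorem exists_row {M : ℕ} {c d : ℤ} (hc : (M : ℤ) ∣ c) (h : IsCoprime c d) :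
    ∃ γ : Gamma0 M, matOf γ 1 0 = c ∧ matOf γ 1 1 = d := by
  obtain ⟨u, v, huv⟩ := h
  exact ⟨mkGamma0 v (-u) c d (by linear_combination huv) hc, by simp, by simp⟩

/-- Invariance under right multiplication by a parabolic element. -/
theorem rowFun_parabolic (φ : Period.H N k k) {c d : ℤ} (hc : (N : ℤ) ∣ c) (h : IsCoprime c d)
    (P : Gamma0 N) (hP : (matOf P).trace ^ 2 = 4) :
    rowFun φ (c * matOf P 0 0 + d * matOf P 1 0) (c * matOf P 0 1 + d * matOf P 1 1) =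
      rowFun φ c d := by
  obtain ⟨γ, h1, h2⟩ := exists_row hc h
  rw [rowFun_eq φ γ h1 h2, rowFun_eq φ (γ * P), hval_mul, hval_parabolic φ hP, add_zero]
  · rw [HeckeH.matOf_mul, Matrix.mul_apply, Fin.sum_univ_two, h1, h2]
  · rw [HeckeH.matOf_mul, Matrix.mul_apply, Fin.sum_univ_two, h1, h2]

theorem rowFun_add_mul (φ : Period.H N k k) {c d : ℤ} (hc : (N : ℤ) ∣ c) (h : IsCoprime c d)
    (j : ℤ) : rowFun φ c (d + j * c) = rowFun φ c d := by
  have := rowFun_parabolic φ hc h (mkGamma0 1 j 0 1 (by ring) (dvd_zero _))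
    (by simp [Matrix.trace_fin_two])
  simpa [mul_comm, add_comm] using this

theorem rowFun_add_level (φ : Period.H N k k) {c d : ℤ} (hc : (N : ℤ) ∣ c) (h : IsCoprime c d)
    (j : ℤ) : rowFun φ (c + j * N * d) d = rowFun φ c d := by
  have := rowFun_parabolic φ hc h (mkGamma0 1 0 (j * N) 1 (by ring) (dvd_mul_left _ _))
    (by simp [Matrix.trace_fin_two])
  simpa [mul_comm, mul_left_comm, mul_assoc] using this

variable {q : ℕ} [Fact q.Prime] (hqN : ¬ q ∣ N)

/-- The two relations satisfied by a pair in the kernel of `alpha`. -/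
structure IsKernelPair (φ ψ : Period.H N k k) : Prop where
  rel₁ : ∀ γ : Gamma0 (N * q), hval φ (inclHom N q γ) + hval ψ (iqHom N q γ) = 0
  rel₂ : ∀ γ : Gamma0 (N * q), hval ψ (inclHom N q γ) + hval φ (iqHom N q γ) = 0

include hqN in
theorem isKernelPair_of_alpha {φ ψ : Period.H N k k} (h : alpha (q := q) k k (φ, ψ) = 0) :
    IsKernelPair (q := q) φ ψ := by
  refine ⟨fun γ => ?_, fun γ => ?_⟩
  · exact DFunLike.congr_fun (congrArg Subtype.val h) (Additive.ofMul γ)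
  · exact DFunLike.congr_fun (congrArg Subtype.val (alpha_swap k k hqN h)) (Additive.ofMul γ)

theorem natCast_prime_coprime {d : ℤ} (hd : ¬ (q : ℤ) ∣ d) : IsCoprime (q : ℤ) d :=
  ((Nat.prime_iff_prime_int.mp Fact.out).coprime_iff_not_dvd).mpr hd

theorem iqHom_row (γ : Gamma0 (N * q)) :
    matOf γ 1 0 = (q : ℤ) * matOf (iqHom N q γ) 1 0 ∧ matOf (iqHom N q γ) 1 1 = matOf γ 1 1 := by
  have h := dMat_mul_iqHom N q γ
  have h10 := congrFun (congrFun h 1) 0
  have h11 := congrFun (congrFun h 1) 1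
  simp [Degen.dMat, Matrix.mul_apply, Fin.sum_univ_two] at h10 h11
  exact ⟨by rw [h10, mul_comm], h11.symm⟩

variable {φ ψ : Period.H N k k} (hpair : IsKernelPair (q := q) φ ψ)
include hpair

theorem rowFun_sq_mul {c d : ℤ} (hc : (N : ℤ) ∣ c) (h : IsCoprime c d) (hd : ¬ (q : ℤ) ∣ d) :
    rowFun φ ((q : ℤ) ^ 2 * c) d = rowFun φ c d := by
  have hq := natCast_prime_coprime (q := q) hd
  have hq0 : (q : ℤ) ≠ 0 := by exact_mod_cast NeZero.ne q
  obtain ⟨γ₁, a₁, b₁⟩ := exists_row (M := N * q) (c := (q : ℤ) * c) (d := d)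
    (by push_cast; rw [mul_comm]; exact mul_dvd_mul_left _ hc) (hq.mul_left h)
  obtain ⟨γ₂, a₂, b₂⟩ := exists_row (M := N * q) (c := (q : ℤ) ^ 2 * c) (d := d)
    (by push_cast; exact ⟨(q : ℤ) * (c / N), by
      rw [mul_comm (N : ℤ), mul_assoc, mul_left_comm (N : ℤ), Int.mul_ediv_cancel' hc]; ring⟩)
    (hq.pow_left.mul_left h)
  obtain ⟨i₁, j₁⟩ := iqHom_row γ₁
  obtain ⟨i₂, j₂⟩ := iqHom_row γ₂
  have e₁ : matOf (iqHom N q γ₁) 1 0 = c := mul_left_cancel₀ hq0 (i₁.symm.trans a₁)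
  have e₂ : matOf (iqHom N q γ₂) 1 0 = (q : ℤ) * c :=
    mul_left_cancel₀ hq0 (i₂.symm.trans (a₂.trans (by ring)))
  have r₁ := hpair.rel₂ γ₁
  have r₂ := hpair.rel₁ γ₂
  rw [← rowFun_eq ψ (inclHom N q γ₁) (c := (q : ℤ) * c) (d := d) (by rw [matOf_inclHom, a₁])
      (by rw [matOf_inclHom, b₁]),
    ← rowFun_eq φ (iqHom N q γ₁) e₁ (j₁.trans b₁)] at r₁
  rw [← rowFun_eq φ (inclHom N q γ₂) (c := (q : ℤ) ^ 2 * c) (d := d) (by rw [matOf_inclHom, a₂])
      (by rw [matOf_inclHom, b₂]),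
    ← rowFun_eq ψ (iqHom N q γ₂) e₂ (j₂.trans b₂)] at r₂
  linear_combination r₂ - r₁

theorem rowFun_pow_mul (i : ℕ) : ∀ {c d : ℤ}, (N : ℤ) ∣ c → IsCoprime c d → ¬ (q : ℤ) ∣ d →
    rowFun φ ((q : ℤ) ^ (2 * i) * c) d = rowFun φ c d := by
  induction i with
  | zero => intro c d _ _ _; simp
  | succ i ih =>
    intro c d hc h hd
    rw [show (q : ℤ) ^ (2 * (i + 1)) * c = (q : ℤ) ^ (2 * i) * ((q : ℤ) ^ 2 * c) by ring,
      ih (hc.mul_left _) ((natCast_prime_coprime hd).pow_left.mul_left h) hd]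
    exact rowFun_sq_mul hpair hc h hd

theorem rowFun_pow_mul_add {c d : ℤ} (hc : (N : ℤ) ∣ c) (h : IsCoprime c d) (i : ℕ) (j : ℤ)
    (hd : ¬ (q : ℤ) ∣ d) (hd' : ¬ (q : ℤ) ∣ d + j * c) :
    rowFun φ ((q : ℤ) ^ (2 * i) * c) (d + j * c) = rowFun φ ((q : ℤ) ^ (2 * i) * c) d := by
  have h' : IsCoprime c (d + j * c) := h.add_mul_right_right j
  rw [rowFun_pow_mul hpair i hc h' hd', rowFun_pow_mul hpair i hc h hd,
    rowFun_add_mul φ hc h j]

omit hpair

/-! ### The twist by `1 / r` -/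

/-- The twisted function: the value at `(N r² x, d - N r x)`. -/
def tw (φ : Period.H N k k) (r : ℕ) (x d : ℤ) : k :=
  rowFun φ ((N * r ^ 2 : ℕ) * x) (d - (N : ℤ) * r * x)

variable {r : ℕ}

theorem coprime_shift {x d : ℤ} (h : IsCoprime (((N * r ^ 2 : ℕ) : ℤ) * x) d) (t : ℤ) :
    IsCoprime (((N * r ^ 2 : ℕ) : ℤ) * x) (d + t * ((N : ℤ) * r * x)) := by
  push_cast at h ⊢
  have hr : IsCoprime (r : ℤ) (d + t * ((N : ℤ) * r * x)) := by
    have : IsCoprime (r : ℤ) d := h.of_isCoprime_of_dvd_left ⟨(N : ℤ) * r * x, by ring⟩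
    rw [show t * ((N : ℤ) * r * x) = (t * (N * x)) * r by ring]
    exact this.add_mul_right_right _
  have hb : IsCoprime ((N : ℤ) * r * x) (d + t * ((N : ℤ) * r * x)) := by
    have : IsCoprime ((N : ℤ) * r * x) d := h.of_isCoprime_of_dvd_left ⟨r, by ring⟩
    exact this.add_mul_right_right _
  rw [show (N : ℤ) * (r : ℤ) ^ 2 * x = (r : ℤ) * ((N : ℤ) * r * x) by ring]
  exact hr.mul_left hb

theorem level_dvd (x : ℤ) : (N : ℤ) ∣ ((N * r ^ 2 : ℕ) : ℤ) * x :=
  (Int.natCast_dvd_natCast.mpr (dvd_mul_right N _)).mul_right x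

theorem tw_add (φ : Period.H N k k) {x d : ℤ} (h : IsCoprime (((N * r ^ 2 : ℕ) : ℤ) * x) d)
    (j : ℤ) : tw φ r (x + j * d) d = tw φ r x d := by
  have hco : IsCoprime (((N * r ^ 2 : ℕ) : ℤ) * x) (d - (N : ℤ) * r * x) := by
    convert coprime_shift h (-1) using 1; ring
  have hP := rowFun_parabolic φ (level_dvd (r := r) x) hco
    (mkGamma0 (1 + j * N * r) (-(j * N)) (j * ((N * r ^ 2 : ℕ) : ℤ)) (1 - j * N * r)
      (by push_cast; ring) ((Int.natCast_dvd_natCast.mpr (dvd_mul_right N _)).mul_left j))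
    (by simp [Matrix.trace_fin_two])
  simp only [HeckeH.matOf_mkGamma0, Matrix.of_apply, Matrix.cons_val', Matrix.cons_val_zero,
    Matrix.cons_val_one, Matrix.cons_val_fin_one] at hP
  rw [tw, tw, ← hP]
  congr 1 <;> push_cast <;> ring

include hpair

theorem tw_translate {x d : ℤ} (h : IsCoprime (((N * r ^ 2 : ℕ) : ℤ) * x) d) (i : ℕ) (j : ℤ)
    (hd : ¬ (q : ℤ) ∣ d) (hd' : ¬ (q : ℤ) ∣ d + j * (((N * r ^ 2 : ℕ) : ℤ) * x)) :
    tw φ r ((q : ℤ) ^ (2 * i) * x) (d + j * (((N * r ^ 2 : ℕ) : ℤ) * x)) =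
      tw φ r ((q : ℤ) ^ (2 * i) * x) d := by
  set c : ℤ := ((N * r ^ 2 : ℕ) : ℤ) * x with hc
  set e : ℤ := d - (N : ℤ) * r * ((q : ℤ) ^ (2 * i) * x) with he
  have hce : IsCoprime c e := by
    convert coprime_shift h (-((q : ℤ) ^ (2 * i))) using 1
    rw [he]; ring
  have e2 : d + j * c - (N : ℤ) * r * ((q : ℤ) ^ (2 * i) * x) = e + j * c := by rw [he]; ring
  rw [tw, tw, e2, mul_left_comm, ← hc]
  rcases Nat.eq_zero_or_pos i with rfl | hi
  · simp only [mul_zero, pow_zero, one_mul] at he ⊢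
    try rw [← he]
    exact rowFun_add_mul φ (level_dvd x) hce j
  · have hqi : (q : ℤ) ∣ (N : ℤ) * r * ((q : ℤ) ^ (2 * i) * x) :=
      ((dvd_pow_self (q : ℤ) (by omega)).mul_right x).mul_left _
    refine rowFun_pow_mul_add hpair (level_dvd x) hce i j ?_ ?_
    · rw [he]; exact fun h' => hd (by simpa using h'.add hqi)
    · rw [← e2]; exact fun h' => hd' (by simpa using h'.add hqi)

omit hpair

theorem tw_period (φ : Period.H N k k) {x : ℤ} {d : ℕ} (hd : d.Prime) (hdq : d ≠ q)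
    (h : IsCoprime (((N * r ^ 2 : ℕ) : ℤ) * x) (d : ℤ)) (i : ℕ) :
    tw φ r ((q : ℤ) ^ (2 * (i + (d - 1))) * x) d = tw φ r ((q : ℤ) ^ (2 * i) * x) d := by
  have : Fact d.Prime := ⟨hd⟩
  have hq0 : (q : ZMod d) ≠ 0 := fun h0 => by
    rw [ZMod.natCast_eq_zero_iff, Nat.prime_dvd_prime_iff_eq hd Fact.out] at h0
    exact hdq h0
  obtain ⟨w, hw⟩ : (d : ℤ) ∣ (q : ℤ) ^ (2 * (d - 1)) - 1 := by
    rw [← ZMod.intCast_zmod_eq_zero_iff_dvd]
    push_cast
    rw [mul_comm, pow_mul, ZMod.pow_card_sub_one_eq_one hq0, one_pow, sub_self]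
  have hqd : IsCoprime (q : ℤ) (d : ℤ) :=
    natCast_prime_coprime (fun h0 => hdq ((Nat.prime_dvd_prime_iff_eq Fact.out hd).mp
      (Int.natCast_dvd_natCast.mp h0)).symm)
  rw [← tw_add φ (x := (q : ℤ) ^ (2 * i) * x) (by
    rw [mul_left_comm]; exact hqd.pow_left.mul_left h) ((q : ℤ) ^ (2 * i) * x * w)]
  congr 1
  rw [mul_add, pow_add, eq_add_of_sub_eq hw]
  ring

/-- A shift of the twisted argument avoiding a given prime. -/
theorem exists_shift {x d : ℤ} {M : ℕ} (h : IsCoprime ((M : ℤ) * x) d) {s : ℕ} (hs : s.Prime) :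
    ∃ j : ℤ, ¬ (s : ℤ) ∣ x + j * d := by
  by_cases hx : (s : ℤ) ∣ x
  · refine ⟨1, fun h1 => ?_⟩
    rw [one_mul, dvd_add_right hx] at h1
    have := h.isUnit_of_dvd' (hx.mul_left _) h1
    rw [Int.isUnit_iff] at this
    have := hs.two_le
    omega
  · exact ⟨0, by simpa using hx⟩

/-- The residue used to make a period prime to a given prime power. -/
theorem exists_residue {M : ℕ} {x d : ℤ} (h : IsCoprime ((M : ℤ) * x) d) {s n : ℕ} (hs : s.Prime)
    (hx : ¬ (s : ℤ) ∣ x) (hn : ¬ s ^ n ∣ 2 * M) :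
    ∃ d₁ : ℤ, (M : ℤ) * x ∣ d₁ - d ∧ IsCoprime d₁ ((M : ℤ) * x * (s : ℤ) ^ n) ∧
      ¬ (s : ℤ) ^ n ∣ d₁ - 1 := by
  have hsp : Prime (s : ℤ) := Nat.prime_iff_prime_int.mp hs
  by_cases hsM : s ∣ M
  · obtain ⟨d₁, hd₁, hn₁⟩ :
        ∃ d₁ : ℤ, (M : ℤ) * x ∣ d₁ - d ∧ ¬ (s : ℤ) ^ n ∣ d₁ - 1 := by
      by_cases h1 : (s : ℤ) ^ n ∣ d - 1
      · refine ⟨d + M * x, by simp, fun h2 => hn (Dvd.dvd.mul_left ?_ 2)⟩
        rw [show d + (M : ℤ) * x - 1 = (d - 1) + M * x by ring, dvd_add_right h1] at h2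
        exact_mod_cast ((hsp.coprime_iff_not_dvd.mpr hx).pow_left).dvd_of_dvd_mul_right h2
      · exact ⟨d, by simp, h1⟩
    obtain ⟨u, hu⟩ := hd₁
    have hco : IsCoprime ((M : ℤ) * x) d₁ := by
      rw [eq_add_of_sub_eq hu, add_comm]
      exact h.add_mul_left_right u
    exact ⟨d₁, ⟨u, hu⟩, hco.symm.mul_right
      ((hco.of_isCoprime_of_dvd_left ((Int.natCast_dvd_natCast.mpr hsM).mul_right x)).symm.pow_right),
      hn₁⟩
  · have hsMx : ¬ (s : ℤ) ∣ (M : ℤ) * x := fun h0 =>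
      (hsp.dvd_or_dvd h0).elim (fun h1 => hsM (Int.natCast_dvd_natCast.mp h1)) hx
    have hn0 : n ≠ 0 := by rintro rfl; exact hn (by simp)
    obtain ⟨a, b, hab⟩ := ((hsp.coprime_iff_not_dvd.mpr hsMx).pow_left (m := n)).symm
    set d₁ := d + (M : ℤ) * x * (a * (-1 - d)) with hd₁
    have h1 : d₁ + 1 = (s : ℤ) ^ n * (-(b * (-1 - d))) := by
      rw [hd₁]; linear_combination (-1 - d) * hab
    refine ⟨d₁, ⟨a * (-1 - d), by rw [hd₁]; ring⟩, IsCoprime.mul_right ?_ ?_, ?_⟩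
    · rw [hd₁]; exact (h.add_mul_left_right _).symm
    · exact ⟨-1, -(b * (-1 - d)), by linear_combination -h1⟩
    · intro h2
      refine hn (Dvd.dvd.mul_right ?_ M)
      have h3 : (s : ℤ) ^ n ∣ 2 := by
        have := (Dvd.intro _ h1.symm : (s : ℤ) ^ n ∣ d₁ + 1).sub h2
        simpa [show d₁ + 1 - (d₁ - 1) = 2 by ring] using this
      exact_mod_cast h3

include hqN hpair

/-- The twisted function is periodic along powers of `q²` with period `2 N r²`. -/
theorem tw_periodic {x d : ℤ} (hr : r ≠ 0) (h : IsCoprime (((N * r ^ 2 : ℕ) : ℤ) * x) d)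
    (hd : ¬ (q : ℤ) ∣ d) :
    ∀ i, tw φ r ((q : ℤ) ^ (2 * (i + 2 * (N * r ^ 2))) * x) d =
      tw φ r ((q : ℤ) ^ (2 * i) * x) d := by
  classical
  set M : ℕ := N * r ^ 2 with hM
  have hM0 : M ≠ 0 := mul_ne_zero (NeZero.ne N) (pow_ne_zero _ hr)
  let IsPer : ℕ → Prop := fun m =>
    ∀ i, tw φ r ((q : ℤ) ^ (2 * (i + m)) * x) d = tw φ r ((q : ℤ) ^ (2 * i) * x) d
  have key : ∀ s n : ℕ, s.Prime → ¬ s ^ n ∣ 2 * M → ∃ m, 0 < m ∧ IsPer m ∧ ¬ s ^ n ∣ m := by
    intro s n hs hn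
    obtain ⟨j, hj⟩ := exists_shift (M := M) h hs
    have h₁ : IsCoprime ((M : ℤ) * (x + j * d)) d := by
      rw [mul_add, show (M : ℤ) * (j * d) = ((M : ℤ) * j) * d by ring]
      exact h.add_mul_right_left _
    obtain ⟨d₁, hd₁, hco, hn₁⟩ := exists_residue h₁ hs hj hn
    have hx1 : x + j * d ≠ 0 := fun h0 => hj (by rw [h0]; exact dvd_zero _)
    have hne : (M : ℤ) * (x + j * d) * (s : ℤ) ^ n ≠ 0 :=
      mul_ne_zero (mul_ne_zero (by exact_mod_cast hM0) hx1)
        (pow_ne_zero _ (by exact_mod_cast hs.ne_zero))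
    obtain ⟨d', hd'p, hd'q, hd'⟩ := exists_prime_dvd_sub hne hco q
    obtain ⟨u, hu⟩ : (M : ℤ) * (x + j * d) ∣ (d' : ℤ) - d := by
      rw [show (d' : ℤ) - d = ((d' : ℤ) - d₁) + (d₁ - d) by ring]
      exact ((dvd_mul_right _ _).trans hd').add hd₁
    have hd'e : (d' : ℤ) = d + u * ((M : ℤ) * (x + j * d)) := by linear_combination hu
    have hqd' : ¬ (q : ℤ) ∣ (d' : ℤ) := fun h0 => by
      have := (Nat.prime_dvd_prime_iff_eq Fact.out hd'p).mp (Int.natCast_dvd_natCast.mp h0)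
      omega
    have htr : ∀ i, tw φ r ((q : ℤ) ^ (2 * i) * x) d =
        tw φ r ((q : ℤ) ^ (2 * i) * (x + j * d)) (d' : ℤ) := by
      intro i
      rw [hd'e, tw_translate hpair h₁ i u hd (by rwa [← hd'e]), mul_add,
        show (q : ℤ) ^ (2 * i) * (j * d) = ((q : ℤ) ^ (2 * i) * j) * d by ring, tw_add]
      rw [mul_left_comm]
      exact (natCast_prime_coprime hd).pow_left.mul_left h
    have h₁' : IsCoprime ((M : ℤ) * (x + j * d)) (d' : ℤ) := by
      rw [hd'e]; exact h₁.add_mul_right_right u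
    refine ⟨d' - 1, by have := hd'p.two_le; omega, fun i => ?_, fun h0 => hn₁ ?_⟩
    · rw [htr, htr]
      exact tw_period φ hd'p (by omega) h₁' i
    · have e : ((d' - 1 : ℕ) : ℤ) = (d' : ℤ) - 1 := by
        rw [Nat.cast_sub hd'p.one_le]; simp
      have := Int.natCast_dvd_natCast.mpr h0
      rw [e] at this
      push_cast at this
      rw [show d₁ - 1 = ((d' : ℤ) - 1) - ((d' : ℤ) - d₁) by ring]
      exact this.sub ((dvd_mul_left _ _).trans hd')
  have hex : ∃ m, 0 < m ∧ IsPer m := by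
    obtain ⟨m, h1, h2, -⟩ := key 2 (2 * M + 1) Nat.prime_two fun h0 => by
      have := Nat.le_of_dvd (by omega) h0
      have := (2 * M + 1).lt_two_pow_self
      omega
    exact ⟨m, h1, h2⟩
  obtain ⟨hm0, hper⟩ := Nat.find_spec hex
  set m₀ := Nat.find hex
  have hmul : ∀ t, IsPer (m₀ * t) := by
    intro t
    induction t with
    | zero => intro i; simp
    | succ t ih =>
      intro i
      rw [show i + m₀ * (t + 1) = (i + m₀ * t) + m₀ by ring, hper, ih]
  have hdvd : ∀ m, IsPer m → m₀ ∣ m := by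
    intro m hm
    by_contra h0
    have hpos : 0 < m % m₀ := Nat.pos_of_ne_zero fun h1 => h0 (Nat.dvd_of_mod_eq_zero h1)
    refine Nat.find_min hex (Nat.mod_lt m hm0) ⟨hpos, fun i => ?_⟩
    rw [← hmul (m / m₀) (i + m % m₀), add_assoc, Nat.mod_add_div, hm]
  obtain ⟨t, ht⟩ : m₀ ∣ 2 * M := by
    rw [Nat.dvd_iff_prime_pow_dvd_dvd]
    intro s n hs hsn
    by_contra h0
    obtain ⟨m, -, hm, hm'⟩ := key s n hs h0
    exact hm' (hsn.trans (hdvd m hm))
  intro i
  rw [ht]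
  exact hmul t i

/-- Translation invariance by multiples of `c / r` when `N r² ∣ c`. -/
theorem rowFun_shift (hr : r.Prime) (hrq : ¬ (r : ℤ) ∣ (q : ℤ) ^ (4 * N) - 1) (hne : r ≠ q)
    {x e : ℤ} (h : IsCoprime (((N * r ^ 2 : ℕ) : ℤ) * x) e) (z : ℤ) :
    rowFun φ (((N * r ^ 2 : ℕ) : ℤ) * x) (e + z * ((N : ℤ) * r * x)) =
      rowFun φ (((N * r ^ 2 : ℕ) : ℤ) * x) e := by
  set M : ℕ := N * r ^ 2 with hM
  set c : ℤ := (M : ℤ) * x with hc
  set b : ℤ := (N : ℤ) * r * x with hb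
  set K : ℕ := 2 * M with hK
  have hcb : c = r * b := by rw [hc, hb, hM]; push_cast; ring
  have hK0 : K ≠ 0 :=
    mul_ne_zero two_ne_zero (mul_ne_zero (NeZero.ne N) (pow_ne_zero _ hr.ne_zero))
  have hqp : Prime (q : ℤ) := Nat.prime_iff_prime_int.mp Fact.out
  have one : ∀ e : ℤ, IsCoprime c e →
      rowFun φ c (e - ((q : ℤ) ^ (2 * K) - 1) * b) = rowFun φ c e := by
    intro e he
    obtain ⟨j, hj⟩ : ∃ j : ℤ, ¬ (q : ℤ) ∣ e + b + j * c := by
      by_cases h1 : (q : ℤ) ∣ e + b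
      · refine ⟨1, fun h2 => ?_⟩
        rw [one_mul, dvd_add_right h1] at h2
        have h3 : (q : ℤ) ∣ b := by
          rw [hcb] at h2
          exact (hqp.dvd_or_dvd h2).resolve_left fun h4 => hne
            ((Nat.prime_dvd_prime_iff_eq Fact.out hr).mp (Int.natCast_dvd_natCast.mp h4)).symm
        exact hqp.not_isUnit (he.isUnit_of_dvd' h2 ((dvd_add_left h3).mp h1))
      · exact ⟨0, by simpa using h1⟩
    set d := e + b + j * c with hd
    have hcd : IsCoprime c d := by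
      rw [hd]
      have := (coprime_shift (r := r) he 1).add_mul_right_right j
      rwa [one_mul] at this
    have hper := tw_periodic hqN hpair hr.ne_zero hcd hj 0
    rw [zero_add, mul_zero, pow_zero, one_mul, tw, tw, mul_left_comm, ← hc] at hper
    have e1 : d - (N : ℤ) * r * x = e + j * c := by rw [hd, hb]; ring
    have e2 : d - (N : ℤ) * r * ((q : ℤ) ^ (2 * K) * x) =
        (e - ((q : ℤ) ^ (2 * K) - 1) * b) + j * c := by rw [hd, hb]; ring
    have hco2 : IsCoprime c (e - ((q : ℤ) ^ (2 * K) - 1) * b) := by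
      have := coprime_shift (r := r) he (-((q : ℤ) ^ (2 * K) - 1))
      rwa [show e + -((q : ℤ) ^ (2 * K) - 1) * ((N : ℤ) * r * x) =
        e - ((q : ℤ) ^ (2 * K) - 1) * b by rw [hb]; ring] at this
    rw [e1, e2, rowFun_pow_mul hpair K (level_dvd x) (hco2.add_mul_right_right j) ?_,
      rowFun_add_mul φ (level_dvd x) he, rowFun_add_mul φ (level_dvd x) hco2] at hper
    · exact hper
    · rw [← e2]
      intro h0
      exact hj (by
        have : (q : ℤ) ∣ (N : ℤ) * r * ((q : ℤ) ^ (2 * K) * x) :=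
          ((dvd_pow_self _ (by omega)).mul_right x).mul_left _
        simpa using h0.add this)
  set Q : ℤ := (q : ℤ) ^ (2 * K) - 1 with hQ
  have cop : ∀ t : ℤ, IsCoprime c (e + t * b) := coprime_shift h
  have many : ∀ m : ℤ, rowFun φ c (e + m * Q * b) = rowFun φ c e := by
    intro m
    induction m using Int.induction_on with
    | zero => simp
    | succ m ih =>
      rw [← ih, ← one (e + ((m : ℤ) + 1) * Q * b) (cop _)]
      congr 1; ring
    | pred m ih =>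
      rw [← ih, ← one (e + -(m : ℤ) * Q * b) (cop _)]
      congr 1; ring
  obtain ⟨u, v, huv⟩ : IsCoprime Q (r : ℤ) := by
    refine ((Nat.prime_iff_prime_int.mp hr).coprime_iff_not_dvd.mpr fun h0 => hrq ?_).symm
    have : Fact r.Prime := ⟨hr⟩
    rw [← ZMod.intCast_zmod_eq_zero_iff_dvd] at h0 ⊢
    rw [hQ, hK, hM] at h0
    push_cast at h0 ⊢
    rwa [show 2 * (2 * (N * r ^ 2)) = 4 * N * r * r by ring, pow_mul, pow_mul, ZMod.pow_card,
      ZMod.pow_card] at h0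
  have hsplit : e + z * b = e + z * u * Q * b + z * v * c := by
    rw [hcb]; linear_combination -(z * b) * huv
  rw [hsplit, rowFun_add_mul φ (level_dvd x) (cop _), many]

end FLTAgent.Ihara
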