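import Fermat.Agent.Ihara.SignFun
import Fermat.Agent.Ihara.Rows

/-!
# The intersection form on characters of `Γ₀(N)`

`Phi γ u v` is the finite sum over `Γ₀(N)` of the variation of the sign function under `γ`; a
quarter of it on paths gives the bilinear form `Eform γ δ`, killing parabolic and finite-order
elements (`EH_eq_zero`). Over a field `k` it gives `Pmap : (H N k k)^∨ → H N k k`, and
`Pmap_injective` is Poincaré duality, proved by expressing the form as a cocycle on cosets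
(`cc`, `c5`) computed at `S` and `T`.
-/

set_option autoImplicit false
set_option linter.unusedSectionVars false

open CongruenceSubgroup ModularCurve.Period
open scoped MatrixGroups
open ModularGroup (S T)
open FLTAgent.HeckeH (M2 matOf)
open FLTAgent.Period (Cosets baseCoset genU IsCosetCocycle)

noncomputable section

namespace FLTAgent.Ihara

/-- The first basis vector. -/
def vec1 : Vec := (1, 0)

/-- The second basis vector. -/
def vec2 : Vec := (0, 1)

/-- An element of `SL(2, ℤ)` applied to a vector. -/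
def sv (g : SL(2, ℤ)) (u : Vec) : Vec := act (g : M2) u

theorem sv_mul (g h : SL(2, ℤ)) (u : Vec) : sv (g * h) u = sv g (sv h u) := by
  rw [sv, Matrix.SpecialLinearGroup.coe_mul, act_mul]; rfl

theorem sv_one (u : Vec) : sv 1 u = u := by rw [sv, Matrix.SpecialLinearGroup.coe_one, act_one]

theorem sv_neg (g : SL(2, ℤ)) (u : Vec) : sv (-g) u = -sv g u := by
  rw [sv, Matrix.SpecialLinearGroup.coe_neg, act_neg]; rfl

theorem act_neg_vec (A : M2) (u : Vec) : act A (-u) = -act A u := by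
  simp only [act, Prod.fst_neg, Prod.snd_neg]
  exact Prod.ext (by simp; ring) (by simp; ring)

theorem sv_ne_zero (g : SL(2, ℤ)) {u : Vec} (hu : u ≠ 0) : sv g u ≠ 0 := fun h0 => hu (by
  have h1 := congrArg (sv g⁻¹) h0
  rw [← sv_mul, inv_mul_cancel, sv_one] at h1
  rw [h1]; simp [sv, act])

theorem vec1_ne_zero : vec1 ≠ 0 := by simp [vec1]

theorem vec2_ne_zero : vec2 ≠ 0 := by simp [vec2]

theorem Lfun_neg_left_vec (u v : Vec) (M : M2) : Lfun (-u) v M = Lfun u v M := by
  rw [Lfun, Lfun, act_neg_vec, sig_neg_left]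

theorem Lfun_neg_right_vec (u v : Vec) (M : M2) : Lfun u (-v) M = Lfun u v M := by
  rw [Lfun, Lfun, act_neg_vec, sig_neg_right]

variable {N : ℕ} [NeZero N]

/-! ### Sums over the group -/

theorem finite_Lfun_ne_gamma0 (u v : Vec) {β : M2} (hβ : 0 < β.det) :
    (Function.support fun δ : Gamma0 N => Lfun u v (matOf δ * β) - Lfun u v (matOf δ)).Finite := by
  refine ((finite_Lfun_ne u v hβ).preimage Subtype.val_injective.injOn).subset fun δ hδ => ?_
  exact fun h => hδ (sub_eq_zero.mpr h)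

/-- A finitely supported function has the same sum after a translation. -/
theorem finsum_mul_right_sub (h : Gamma0 N → ℤ) (hh : (Function.support h).Finite) (γ : Gamma0 N) :
    ∑ᶠ δ, (h (δ * γ) - h δ) = 0 := by
  have h' : (Function.support fun δ => h (δ * γ)).Finite :=
    hh.preimage (mul_left_injective γ).injOn
  rw [finsum_sub_distrib h' hh, sub_eq_zero]
  simpa using finsum_comp_equiv (Equiv.mulRight γ) (f := h)

/-- The sum over `Γ₀(N)` of the variation of the sign function under `γ`. -/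
def Phi (γ : Gamma0 N) (u v : Vec) : ℤ :=
  ∑ᶠ δ : Gamma0 N, (Lfun u v (matOf (δ * γ)) - Lfun u v (matOf δ))

theorem finite_support_Phi (γ : Gamma0 N) (u v : Vec) :
    (Function.support fun δ : Gamma0 N =>
      Lfun u v (matOf (δ * γ)) - Lfun u v (matOf δ)).Finite := by
  simp only [HeckeH.matOf_mul]
  exact finite_Lfun_ne_gamma0 u v (by rw [HeckeH.det_matOf]; exact one_pos)

theorem Phi_mul (γ γ' : Gamma0 N) (u v : Vec) : Phi (γ * γ') u v = Phi γ u v + Phi γ' u v := by
  have h1 : (Function.support fun δ : Gamma0 N =>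
      Lfun u v (matOf (δ * γ * γ')) - Lfun u v (matOf (δ * γ))).Finite :=
    (finite_support_Phi γ' u v).preimage (mul_left_injective γ).injOn
  calc Phi (γ * γ') u v
      = ∑ᶠ δ : Gamma0 N, ((Lfun u v (matOf (δ * γ * γ')) - Lfun u v (matOf (δ * γ))) +
          (Lfun u v (matOf (δ * γ)) - Lfun u v (matOf δ))) :=
        finsum_congr fun δ => by rw [mul_assoc]; ring
    _ = (∑ᶠ δ : Gamma0 N, (Lfun u v (matOf (δ * γ * γ')) - Lfun u v (matOf (δ * γ)))) +
          Phi γ u v := finsum_add_distrib h1 (finite_support_Phi γ u v)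
    _ = Phi γ' u v + Phi γ u v := by
        refine congrArg (· + Phi γ u v) ?_
        have e := finsum_comp_equiv (Equiv.mulRight γ)
          (f := fun δ : Gamma0 N => Lfun u v (matOf (δ * γ')) - Lfun u v (matOf δ))
        simp only [Equiv.coe_mulRight] at e
        exact e
    _ = _ := add_comm _ _

/-- `γ ↦ Phi γ u v` as an additive homomorphism. -/
def PhiHom (u v : Vec) : Additive (Gamma0 N) →+ ℤ :=
  AddMonoidHom.mk' (fun γ => Phi (Additive.toMul γ) u v) fun _ _ => Phi_mul _ _ u v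

theorem Phi_one (u v : Vec) : Phi (1 : Gamma0 N) u v = 0 := (PhiHom (N := N) u v).map_zero

theorem Phi_eq_zero_of_isOfFinOrder {γ : Gamma0 N} (hγ : IsOfFinOrder γ) (u v : Vec) :
    Phi γ u v = 0 := by
  obtain ⟨n, hn, h⟩ := isOfFinOrder_iff_pow_eq_one.mp hγ
  have h1 := (PhiHom (N := N) u v).map_nsmul n (Additive.ofMul γ)
  rw [← ofMul_pow, h, ofMul_one, map_zero, nsmul_eq_mul] at h1
  exact (mul_eq_zero.mp h1.symm).resolve_left (by exact_mod_cast hn.ne')

theorem Phi_neg_left (γ : Gamma0 N) (u v : Vec) : Phi γ (-u) v = Phi γ u v :=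
  finsum_congr fun δ => by rw [Lfun_neg_left_vec, Lfun_neg_left_vec]

theorem Phi_neg_right (γ : Gamma0 N) (u v : Vec) : Phi γ u (-v) = Phi γ u v :=
  finsum_congr fun δ => by rw [Lfun_neg_right_vec, Lfun_neg_right_vec]

theorem Phi_self (γ : Gamma0 N) (u : Vec) : Phi γ u u = 0 := by
  rw [Phi]
  exact finsum_eq_zero_of_forall_eq_zero fun δ => by simp [Lfun, sig_self]

theorem Phi_swap (γ : Gamma0 N) (u v : Vec) : Phi γ v u = -Phi γ u v := by
  rw [Phi, Phi, ← finsum_neg_distrib]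
  exact finsum_congr fun δ => by
    simp only [Lfun]
    rw [sig_swap, sig_swap (act (matOf δ).adjugate u) (act (matOf δ).adjugate v)]
    ring

theorem Phi_invariant (γ ε : Gamma0 N) (u v : Vec) :
    Phi γ (sv (ε : SL(2, ℤ)) u) (sv (ε : SL(2, ℤ)) v) = Phi γ u v := by
  have h : ∀ δ : Gamma0 N, Lfun (sv (ε : SL(2, ℤ)) u) (sv (ε : SL(2, ℤ)) v) (matOf δ) =
      Lfun u v (matOf (ε⁻¹ * δ)) := by
    intro δ
    rw [HeckeH.matOf_mul, Lfun_mul_left u v, matOf_inv, Matrix.adjugate_adjugate _ (by simp),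
      Fintype.card_fin, pow_zero, one_smul]
    rfl
  rw [Phi, Phi]
  simp only [h, ← mul_assoc]
  exact finsum_comp_equiv (Equiv.mulLeft ε⁻¹)
    (f := fun δ : Gamma0 N => Lfun u v (matOf (δ * γ)) - Lfun u v (matOf δ))

/-- The cocycle relation in the vectors. -/
theorem Phi_triangle (γ : Gamma0 N) {u v w : Vec} (hu : u ≠ 0) (hv : v ≠ 0) (hw : w ≠ 0) :
    Phi γ u v + Phi γ v w + Phi γ w u = 0 := by
  set ε : ℤ := -(detV u v * detV v w * detV w u).sign
  set h : Gamma0 N → ℤ := fun δ =>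
    tri (act (matOf δ).adjugate u) (act (matOf δ).adjugate v) (act (matOf δ).adjugate w) - ε with hh
  have hfin : (Function.support h).Finite :=
    ((finite_tri_ne hu hv hw).preimage Subtype.val_injective.injOn).subset fun δ hδ h0 =>
      hδ (sub_eq_zero.mpr h0)
  rw [Phi, Phi, Phi, ← finsum_add_distrib (finite_support_Phi γ u v) (finite_support_Phi γ v w),
    ← finsum_add_distrib _ (finite_support_Phi γ w u)]
  · rw [← finsum_mul_right_sub h hfin γ]
    refine finsum_congr fun δ => ?_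
    simp only [hh, tri, Lfun]
    ring
  · exact ((finite_support_Phi γ u v).union (finite_support_Phi γ v w)).subset
      (Function.support_add _ _)

theorem Phi_add (γ : Gamma0 N) {u v w : Vec} (hu : u ≠ 0) (hv : v ≠ 0) (hw : w ≠ 0) :
    Phi γ u w = Phi γ u v + Phi γ v w := by
  have := Phi_triangle γ hu hv hw
  rw [Phi_swap γ u w] at this
  linarith

/-! ### The symmetric form -/

/-- Four times the intersection form: `Phi γ` on the path from `e₁` to `δ e₁`. -/
def Eform4 (γ δ : Gamma0 N) : ℤ := Phi γ vec1 (sv (δ : SL(2, ℤ)) vec1)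

theorem Eform4_mul_right (γ δ δ' : Gamma0 N) :
    Eform4 γ (δ * δ') = Eform4 γ δ + Eform4 γ δ' := by
  rw [Eform4, Eform4, Eform4, Subgroup.coe_mul, sv_mul,
    Phi_add γ vec1_ne_zero (sv_ne_zero _ vec1_ne_zero) (sv_ne_zero _ (sv_ne_zero _ vec1_ne_zero)),
    Phi_invariant]

theorem Eform4_eq_zero_of_fix (γ δ : Gamma0 N) {w : Vec} (hw : w ≠ 0)
    (h : sv (δ : SL(2, ℤ)) w = w ∨ sv (δ : SL(2, ℤ)) w = -w) : Eform4 γ δ = 0 := by
  rw [Eform4, Phi_add γ vec1_ne_zero hw (sv_ne_zero _ vec1_ne_zero)]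
  have h1 := Phi_invariant γ δ w vec1
  rcases h with h | h <;> rw [h] at h1
  · rw [h1, Phi_swap]; ring
  · rw [Phi_neg_left] at h1; rw [h1, Phi_swap]; ring

theorem sv_T_zpow (n : ℤ) : sv (T ^ n) vec1 = vec1 := by
  simp [sv, act, vec1, ModularGroup.coe_T_zpow]

theorem Eform4_parabolic_right (γ δ : Gamma0 N) (h : (matOf δ).trace ^ 2 = 4) : Eform4 γ δ = 0 := by
  obtain ⟨g, n, hg⟩ := Period.exists_conj_T_zpow_of_trace (γ := (δ : SL(2, ℤ))) h
  refine Eform4_eq_zero_of_fix γ δ (w := sv g vec1) (sv_ne_zero _ vec1_ne_zero) ?_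
  rcases hg with hg | hg <;> rw [hg]
  · left
    rw [sv_mul, sv_mul, ← sv_mul g⁻¹ g, inv_mul_cancel, sv_one, sv_T_zpow]
  · right
    rw [sv_neg, sv_mul, sv_mul, ← sv_mul g⁻¹ g, inv_mul_cancel, sv_one, sv_T_zpow]

theorem Eform4_finOrder_right (γ δ : Gamma0 N) (h : IsOfFinOrder δ) : Eform4 γ δ = 0 := by
  obtain ⟨n, hn, h⟩ := isOfFinOrder_iff_pow_eq_one.mp h
  let f : Additive (Gamma0 N) →+ ℤ :=
    AddMonoidHom.mk' (fun δ => Eform4 γ (Additive.toMul δ)) fun a b => Eform4_mul_right γ _ _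
  have h1 := f.map_nsmul n (Additive.ofMul δ)
  rw [← ofMul_pow, h, ofMul_one, map_zero, nsmul_eq_mul] at h1
  exact (mul_eq_zero.mp h1.symm).resolve_left (by exact_mod_cast hn.ne')

/-! ### The cocycle on cosets -/

/-- The sign at a matrix for the standard vectors. -/
def L0 (M : SL(2, ℤ)) : ℤ := Lfun vec2 vec1 (M : M2)

theorem L0_eq (M : SL(2, ℤ)) :
    L0 M = ((M : M2) 0 0 * (M : M2) 1 0 + (M : M2) 0 1 * (M : M2) 1 1).sign := by
  have hd := M.2
  rw [Matrix.det_fin_two] at hd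
  simp only [L0, Lfun, sig, dotV, detV, act, vec1, vec2, Matrix.adjugate_fin_two, Matrix.of_apply,
    Matrix.cons_val', Matrix.cons_val_zero, Matrix.cons_val_one, Matrix.cons_val_fin_one]
  congr 1
  linear_combination ((M : M2) 0 0 * (M : M2) 1 0 + (M : M2) 0 1 * (M : M2) 1 1) * hd

theorem L0_neg (M : SL(2, ℤ)) : L0 (-M) = L0 M := by
  rw [L0, Matrix.SpecialLinearGroup.coe_neg, Lfun_neg]; rfl

theorem L0_mul_S (M : SL(2, ℤ)) : L0 (M * S) = L0 M := by
  rw [L0, Matrix.SpecialLinearGroup.coe_mul, ModularGroup.coe_S, Lfun_mul_rot]; rfl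

theorem finite_L0 (h : SL(2, ℤ)) :
    (Function.support fun M : SL(2, ℤ) => L0 (M * h) - L0 M).Finite := by
  refine (finite_Lfun_ne vec2 vec1 (β := (h : M2)) (by rw [h.2]; exact one_pos)).subset
    fun M hM h0 => hM (sub_eq_zero.mpr ?_)
  simpa [L0] using h0

open Classical in
/-- The integral cocycle on cosets. -/
def cc (N : ℕ) (h : SL(2, ℤ)) (y : Cosets N) (x : Cosets N) : ℤ :=
  ∑ᶠ M : SL(2, ℤ), if M • (h • y) = x then L0 (M * h) - L0 M else 0

theorem cc_cocycle : IsCosetCocycle (N := N) (K := Cosets N → ℤ) (cc N) := by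
  classical
  intro h₁ h₂ y
  funext x
  have f1 : (Function.support fun M : SL(2, ℤ) =>
      if M • ((h₁ * h₂) • y) = x then L0 (M * h₁) - L0 M else 0).Finite :=
    (finite_L0 h₁).subset fun M hM h0 => hM (by simp [h0])
  have f2 : (Function.support fun M : SL(2, ℤ) =>
      if M • (h₂ • y) = x then L0 (M * h₂) - L0 M else 0).Finite :=
    (finite_L0 h₂).subset fun M hM h0 => hM (by simp [h0])
  have f2' := f2.preimage (mul_left_injective h₁).injOn
  calc cc N (h₁ * h₂) y x
      = ∑ᶠ M : SL(2, ℤ), ((if M • ((h₁ * h₂) • y) = x then L0 (M * h₁) - L0 M else 0) +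
          (if (M * h₁) • (h₂ • y) = x then L0 (M * h₁ * h₂) - L0 (M * h₁) else 0)) := by
        refine finsum_congr fun M => ?_
        rw [show (M * h₁) • (h₂ • y) = M • ((h₁ * h₂) • y) by rw [mul_smul, mul_smul]]
        split_ifs
        · rw [mul_assoc]; ring
        · ring
    _ = (∑ᶠ M : SL(2, ℤ), if M • ((h₁ * h₂) • y) = x then L0 (M * h₁) - L0 M else 0) +
          ∑ᶠ M : SL(2, ℤ),
            (if (M * h₁) • (h₂ • y) = x then L0 (M * h₁ * h₂) - L0 (M * h₁) else 0) :=
        finsum_add_distrib f1 f2'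
    _ = cc N h₁ (h₂ • y) x + cc N h₂ y x := by
        congr 1
        · simp only [mul_smul]; rfl
        · exact finsum_comp_equiv (Equiv.mulRight h₁)
            (f := fun M : SL(2, ℤ) => if M • (h₂ • y) = x then L0 (M * h₂) - L0 M else 0)

theorem cc_S (y x : Cosets N) : cc N S y x = 0 :=
  finsum_eq_zero_of_forall_eq_zero fun M => by simp [L0_mul_S]

theorem cc_neg_one (y : Cosets N) : cc N (-1) y = 0 := funext fun x =>
  finsum_eq_zero_of_forall_eq_zero fun M => by simp [mul_neg, L0_neg]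

theorem sign_add_sign (a b c d : ℤ) (h : a * d - b * c = 1) :
    (a * c + (a + b) * (c + d)).sign - (a * c + b * d).sign =
      (if (a = 1 ∧ b = 0 ∧ c = 0 ∧ d = 1) ∨ (a = -1 ∧ b = 0 ∧ c = 0 ∧ d = -1) then 1 else 0) +
      (if (a = 1 ∧ b = -1 ∧ c = 0 ∧ d = 1) ∨ (a = -1 ∧ b = 1 ∧ c = 0 ∧ d = -1) then 1 else 0) -
      (if (a = 0 ∧ b = -1 ∧ c = 1 ∧ d = 0) ∨ (a = 0 ∧ b = 1 ∧ c = -1 ∧ d = 0) then 1 else 0) -
      (if (a = 0 ∧ b = -1 ∧ c = 1 ∧ d = -1) ∨ (a = 0 ∧ b = 1 ∧ c = -1 ∧ d = 1) then 1 else 0) := by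
  rcases eq_or_ne a 0 with rfl | ha
  · have hbc : b * c = -1 := by linear_combination -h
    rcases Int.eq_one_or_neg_one_of_mul_eq_neg_one hbc with rfl | rfl
    · obtain rfl : c = -1 := by linarith
      rcases sign_cases (0 * -1 + (1 : ℤ) * d) with ⟨h2, s2⟩ | ⟨h2, s2⟩ | ⟨h2, s2⟩ <;>
        rcases sign_cases (0 * -1 + (0 + (1 : ℤ)) * (-1 + d)) with ⟨h1, s1⟩ | ⟨h1, s1⟩ | ⟨h1, s1⟩ <;>
        rw [s1, s2] <;> norm_num at * <;> (try split_ifs) <;> omega
    · obtain rfl : c = 1 := by linarith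
      rcases sign_cases (0 * 1 + (-1 : ℤ) * d) with ⟨h2, s2⟩ | ⟨h2, s2⟩ | ⟨h2, s2⟩ <;>
        rcases sign_cases (0 * 1 + (0 + (-1 : ℤ)) * (1 + d)) with ⟨h1, s1⟩ | ⟨h1, s1⟩ | ⟨h1, s1⟩ <;>
        rw [s1, s2] <;> norm_num at * <;> (try split_ifs) <;> omega
  · rcases eq_or_ne c 0 with rfl | hc
    · have had : a * d = 1 := by linear_combination h
      rcases Int.mul_eq_one_iff_eq_one_or_neg_one.mp had with ⟨rfl, rfl⟩ | ⟨rfl, rfl⟩
      · rcases sign_cases ((1 : ℤ) * 0 + b * 1) with ⟨h2, s2⟩ | ⟨h2, s2⟩ | ⟨h2, s2⟩ <;>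
          rcases sign_cases ((1 : ℤ) * 0 + (1 + b) * (0 + 1)) with ⟨h1, s1⟩ | ⟨h1, s1⟩ | ⟨h1, s1⟩ <;>
          rw [s1, s2] <;> norm_num at * <;> (try split_ifs) <;> omega
      · rcases sign_cases ((-1 : ℤ) * 0 + b * -1) with ⟨h2, s2⟩ | ⟨h2, s2⟩ | ⟨h2, s2⟩ <;>
          rcases sign_cases ((-1 : ℤ) * 0 + (-1 + b) * (0 + -1)) with ⟨h1, s1⟩ | ⟨h1, s1⟩ | ⟨h1, s1⟩ <;>
          rw [s1, s2] <;> norm_num at * <;> (try split_ifs) <;> omega
    · have hac : a * c ≠ 0 := mul_ne_zero ha hc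
      have key : ∀ b' d' : ℤ, a * d' - b' * c = 1 → (a * c + b' * d').sign = (a * c).sign := by
        intro b' d' h'
        have h2 : 0 ≤ (a * c) * (b' * d') := by
          have e : (a * c) * (b' * d') = (b' * c) * (b' * c + 1) := by
            linear_combination (b' * c) * h'
          rw [e]
          rcases le_or_gt 0 (b' * c) with h3 | h3
          · positivity
          · exact mul_nonneg_of_nonpos_of_nonpos h3.le (by omega)
        rcases sign_cases (a * c) with ⟨h3, s3⟩ | ⟨h3, -⟩ | ⟨h3, s3⟩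
        · rw [s3]
          refine Int.sign_eq_neg_one_of_neg ?_
          nlinarith
        · exact absurd h3 hac
        · rw [s3]
          refine Int.sign_eq_one_of_pos ?_
          nlinarith
      rw [key b d h, key (a + b) (c + d) (by linear_combination h)]
      simp [ha, hc]

theorem ext_entries_iff (M : SL(2, ℤ)) (a b c d : ℤ) (hX : a * d - b * c = 1) :
    (M = ⟨!![a, b; c, d], by rw [Matrix.det_fin_two_of, hX]⟩) ↔
      ((M : M2) 0 0 = a ∧ (M : M2) 0 1 = b ∧ (M : M2) 1 0 = c ∧ (M : M2) 1 1 = d) := by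
  constructor
  · rintro rfl; simp
  · rintro ⟨h1, h2, h3, h4⟩
    refine Matrix.SpecialLinearGroup.ext _ _ fun i j => ?_
    fin_cases i <;> fin_cases j <;> simp [h1, h2, h3, h4]

open Classical in
/-- The indicator of `±X`. -/
def pm (X M : SL(2, ℤ)) : ℤ := if M = X ∨ M = -X then 1 else 0

theorem L0_mul_T_sub (M : SL(2, ℤ)) :
    L0 (M * T) - L0 M = pm 1 M + pm T⁻¹ M - pm S M - pm (S * T⁻¹) M := by
  classical
  have hT : ((M * T : SL(2, ℤ)) : M2) = (M : M2) * !![1, 1; 0, 1] := by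
    rw [Matrix.SpecialLinearGroup.coe_mul, ModularGroup.coe_T]
  have e : ∀ X : SL(2, ℤ), pm X M =
      if ((M : M2) 0 0 = (X : M2) 0 0 ∧ (M : M2) 0 1 = (X : M2) 0 1 ∧
          (M : M2) 1 0 = (X : M2) 1 0 ∧ (M : M2) 1 1 = (X : M2) 1 1) ∨
        ((M : M2) 0 0 = -(X : M2) 0 0 ∧ (M : M2) 0 1 = -(X : M2) 0 1 ∧
          (M : M2) 1 0 = -(X : M2) 1 0 ∧ (M : M2) 1 1 = -(X : M2) 1 1) then 1 else 0 := by
    intro X
    rw [pm]
    congr 1
    have aux : ∀ Y : SL(2, ℤ), M = Y ↔ ((M : M2) 0 0 = (Y : M2) 0 0 ∧ (M : M2) 0 1 = (Y : M2) 0 1 ∧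
        (M : M2) 1 0 = (Y : M2) 1 0 ∧ (M : M2) 1 1 = (Y : M2) 1 1) := fun Y =>
      ⟨fun h => by subst h; simp, fun ⟨h1, h2, h3, h4⟩ =>
        Matrix.SpecialLinearGroup.ext _ _ fun i j => by
          fin_cases i <;> fin_cases j <;> simpa using by assumption⟩
    rw [eq_iff_iff, aux X, aux (-X)]
    simp
  have hd := M.2
  rw [Matrix.det_fin_two] at hd
  rw [L0_eq, L0_eq, hT, e 1, e T⁻¹, e S, e (S * T⁻¹)]
  simp only [Matrix.SpecialLinearGroup.coe_one, ModularGroup.coe_T_inv, ModularGroup.coe_S,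
    Matrix.SpecialLinearGroup.coe_mul, Matrix.mul_apply, Fin.sum_univ_two, Matrix.one_apply,
    Matrix.of_apply, Matrix.cons_val', Matrix.cons_val_zero, Matrix.cons_val_one,
    Matrix.cons_val_fin_one]
  simpa using sign_add_sign ((M : M2) 0 0) ((M : M2) 0 1) ((M : M2) 1 0) ((M : M2) 1 1) hd

open Classical in
/-- The indicator of a coset. -/
def dlt (y x : Cosets N) : ℤ := if x = y then 1 else 0

theorem cc_T (y x : Cosets N) :
    cc N T y x = 2 * (dlt y x + dlt (T • y) x - dlt (S • y) x - dlt (S • T • y) x) := by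
  classical
  set g : SL(2, ℤ) → SL(2, ℤ) → ℤ := fun X M => if M • (T • y) = x then pm X M else 0 with hg
  have fin : ∀ X, (Function.support (g X)).Finite := fun X =>
    (({X, -X} : Finset SL(2, ℤ)).finite_toSet).subset fun M hM => by
      by_contra h0
      apply hM
      simp only [Finset.coe_insert, Finset.coe_singleton, Set.mem_insert_iff,
        Set.mem_singleton_iff] at h0
      simp [hg, pm, h0]
  have one : ∀ X, ∑ᶠ M, g X M = 2 * dlt (X • T • y) x := by
    intro X
    have hne : X ≠ -X := by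
      intro h
      have h2 := congrArg (fun A : SL(2, ℤ) => (A : M2)) h
      simp only [Matrix.SpecialLinearGroup.coe_neg] at h2
      have := congrArg Matrix.det h2
      have h00 := congrFun (congrFun h2 0) 0
      have h01 := congrFun (congrFun h2 0) 1
      simp at h00 h01
      have hd := X.2
      rw [Matrix.det_fin_two, show (X : M2) 0 0 = 0 by omega, show (X : M2) 0 1 = 0 by omega] at hd
      simp at hd
    rw [finsum_eq_sum_of_support_subset (g X) (s := {X, -X}) (fun M hM => by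
        by_contra h0
        apply hM
        simp only [Finset.coe_insert, Finset.coe_singleton, Set.mem_insert_iff,
          Set.mem_singleton_iff] at h0
        simp [hg, pm, h0]),
      Finset.sum_pair hne]
    simp only [hg, Period.neg_smul_coset, pm, dlt, eq_comm (a := X • T • y)]
    split_ifs <;> simp_all
  calc cc N T y x
      = ∑ᶠ M : SL(2, ℤ), (g 1 M + g T⁻¹ M - g S M - g (S * T⁻¹) M) := by
        refine finsum_congr fun M => ?_
        simp only [hg]
        split_ifs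
        · exact L0_mul_T_sub M
        · ring
    _ = (∑ᶠ M, g 1 M) + (∑ᶠ M, g T⁻¹ M) - (∑ᶠ M, g S M) - ∑ᶠ M, g (S * T⁻¹) M := by
        rw [finsum_sub_distrib (((((fin 1).union (fin T⁻¹)).union (fin S))).subset
            ((Function.support_sub _ _).trans (Set.union_subset_union_left _
              (Function.support_add _ _)))) (fin _),
          finsum_sub_distrib (((fin 1).union (fin T⁻¹)).subset (Function.support_add _ _)) (fin S),
          finsum_add_distrib (fin 1) (fin T⁻¹)]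
    _ = _ := by
        rw [one, one, one, one, one_smul, inv_smul_smul, mul_smul, inv_smul_smul]
        ring

theorem cc_baseCoset (γ : Gamma0 N) (g : SL(2, ℤ)) :
    cc N (γ : SL(2, ℤ)) (baseCoset N) (g⁻¹ • baseCoset N) =
      Phi γ (sv g vec2) (sv g vec1) := by
  classical
  have hiff : ∀ M : SL(2, ℤ), M • baseCoset N = g⁻¹ • baseCoset N ↔ g * M ∈ Gamma0 N := by
    intro M
    show ((M * 1 : SL(2, ℤ)) : Cosets N) = ((g⁻¹ * 1 : SL(2, ℤ)) : Cosets N) ↔ _
    rw [mul_one, mul_one, eq_comm, QuotientGroup.eq, inv_inv]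
  have hterm : ∀ δ : Gamma0 N, ∀ ε : SL(2, ℤ), Lfun (sv g vec2) (sv g vec1) ((δ : SL(2, ℤ)) * ε : SL(2, ℤ)) =
      L0 (g⁻¹ * (δ * ε)) := by
    intro δ ε
    rw [L0, Matrix.SpecialLinearGroup.coe_mul g⁻¹, Lfun_mul_left vec2,
      Matrix.SpecialLinearGroup.coe_inv, Matrix.adjugate_adjugate _ (by simp), Fintype.card_fin,
      pow_zero, one_smul]
    rfl
  rw [Phi, cc, Period.Gamma0_smul_baseCoset]
  simp only [hiff]
  rw [← finsum_comp_equiv (Equiv.mulLeft g⁻¹)]
  simp only [Equiv.coe_mulLeft, mul_inv_cancel_left, mul_assoc]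
  refine Eq.trans (b := ∑ᶠ δ : Gamma0 N,
    (L0 (g⁻¹ * ((δ : SL(2, ℤ)) * (γ : SL(2, ℤ)))) - L0 (g⁻¹ * (δ : SL(2, ℤ))))) ?_
    (finsum_congr fun δ : Gamma0 N => ?_)
  · refine Eq.trans ?_ (finsum_subtype_eq_finsum_cond (fun x : SL(2, ℤ) => x ∈ Gamma0 N)
      (f := fun i => L0 (g⁻¹ * (i * (γ : SL(2, ℤ)))) - L0 (g⁻¹ * i))).symm
    exact finsum_congr fun i => finsum_eq_if.symm
  · rw [← hterm δ γ, show g⁻¹ * (δ : SL(2, ℤ)) = g⁻¹ * ((δ : SL(2, ℤ)) * 1) by rw [mul_one],
      ← hterm δ 1, mul_one]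
    rfl

/-! ### The cocycle divided by four -/

theorem S_smul_smul (x : Cosets N) : S • S • x = x := by
  rw [← mul_smul, ← sq, Period.S_sq, Period.neg_one_smul_coset]

/-- The correction term. -/
def halfEdge (y x : Cosets N) : ℤ := dlt y x - dlt (S • y) x

theorem cc_corrected_S (y x : Cosets N) :
    cc N S y x + 2 * (halfEdge (S • y) x - halfEdge y x) = 4 * (dlt (S • y) x - dlt y x) := by
  simp only [cc_S, halfEdge, S_smul_smul]; ring

theorem cc_corrected_T (y x : Cosets N) :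
    cc N T y x + 2 * (halfEdge (T • y) x - halfEdge y x) =
      4 * (dlt (T • y) x - dlt (S • T • y) x) := by
  simp only [cc_T, halfEdge]; ring

theorem four_dvd_cc (h : SL(2, ℤ)) (y x : Cosets N) :
    (4 : ℤ) ∣ cc N h y x + 2 * (halfEdge (h • y) x - halfEdge y x) := by
  let c : SL(2, ℤ) → Cosets N → (Cosets N → ZMod 4) := fun h y x =>
    ((cc N h y x + 2 * (halfEdge (h • y) x - halfEdge y x) : ℤ) : ZMod 4)
  have hc : IsCosetCocycle c := by
    intro g h y
    funext x
    simp only [c, Pi.add_apply, cc_cocycle g h y, mul_smul, ← Int.cast_add]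
    congr 1; ring
  have h4 : ((4 : ℤ) : ZMod 4) = 0 := by decide
  have hS : ∀ y, c S y = 0 := fun y => funext fun x => by
    simp only [c, cc_corrected_S, Int.cast_mul, h4, zero_mul]; rfl
  have hT : ∀ y, c T y = 0 := fun y => funext fun x => by
    simp only [c, cc_corrected_T, Int.cast_mul, h4, zero_mul]; rfl
  have hU : ∀ y, c genU y = 0 := fun y => by rw [genU, hc, hT, hS, add_zero]
  exact (ZMod.intCast_zmod_eq_zero_iff_dvd _ 4).mp
    (congrFun (hc.eq_zero_of_S_of_genU hS hU h y) x)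

/-- The integral cocycle divided by four. -/
def c5 (N : ℕ) [NeZero N] (h : SL(2, ℤ)) (y : Cosets N) (x : Cosets N) : ℤ :=
  (cc N h y x + 2 * (halfEdge (h • y) x - halfEdge y x)) / 4

theorem four_mul_c5 (h : SL(2, ℤ)) (y x : Cosets N) :
    4 * c5 N h y x = cc N h y x + 2 * (halfEdge (h • y) x - halfEdge y x) :=
  Int.mul_ediv_cancel' (four_dvd_cc h y x)

/-- The divided cocycle is a cocycle on cosets. -/
theorem c5_cocycle : IsCosetCocycle (N := N) (K := Cosets N → ℤ) (c5 N) := by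
  intro g h y
  funext x
  refine mul_left_cancel₀ (four_ne_zero : (4 : ℤ) ≠ 0) ?_
  rw [Pi.add_apply, mul_add, four_mul_c5, four_mul_c5, four_mul_c5, cc_cocycle g h y, Pi.add_apply,
    mul_smul]
  ring

theorem c5_S (y x : Cosets N) : c5 N S y x = dlt (S • y) x - dlt y x :=
  mul_left_cancel₀ (four_ne_zero : (4 : ℤ) ≠ 0) (by rw [four_mul_c5, cc_corrected_S])

theorem c5_T (y x : Cosets N) : c5 N T y x = dlt (T • y) x - dlt (S • T • y) x :=
  mul_left_cancel₀ (four_ne_zero : (4 : ℤ) ≠ 0) (by rw [four_mul_c5, cc_corrected_T])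

theorem cc_gamma0 (γ : Gamma0 N) (x : Cosets N) :
    cc N (γ : SL(2, ℤ)) (baseCoset N) x = 4 * c5 N (γ : SL(2, ℤ)) (baseCoset N) x := by
  rw [four_mul_c5, Period.Gamma0_smul_baseCoset, sub_self, mul_zero, add_zero]

theorem sv_S_vec1 : sv S vec1 = vec2 := by simp [sv, act, vec1, vec2, ModularGroup.coe_S]

theorem four_dvd_Phi (γ : Gamma0 N) (g' : SL(2, ℤ)) :
    ∀ g, (4 : ℤ) ∣ Phi γ (sv g vec1) (sv (g * g') vec1) := by
  have hg : g' ∈ Subgroup.closure ({S, T} : Set SL(2, ℤ)) := by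
    rw [SpecialLinearGroup.SL2Z_generators]; trivial
  induction hg using Subgroup.closure_induction with
  | mem x hx =>
    intro g
    rcases hx with rfl | rfl
    · rw [sv_mul, sv_S_vec1, Phi_swap, dvd_neg, ← cc_baseCoset γ g, cc_gamma0]
      exact dvd_mul_right _ _
    · rw [sv_mul, show sv T vec1 = vec1 by simpa using sv_T_zpow 1, Phi_self]
      exact dvd_zero _
  | one => intro g; rw [mul_one, Phi_self]; exact dvd_zero _
  | mul a b _ _ ha hb =>
    intro g
    rw [← mul_assoc, Phi_add γ (sv_ne_zero _ vec1_ne_zero) (v := sv (g * a) vec1)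
      (sv_ne_zero _ vec1_ne_zero) (sv_ne_zero _ vec1_ne_zero)]
    exact dvd_add (ha g) (hb (g * a))
  | inv a _ ha =>
    intro g
    have := ha (g * a⁻¹)
    rw [inv_mul_cancel_right] at this
    rw [Phi_swap, dvd_neg]
    exact this

/-- A quarter of `Phi γ` on the path from `g e₁` to `g' e₁`. -/
def Psi (γ : Gamma0 N) (g g' : SL(2, ℤ)) : ℤ := Phi γ (sv g vec1) (sv g' vec1) / 4

theorem four_mul_Psi (γ : Gamma0 N) (g g' : SL(2, ℤ)) :
    4 * Psi γ g g' = Phi γ (sv g vec1) (sv g' vec1) := by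
  refine Int.mul_ediv_cancel' ?_
  simpa using four_dvd_Phi γ (g⁻¹ * g') g

theorem Psi_add (γ : Gamma0 N) (g g' g'' : SL(2, ℤ)) : Psi γ g g'' = Psi γ g g' + Psi γ g' g'' :=
  mul_left_cancel₀ (four_ne_zero : (4 : ℤ) ≠ 0) (by
    rw [mul_add, four_mul_Psi, four_mul_Psi, four_mul_Psi,
      ← Phi_add γ (sv_ne_zero _ vec1_ne_zero) (sv_ne_zero _ vec1_ne_zero)
        (sv_ne_zero _ vec1_ne_zero)])

theorem Psi_invariant (γ ε : Gamma0 N) (g g' : SL(2, ℤ)) :
    Psi γ ((ε : SL(2, ℤ)) * g) ((ε : SL(2, ℤ)) * g') = Psi γ g g' :=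
  mul_left_cancel₀ (four_ne_zero : (4 : ℤ) ≠ 0) (by
    rw [four_mul_Psi, four_mul_Psi, sv_mul, sv_mul, Phi_invariant])

/-- The intersection form. -/
def Eform (γ δ : Gamma0 N) : ℤ := Psi γ 1 (δ : SL(2, ℤ))

theorem four_mul_Eform (γ δ : Gamma0 N) : 4 * Eform γ δ = Eform4 γ δ := by
  rw [Eform, four_mul_Psi, sv_one, Eform4]

/-! ### Parabolic elements -/

theorem dlt_S (y x : Cosets N) : dlt (S • y) x = dlt y (S • x) := by
  simp only [dlt]
  congr 1
  rw [eq_iff_iff]
  exact ⟨fun h => by rw [h, S_smul_smul], fun h => by rw [← h, S_smul_smul]⟩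

theorem T_zpow_smul_fix (n : ℤ) (z : Cosets N) (h : T ^ n • z = z) :
    T ^ n.natAbs • z = z := by
  rcases Int.natAbs_eq n with e | e <;> rw [e] at h
  · rwa [zpow_natCast] at h
  · rw [zpow_neg, zpow_natCast, inv_smul_eq_iff] at h
    exact h.symm

theorem cc_T_pow_fix (m : ℕ) (z : Cosets N) (hz : T ^ m • z = z) :
    ∃ h : Cosets N → ℤ, (∀ x, h (T • x) = h x) ∧
      ∀ x, cc N (T ^ m) z x = 4 * (h x - h (S • x)) := by
  classical
  refine ⟨fun x => ∑ k ∈ Finset.range m, dlt (T ^ k • z) x, fun x => ?_, fun x => ?_⟩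
  · have e : ∀ k : ℕ, dlt (T ^ (k + 1) • z) (T • x) = dlt (T ^ k • z) x := fun k => by
      simp only [dlt, pow_succ', mul_smul, smul_left_cancel_iff]
    have h2 : ∑ k ∈ Finset.range m, dlt (T ^ (k + 1) • z) (T • x) =
        ∑ k ∈ Finset.range m, dlt (T ^ k • z) (T • x) := by
      have a := Finset.sum_range_succ' (fun k => dlt (T ^ k • z) (T • x)) m
      have b := Finset.sum_range_succ (fun k => dlt (T ^ k • z) (T • x)) m
      rw [b, hz, pow_zero, one_smul] at a
      exact (add_right_cancel a).symm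
    show ∑ k ∈ Finset.range m, dlt (T ^ k • z) (T • x) = ∑ k ∈ Finset.range m, dlt (T ^ k • z) x
    rw [← h2]
    exact Finset.sum_congr rfl fun k _ => e k
  · rw [cc_cocycle.pow T z m, Finset.sum_apply]
    simp only [cc_T]
    have e : ∀ f : Cosets N → ℤ, ∑ k ∈ Finset.range m, f (T • T ^ k • z) =
        ∑ k ∈ Finset.range m, f (T ^ k • z) := by
      intro f
      have a := Finset.sum_range_succ' (fun k => f (T ^ k • z)) m
      have b := Finset.sum_range_succ (fun k => f (T ^ k • z)) m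
      rw [b, hz, pow_zero, one_smul] at a
      simp only [← mul_smul, ← pow_succ']
      exact (add_right_cancel a).symm
    simp only [dlt_S, mul_sub, mul_add, Finset.sum_sub_distrib, Finset.sum_add_distrib,
      ← Finset.mul_sum, e (fun y => dlt y x), e (fun y => dlt y (S • x))]
    ring

theorem cc_parabolic (γ : Gamma0 N) (hγ : (matOf γ).trace ^ 2 = 4) :
    ∃ h : Cosets N → ℤ, (∀ x, h (T • x) = h x) ∧
      ∀ x, cc N (γ : SL(2, ℤ)) (baseCoset N) x = 4 * (h x - h (S • x)) := by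
  obtain ⟨g, n, hg⟩ := Period.exists_conj_T_zpow_of_trace (γ := (γ : SL(2, ℤ))) hγ
  have hfix : T ^ n • g⁻¹ • baseCoset N = g⁻¹ • baseCoset N := by
    have h := Period.Gamma0_smul_baseCoset γ
    rcases hg with hg | hg <;> rw [hg] at h
    · rwa [mul_smul, mul_smul, ← eq_inv_smul_iff] at h
    · rwa [Period.neg_smul_coset, mul_smul, mul_smul, ← eq_inv_smul_iff] at h
  have hval : cc N (γ : SL(2, ℤ)) (baseCoset N) = cc N (T ^ n) (g⁻¹ • baseCoset N) := by
    rcases hg with hg | hg <;> rw [hg]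
    · exact cc_cocycle.conj g (T ^ n) (baseCoset N) hfix
    · rw [cc_cocycle.neg cc_neg_one]
      exact cc_cocycle.conj g (T ^ n) (baseCoset N) hfix
  obtain ⟨h, hT, hh⟩ := cc_T_pow_fix n.natAbs (g⁻¹ • baseCoset N) (T_zpow_smul_fix n _ hfix)
  rcases Int.natAbs_eq n with e | e
  · refine ⟨h, hT, fun x => ?_⟩
    rw [hval, e, zpow_natCast]
    exact hh x
  · refine ⟨fun x => -h x, fun x => by show -h (T • x) = -h x; rw [hT], fun x => ?_⟩
    rw [hval, e, zpow_neg, zpow_natCast, cc_cocycle.inv, Pi.neg_apply]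
    rw [e, zpow_neg, zpow_natCast] at hfix
    rw [hfix, hh x]
    ring

theorem Phi_parabolic_aux (γ : Gamma0 N) {h : Cosets N → ℤ} (hT : ∀ x, h (T • x) = h x)
    (hh : ∀ x, cc N (γ : SL(2, ℤ)) (baseCoset N) x = 4 * (h x - h (S • x))) (g' : SL(2, ℤ)) :
    ∀ g, Phi γ (sv g vec1) (sv (g * g') vec1) =
      4 * (h ((g * g')⁻¹ • baseCoset N) - h (g⁻¹ • baseCoset N)) := by
  have hg : g' ∈ Subgroup.closure ({S, T} : Set SL(2, ℤ)) := by
    rw [SpecialLinearGroup.SL2Z_generators]; trivial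
  induction hg using Subgroup.closure_induction with
  | mem x hx =>
    intro g
    rcases hx with rfl | rfl
    · have e := hh (g⁻¹ • baseCoset N)
      rw [cc_baseCoset γ g] at e
      rw [sv_mul, sv_S_vec1,
        Phi_swap, e, mul_inv_rev, mul_smul]
      have hS : S⁻¹ • g⁻¹ • baseCoset N = S • g⁻¹ • baseCoset N := by
        rw [inv_smul_eq_iff, S_smul_smul]
      rw [hS]; ring
    · have h1 : sv T vec1 = vec1 := by simpa using sv_T_zpow 1
      have h2 : h (T⁻¹ • g⁻¹ • baseCoset N) = h (g⁻¹ • baseCoset N) := by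
        rw [← hT, smul_inv_smul]
      rw [sv_mul, h1, Phi_self, mul_inv_rev, mul_smul, h2]; ring
  | one => intro g; rw [mul_one, Phi_self]; ring
  | mul a b _ _ ha hb =>
    intro g
    rw [← mul_assoc, Phi_add γ (sv_ne_zero _ vec1_ne_zero) (v := sv (g * a) vec1)
      (sv_ne_zero _ vec1_ne_zero) (sv_ne_zero _ vec1_ne_zero), ha g, hb (g * a)]
    ring
  | inv a _ ha =>
    intro g
    have := ha (g * a⁻¹)
    rw [inv_mul_cancel_right] at this
    rw [Phi_swap, this]; ring

theorem Eform4_parabolic_left (γ δ : Gamma0 N) (hγ : (matOf γ).trace ^ 2 = 4) : Eform4 γ δ = 0 := by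
  obtain ⟨h, hT, hh⟩ := cc_parabolic γ hγ
  have e := Phi_parabolic_aux γ hT hh (δ : SL(2, ℤ)) 1
  rw [one_mul, sv_one, inv_one, one_smul] at e
  rw [Eform4, e]
  have : (δ : SL(2, ℤ))⁻¹ • baseCoset N = baseCoset N := by
    have := Period.Gamma0_smul_baseCoset δ⁻¹
    simpa using this
  rw [this]; ring

theorem Eform4_mul_left (γ γ' δ : Gamma0 N) : Eform4 (γ * γ') δ = Eform4 γ δ + Eform4 γ' δ :=
  Phi_mul γ γ' _ _

theorem Eform_ext {a : ℤ} {γ δ : Gamma0 N} (h : Eform4 γ δ = 4 * a) : Eform γ δ = a :=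
  mul_left_cancel₀ (four_ne_zero : (4 : ℤ) ≠ 0) (by rw [four_mul_Eform, h])

theorem Eform_mul_left (γ γ' δ : Gamma0 N) : Eform (γ * γ') δ = Eform γ δ + Eform γ' δ :=
  Eform_ext (by rw [mul_add, four_mul_Eform, four_mul_Eform, Eform4_mul_left])

theorem Eform_mul_right (γ δ δ' : Gamma0 N) : Eform γ (δ * δ') = Eform γ δ + Eform γ δ' :=
  Eform_ext (by rw [mul_add, four_mul_Eform, four_mul_Eform, Eform4_mul_right])

/-- The form as an element of `H N`. -/
def EH (δ : Gamma0 N) : Period.H N ℤ ℤ :=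
  ⟨AddMonoidHom.mk' (fun γ => Eform (Additive.toMul γ) δ) fun a b => Eform_mul_left _ _ δ,
    ⟨fun γ hγ => Eform_ext ((Eform4_parabolic_left γ δ hγ).trans (by norm_num)),
      fun γ hγ => Eform_ext ((Phi_eq_zero_of_isOfFinOrder hγ _ _).trans (by norm_num))⟩⟩

theorem EH_apply (δ γ : Gamma0 N) :
    (EH δ : Additive (Gamma0 N) →+ ℤ) (Additive.ofMul γ) = Eform γ δ := rfl

theorem EH_mul (δ δ' : Gamma0 N) : EH (δ * δ') = EH δ + EH δ' :=
  Subtype.ext (AddMonoidHom.ext fun γ => Eform_mul_right (Additive.toMul γ) δ δ')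

theorem EH_eq_zero {δ : Gamma0 N} (h : (matOf δ).trace ^ 2 = 4 ∨ IsOfFinOrder δ) : EH δ = 0 := by
  refine Subtype.ext (AddMonoidHom.ext fun γ => ?_)
  rcases h with h | h
  · exact Eform_ext ((Eform4_parabolic_right (Additive.toMul γ) δ h).trans (by simp))
  · exact Eform_ext ((Eform4_finOrder_right (Additive.toMul γ) δ h).trans (by simp))

/-! ### The pairing -/

variable (k : Type*) [Field k]

/-- The form with values in `k`. -/
def EK (δ : Gamma0 N) : Period.H N k k := Period.castH N k (EH δ)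

theorem EK_apply (δ γ : Gamma0 N) : hval (EK k δ) γ = (Eform γ δ : k) := rfl

theorem EK_mul (δ δ' : Gamma0 N) : EK k (δ * δ') = EK k δ + EK k δ' := by
  rw [EK, EH_mul, map_add]; rfl

/-- From functionals on `H N k` to `H N k`. -/
def Pmap : Module.Dual k (Period.H N k k) →ₗ[k] Period.H N k k where
  toFun Λ := ⟨AddMonoidHom.mk' (fun δ => Λ (EK k (Additive.toMul δ)))
      (fun a b => by rw [toMul_add, EK_mul, map_add]),
    ⟨fun δ hδ => by
      show Λ (EK k δ) = 0
      rw [EK, EH_eq_zero (Or.inl hδ), map_zero, map_zero],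
    fun δ hδ => by
      show Λ (EK k δ) = 0
      rw [EK, EH_eq_zero (Or.inr hδ), map_zero, map_zero]⟩⟩
  map_add' _ _ := rfl
  map_smul' _ _ := rfl

theorem Pmap_apply (Λ : Module.Dual k (Period.H N k k)) (δ : Gamma0 N) :
    hval (Pmap k Λ) δ = Λ (EK k δ) := rfl

variable {k}

theorem exists_potential {g : SL(2, ℤ)} {f : Cosets N → k}
    (hf : Period.orbitSum k g f = 0) : ∃ e : Cosets N → k, ∀ x, e (g • x) - e x = f x := by
  classical
  have hsame : ∀ (o : Cosets N) (a b : ℕ), g ^ a • o = g ^ b • o →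
      ∑ i ∈ Finset.range a, f (g ^ i • o) = ∑ i ∈ Finset.range b, f (g ^ i • o) := by
    intro o a b h
    wlog hab : a ≤ b generalizing a b
    · exact (this b a h.symm (le_of_not_ge hab)).symm
    obtain ⟨c, rfl⟩ := Nat.exists_eq_add_of_le hab
    have hc : g ^ c • g ^ a • o = g ^ a • o := by
      rw [← mul_smul, ← pow_add, add_comm c a]; exact h.symm
    rw [Finset.sum_range_add]
    simp only [add_comm a, pow_add, mul_smul]
    rw [Period.sum_range_eq_zero_of_orbitSum hf hc, add_zero]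
  let o : Cosets N → Cosets N := fun x => (Period.toOrbit g x).out
  have hex : ∀ x, ∃ n : ℕ, g ^ n • o x = x := by
    intro x
    obtain ⟨n, hn⟩ := Period.toOrbit_eq_iff.mp
      (show Period.toOrbit g x = Period.toOrbit g (o x) from (Quotient.out_eq' _).symm)
    set m := Function.minimalPeriod (g • ·) (o x) with hm
    have hpos : 0 < m := Period.period_pos g (o x)
    refine ⟨(n % m).toNat, ?_⟩
    rw [← zpow_natCast, Int.toNat_of_nonneg (Int.emod_nonneg _ (by omega)), hm,
      MulAction.zpow_smul_mod_minimalPeriod, hn]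
  choose n hn using hex
  refine ⟨fun x => ∑ i ∈ Finset.range (n x), f (g ^ i • o x), fun x => ?_⟩
  have ho : o (g • x) = o x := by simp only [o, Period.toOrbit_smul]
  show ∑ i ∈ Finset.range (n (g • x)), f (g ^ i • o (g • x)) -
    ∑ i ∈ Finset.range (n x), f (g ^ i • o x) = f x
  rw [ho, hsame (o x) (n (g • x)) (n x + 1)
    (by
      have h1 := hn (g • x)
      rw [ho] at h1
      rw [h1, pow_succ', mul_smul, hn x]),
    Finset.sum_range_succ, hn x]
  ring

theorem isOfFinOrder_S : IsOfFinOrder S :=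
  isOfFinOrder_iff_pow_eq_one.mpr ⟨4, by norm_num, by
    rw [show 4 = 2 * 2 from rfl, pow_mul, Period.S_sq, neg_one_sq]⟩

theorem isOfFinOrder_genU : IsOfFinOrder genU :=
  isOfFinOrder_iff_pow_eq_one.mpr ⟨6, by norm_num, by
    rw [show 6 = 3 * 2 from rfl, pow_mul, Period.genU_pow_three, neg_one_sq]⟩

/-- A function on cosets representing a character. -/
theorem exists_rep (φ : Period.H N k k) : ∃ D : Cosets N → k,
    (∀ γ : Gamma0 N, ∑ x, (c5 N (γ : SL(2, ℤ)) (baseCoset N) x : k) * D x = hval φ γ) ∧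
    ∀ H : Cosets N → k, (∀ x, H (T • x) = H x) → ∑ x, H x * (D x - D (S • x)) = 0 := by
  classical
  set c : SL(2, ℤ) → Cosets N → k := fun g x => Period.cocycleAt N k g (φ, 0) x with hc
  have hcc : IsCosetCocycle c := Period.isCosetCocycle_cocycleAt _
  obtain ⟨d, hd⟩ := exists_potential (g := S) (f := c S)
    (Period.orbitSum_cocycleAt_finOrder _ isOfFinOrder_S)
  obtain ⟨w, hw⟩ := exists_potential (g := genU) (f := c genU)
    (Period.orbitSum_cocycleAt_finOrder _ isOfFinOrder_genU)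
  obtain ⟨e, he⟩ := exists_potential (g := T) (f := c T) (Period.orbitSum_cocycleAt_T _)
  set D : Cosets N → k := fun x => w x - d x with hD
  have hcT : ∀ y, c T y = D (T • y) - D (S • y) + d (T • y) - d y := by
    intro y
    have h1 : c T y = c genU (S • y) + c S y := Period.cocycleAt_T_eq _ y
    rw [h1, ← hw, ← hd, hD, Period.T_smul_eq]
    ring
  refine ⟨D, fun γ => ?_, fun H hH => ?_⟩
  · set E : Cosets N → k := fun y => -D (S • y) - d y with hE
    set c' : SL(2, ℤ) → Cosets N → k := fun h y =>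
      (∑ x, (c5 N h y x : k) * D x) - c h y - (E (h • y) - E y) with hc'
    have hc'c : IsCosetCocycle c' := by
      intro g h y
      simp only [hc', c5_cocycle g h y, hcc g h y, Pi.add_apply, Int.cast_add, add_mul,
        Finset.sum_add_distrib, mul_smul]
      ring
    have hdlt : ∀ y, ∑ x, (dlt y x : k) * D x = D y := by
      intro y
      rw [Finset.sum_eq_single y]
      · simp [dlt]
      · intro x _ hx; simp [dlt, hx]
      · intro h; exact absurd (Finset.mem_univ y) h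
    have hS' : ∀ y, c' S y = 0 := by
      intro y
      simp only [hc', c5_S, Int.cast_sub, sub_mul, Finset.sum_sub_distrib, hdlt, hE, S_smul_smul]
      rw [← hd y]; ring
    have hTz : ∀ y, c' T y = 0 := by
      intro y
      simp only [hc', c5_T, Int.cast_sub, sub_mul, Finset.sum_sub_distrib, hdlt, hE, hcT]
      ring
    have hU' : ∀ y, c' genU y = 0 := by
      intro y
      rw [genU, hc'c, hTz, hS', add_zero]
    have h0 := hc'c.eq_zero_of_S_of_genU hS' hU' (γ : SL(2, ℤ)) (baseCoset N)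
    simp only [hc', Period.Gamma0_smul_baseCoset, sub_self, sub_zero, sub_eq_zero] at h0
    rw [h0]
    simp only [hc]
    rw [Period.cocycleAt_apply, Period.twist_baseCoset]
    simp [hval]
  · have h1 : ∑ x, H x * c T x = 0 := by
      simp only [← he, mul_sub, Finset.sum_sub_distrib, sub_eq_zero]
      exact Fintype.sum_equiv (MulAction.toPerm T) _ _ fun x => by
        simp [MulAction.toPerm_apply, hH]
    have h2 : ∀ F : Cosets N → k, ∑ x, H x * F (T • x) = ∑ x, H x * F x := fun F =>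
      Fintype.sum_equiv (MulAction.toPerm T) _ _ fun x => by simp [MulAction.toPerm_apply, hH]
    simp only [hcT, mul_sub, mul_add, Finset.sum_sub_distrib, Finset.sum_add_distrib, h2] at h1
    simp only [mul_sub, Finset.sum_sub_distrib]
    linear_combination h1

/-- Poincaré duality: the intersection form is nondegenerate. -/
theorem Pmap_injective : Function.Injective (Pmap (N := N) k) := by
  classical
  rw [injective_iff_map_eq_zero]
  intro Λ hΛ
  set ξ : Fin (Period.rankH N) → k := fun i => Λ (Period.basisH N k i) with hξ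
  have hrep : ∀ φ : Period.H N k k, Λ φ = ∑ i, ξ i * hval φ (Period.gen N i) := by
    intro φ
    conv_lhs => rw [← (Period.basisH N k).sum_repr φ]
    rw [map_sum]
    refine Finset.sum_congr rfl fun i _ => ?_
    rw [map_smul, smul_eq_mul, mul_comm]
    simp [hξ, Period.basisH, hval, Period.evalEquiv_apply]
  set FX : SL(2, ℤ) → SL(2, ℤ) → k := fun g g' => ∑ i, ξ i * (Psi (Period.gen N i) g g' : k) with hFX
  have hadd : ∀ g g' g'', FX g g'' = FX g g' + FX g' g'' := by
    intro g g' g''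
    simp only [hFX, Psi_add _ g g' g'', Int.cast_add, mul_add, Finset.sum_add_distrib]
  have hδ : ∀ δ : Gamma0 N, FX 1 (δ : SL(2, ℤ)) = 0 := by
    intro δ
    have h := congrArg (fun φ => hval φ δ) hΛ
    simp only [Pmap_apply, hrep] at h
    exact h.trans (by simp [hval])
  set H : Cosets N → k := fun x => FX 1 (x.out)⁻¹ with hH
  have hHg : ∀ g : SL(2, ℤ), H (g⁻¹ • baseCoset N) = FX 1 g := by
    intro g
    set r := (g⁻¹ • baseCoset N).out with hr
    have h1 : g * r ∈ Gamma0 N := by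
      have e := QuotientGroup.out_eq' (g⁻¹ • baseCoset N)
      rw [← hr] at e
      change (r : Cosets N) = ((g⁻¹ * 1 : SL(2, ℤ)) : Cosets N) at e
      rw [mul_one, eq_comm, QuotientGroup.eq, inv_inv] at e
      exact e
    set ε : Gamma0 N := ⟨g * r, h1⟩ with hε
    rw [hadd 1 (ε : SL(2, ℤ)) g, hδ, zero_add]
    show FX 1 r⁻¹ = _
    simp only [hFX]
    refine Finset.sum_congr rfl fun i _ => ?_
    rw [← Psi_invariant (Period.gen N i) ε 1 r⁻¹, mul_one]
    simp [hε]
  have hHT : ∀ x, H (T • x) = H x := by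
    intro x
    have e : T • x = ((x.out)⁻¹ * T⁻¹)⁻¹ • baseCoset N := by
      rw [mul_inv_rev, inv_inv, inv_inv, mul_smul, Period.exists_smul_baseCoset]
    have h1 : sv T⁻¹ vec1 = vec1 := by
      have := sv_T_zpow (-1); simpa using this
    rw [e, hHg]
    simp only [hH, hFX, Psi, sv_mul, h1]
  have hHS : ∀ g : SL(2, ℤ), H (g⁻¹ • baseCoset N) - H (S • g⁻¹ • baseCoset N) =
      ∑ i, ξ i * (c5 N (Period.gen N i : SL(2, ℤ)) (baseCoset N) (g⁻¹ • baseCoset N) : k) := by
    intro g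
    have e : S • g⁻¹ • baseCoset N = (g * S⁻¹)⁻¹ • baseCoset N := by
      rw [mul_inv_rev, inv_inv, mul_smul]
    have h1 : sv S⁻¹ vec1 = -vec2 := by
      simp [sv, act, vec1, vec2, Matrix.SpecialLinearGroup.coe_inv, ModularGroup.coe_S,
        Matrix.adjugate_fin_two_of]
    rw [e, hHg, hHg, hadd 1 (g * S⁻¹) g, add_sub_cancel_left]
    simp only [hFX]
    refine Finset.sum_congr rfl fun i _ => ?_
    congr 2
    refine mul_left_cancel₀ (four_ne_zero : (4 : ℤ) ≠ 0) ?_
    rw [four_mul_Psi, ← cc_gamma0, cc_baseCoset, sv_mul, h1]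
    simp only [sv, act_neg_vec, Phi_neg_left]
  refine LinearMap.ext fun φ => ?_
  rw [LinearMap.zero_apply, hrep]
  obtain ⟨D, hD1, hD2⟩ := exists_rep φ
  calc ∑ i, ξ i * hval φ (Period.gen N i)
      = ∑ i, ξ i * ∑ x, (c5 N (Period.gen N i : SL(2, ℤ)) (baseCoset N) x : k) * D x :=
        Finset.sum_congr rfl fun i _ => by rw [hD1]
    _ = ∑ x, (∑ i, ξ i * (c5 N (Period.gen N i : SL(2, ℤ)) (baseCoset N) x : k)) * D x := by
        simp only [Finset.mul_sum, Finset.sum_mul, mul_assoc]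
        exact Finset.sum_comm
    _ = ∑ x, (H x - H (S • x)) * D x := by
        refine Finset.sum_congr rfl fun x _ => ?_
        refine congrArg (· * D x) ?_
        have e' : x = ((x.out)⁻¹)⁻¹ • baseCoset N := by
          rw [inv_inv, Period.exists_smul_baseCoset]
        rw [e', hHS]
    _ = ∑ x, H x * (D x - D (S • x)) := by
        simp only [sub_mul, mul_sub, Finset.sum_sub_distrib]
        refine congrArg (_ - ·) ?_
        exact Fintype.sum_equiv (MulAction.toPerm S) _ _ fun x => by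
          simp [MulAction.toPerm_apply, S_smul_smul]
    _ = 0 := hD2 H hHT

end FLTAgent.Ihara
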