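import Fermat.Agent.Ihara.Degeneracy

/-!
# The sign function on pairs of integral vectors

`sig u v = sign ((u · v) det (u, v))` and its translates `Lfun`. Main facts: right multiplication by
a matrix of positive determinant changes `Lfun` at finitely many elements (`finite_Lfun_ne`), and
the cyclic sum over three vectors is the orientation sign outside a finite set (`finite_tri_ne`).
These are the inputs for the intersection form of `Pairing.lean`.
-/

set_option autoImplicit false

open scoped MatrixGroups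
open FLTAgent.HeckeH (M2)

noncomputable section

namespace FLTAgent.Ihara

/-- Integral column vectors. -/
abbrev Vec : Type := ℤ × ℤ

/-- A matrix applied to a vector. -/
def act (M : M2) (u : Vec) : Vec :=
  (M 0 0 * u.1 + M 0 1 * u.2, M 1 0 * u.1 + M 1 1 * u.2)

theorem act_mul (A B : M2) (u : Vec) : act (A * B) u = act A (act B u) := by
  simp only [act, Matrix.mul_apply, Fin.sum_univ_two]
  exact Prod.ext (by ring) (by ring)

theorem act_one (u : Vec) : act 1 u = u := by simp [act]

theorem act_neg (A : M2) (u : Vec) : act (-A) u = -act A u := by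
  simp only [act, Matrix.neg_apply]
  exact Prod.ext (by simp; ring) (by simp; ring)

/-- The scalar product. -/
def dotV (u v : Vec) : ℤ := u.1 * v.1 + u.2 * v.2

/-- The determinant. -/
def detV (u v : Vec) : ℤ := u.1 * v.2 - u.2 * v.1

theorem detV_act (M : M2) (u v : Vec) : detV (act M u) (act M v) = M.det * detV u v := by
  simp only [detV, act, Matrix.det_fin_two]; ring

theorem dotV_sq_add (u v : Vec) :
    dotV u v ^ 2 + detV u v ^ 2 = dotV u u * dotV v v := by
  simp only [dotV, detV]; ring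

theorem dotV_self_pos {u : Vec} (hu : u ≠ 0) : 0 < dotV u u := by
  obtain ⟨a, b⟩ := u
  rcases ne_or_eq a 0 with ha | rfl
  · have : 0 < a * a := mul_self_pos.mpr ha
    have := mul_self_nonneg b
    simp only [dotV]; omega
  · have hb : b ≠ 0 := fun h => hu (by simp [h])
    have : 0 < b * b := mul_self_pos.mpr hb
    simp only [dotV]; omega

/-- The sign function. -/
def sig (u v : Vec) : ℤ := (dotV u v * detV u v).sign

theorem sig_self (u : Vec) : sig u u = 0 := by simp [sig, detV, mul_comm]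

theorem sig_swap (u v : Vec) : sig v u = -sig u v := by
  rw [sig, sig, ← Int.sign_neg]
  congr 1
  simp only [dotV, detV]; ring

theorem sig_neg_left (u v : Vec) : sig (-u) v = sig u v := by
  simp only [sig, dotV, detV, Prod.fst_neg, Prod.snd_neg]
  congr 1; ring

theorem sig_neg_right (u v : Vec) : sig u (-v) = sig u v := by
  simp only [sig, dotV, detV, Prod.fst_neg, Prod.snd_neg]
  congr 1; ring

/-- The sign function transported by a matrix. -/
def Lfun (u v : Vec) (M : M2) : ℤ := sig (act M.adjugate u) (act M.adjugate v)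

theorem Lfun_mul_left (u v : Vec) (P M : M2) :
    Lfun u v (P * M) = Lfun (act P.adjugate u) (act P.adjugate v) M := by
  rw [Lfun, Lfun, Matrix.adjugate_mul_distrib, act_mul, act_mul]

theorem Lfun_neg (u v : Vec) (M : M2) : Lfun u v (-M) = Lfun u v M := by
  have h : (-M).adjugate = -M.adjugate := by
    rw [Matrix.adjugate_fin_two, Matrix.adjugate_fin_two]
    ext i j
    fin_cases i <;> fin_cases j <;> simp
  rw [Lfun, Lfun, h, act_neg, act_neg, sig_neg_left, sig_neg_right]

theorem Lfun_mul_rot (u v : Vec) (M : M2) : Lfun u v (M * !![0, -1; 1, 0]) = Lfun u v M := by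
  rw [Lfun, Lfun, Matrix.adjugate_mul_distrib, act_mul, act_mul, Matrix.adjugate_fin_two_of]
  generalize act M.adjugate u = a
  generalize act M.adjugate v = b
  simp only [sig, dotV, detV, act, Matrix.of_apply, Matrix.cons_val', Matrix.cons_val_zero,
    Matrix.cons_val_one, Matrix.cons_val_fin_one]
  congr 1; ring

/-- The vectors of bounded size. -/
theorem finite_small (R : ℤ) : {a : Vec | dotV a a ≤ R}.Finite := by
  refine ((Set.finite_Icc (-R) R).prod (Set.finite_Icc (-R) R)).subset ?_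
  rintro ⟨a, b⟩ h
  simp only [dotV, Set.mem_ofPred_eq] at h
  have ha : |a| ≤ a * a := by
    rw [← abs_mul_abs_self]
    rcases (abs_nonneg a).eq_or_lt with h0 | h0
    · rw [← h0]; norm_num
    · exact le_mul_of_one_le_left h0.le h0
  have hb : |b| ≤ b * b := by
    rw [← abs_mul_abs_self]
    rcases (abs_nonneg b).eq_or_lt with h0 | h0
    · rw [← h0]; norm_num
    · exact le_mul_of_one_le_left h0.le h0
  have := mul_self_nonneg a
  have := mul_self_nonneg b
  exact ⟨⟨by linarith [neg_abs_le a], by linarith [le_abs_self a]⟩,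
    ⟨by linarith [neg_abs_le b], by linarith [le_abs_self b]⟩⟩

theorem detV_coe (u v : Vec) (g : SL(2, ℤ)) :
    detV (act (g : M2).adjugate u) (act (g : M2).adjugate v) = detV u v := by
  rw [detV_act, Matrix.det_adjugate, g.2]; simp

/-- The elements moving two independent vectors into a bounded region are finitely many. -/
theorem finite_of_bounded {u v : Vec} (hD : detV u v ≠ 0) (R : ℤ) :
    {g : SL(2, ℤ) | dotV (act (g : M2).adjugate u) (act (g : M2).adjugate u) ≤ R ∧
      dotV (act (g : M2).adjugate v) (act (g : M2).adjugate v) ≤ R}.Finite := by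
  refine Set.Finite.subset (Set.Finite.preimage (f := fun g : SL(2, ℤ) =>
    (act (g : M2).adjugate u, act (g : M2).adjugate v)) ?_
      ((finite_small R).prod (finite_small R))) fun g hg => hg
  intro g _ g' _ h
  simp only [Prod.mk.injEq, act, Matrix.adjugate_fin_two, Matrix.of_apply, Matrix.cons_val',
    Matrix.cons_val_zero, Matrix.cons_val_one, Matrix.cons_val_fin_one] at h
  obtain ⟨⟨h1, h2⟩, h3, h4⟩ := h
  refine Matrix.SpecialLinearGroup.ext _ _ fun i j => ?_
  have hD' : u.1 * v.2 - u.2 * v.1 ≠ 0 := hD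
  fin_cases i <;> fin_cases j <;> apply mul_left_cancel₀ hD' <;> simp only [Fin.isValue, Fin.zero_eta, Fin.mk_one]
  · linear_combination u.1 * h4 - v.1 * h2
  · linear_combination u.1 * (-h3) - v.1 * (-h1)
  · linear_combination v.2 * (-h2) - u.2 * (-h4)
  · linear_combination v.2 * h1 - u.2 * h3

theorem sign_mul_eq_of_pos {x y D e : ℤ} (he : 0 < e) (h : x.sign = y.sign) :
    (y * (e * D)).sign = (x * D).sign := by
  rw [Int.sign_mul, Int.sign_mul, Int.sign_mul, Int.sign_eq_one_of_pos he, h, one_mul]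

theorem mul_nonpos_of_sign_ne {x y : ℤ} (h : x.sign ≠ y.sign) : x * y ≤ 0 := by
  by_contra h0
  rw [not_le, mul_pos_iff] at h0
  rcases h0 with ⟨hx, hy⟩ | ⟨hx, hy⟩
  · exact h (by rw [Int.sign_eq_one_of_pos hx, Int.sign_eq_one_of_pos hy])
  · exact h (by rw [Int.sign_eq_neg_one_of_neg hx, Int.sign_eq_neg_one_of_neg hy])

/-- The sum of the squares of the entries. -/
def frob (P : M2) : ℤ := P 0 0 ^ 2 + P 0 1 ^ 2 + P 1 0 ^ 2 + P 1 1 ^ 2

theorem dot_bound {P : M2} (hP : 0 < P.det) {a b : Vec} (hD : detV a b ≠ 0)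
    (h : (dotV a b).sign ≠ (dotV (act P a) (act P b)).sign) :
    |dotV a b| ≤ frob P ^ 2 * |detV a b| := by
  set x := dotV a b
  set y := dotV (act P a) (act P b)
  set D := detV a b with hDdef
  set z : Vec := (-a.2, a.1) with hz
  set A := dotV (act P a) (act P a)
  set B := dotV (act P a) (act P z)
  set Z := dotV (act P z) (act P z)
  set n := dotV a a
  set C := frob P
  have hn : 0 < n := dotV_self_pos (by rintro rfl; exact hD (by simp [hDdef, detV]))
  have hid : y * n = x * A + D * B := by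
    simp only [x, y, D, A, B, n, z, dotV, detV, act]; ring
  have hAZ : A + Z = C * n := by
    simp only [A, Z, C, n, z, dotV, frob, act]; ring
  have hlag : B ^ 2 + (P.det * n) ^ 2 = A * Z := by
    simp only [A, B, Z, n, z, dotV, act, Matrix.det_fin_two]; ring
  have hA0 : 0 ≤ A := add_nonneg (mul_self_nonneg _) (mul_self_nonneg _)
  have hZ0 : 0 ≤ Z := add_nonneg (mul_self_nonneg _) (mul_self_nonneg _)
  have hC0 : 0 ≤ C := by simp only [C, frob]; positivity
  have hB : 2 * |B| ≤ C * n := by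
    nlinarith [sq_abs B, abs_nonneg B, sq_nonneg (A - Z), sq_nonneg (P.det * n)]
  have hxy := mul_nonpos_of_sign_ne h
  have h1 : x ^ 2 * A + x * D * B ≤ 0 := by
    rw [show x ^ 2 * A + x * D * B = x * y * n by linear_combination (-x) * hid]
    exact mul_nonpos_of_nonpos_of_nonneg hxy hn.le
  have h2 : |x| * A ≤ |D| * |B| := by
    rcases eq_or_ne x 0 with hx | hx
    · rw [hx, abs_zero, zero_mul]; positivity
    · refine le_of_mul_le_mul_left ?_ (abs_pos.mpr hx)
      calc |x| * (|x| * A) = x ^ 2 * A := by rw [← mul_assoc, ← sq, sq_abs]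
        _ ≤ -(x * D * B) := by linarith
        _ ≤ |x * D * B| := neg_le_abs _
        _ = |x| * (|D| * |B|) := by rw [abs_mul, abs_mul]; ring
  have hdet : (1 : ℤ) ≤ P.det ^ 2 := by nlinarith
  have hAn : n ≤ C * A := by
    refine le_of_mul_le_mul_left ?_ hn
    have : A * Z ≤ A * (C * n) := mul_le_mul_of_nonneg_left (by linarith) hA0
    nlinarith [sq_nonneg B]
  refine le_of_mul_le_mul_left ?_ hn
  calc n * |x| ≤ C * A * |x| := mul_le_mul_of_nonneg_right hAn (abs_nonneg _)
    _ = C * (|x| * A) := by ring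
    _ ≤ C * (|D| * |B|) := mul_le_mul_of_nonneg_left h2 hC0
    _ ≤ C * (|D| * (C * n)) := by
      refine mul_le_mul_of_nonneg_left (mul_le_mul_of_nonneg_left ?_ (abs_nonneg _)) hC0
      linarith [abs_nonneg B]
    _ = n * (C ^ 2 * |D|) := by ring

theorem self_le_of_dot_le {a b : Vec} {R D : ℤ} (hb : b ≠ 0) (hx : |dotV a b| ≤ R)
    (hD : detV a b = D) : dotV a a ≤ R ^ 2 + D ^ 2 := by
  have h := dotV_sq_add a b
  have h1 : 0 < dotV b b := dotV_self_pos hb
  have h2 : 0 ≤ dotV a a := add_nonneg (mul_self_nonneg _) (mul_self_nonneg _)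
  have h3 : dotV a b ^ 2 ≤ R ^ 2 := sq_le_sq' (abs_le.mp hx).1 (abs_le.mp hx).2
  rw [hD] at h
  nlinarith

/-- Right multiplication by a matrix of positive determinant changes `Lfun` at finitely many
elements only. -/
theorem finite_Lfun_ne (u v : Vec) {β : M2} (hβ : 0 < β.det) :
    {g : SL(2, ℤ) | Lfun u v ((g : M2) * β) ≠ Lfun u v (g : M2)}.Finite := by
  by_cases hD : detV u v = 0
  · refine Set.finite_empty.subset fun g hg => ?_
    refine absurd ?_ hg
    simp [Lfun, sig, detV_act, hD]
  set D := detV u v with hDdef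
  set R : ℤ := (frob β.adjugate ^ 2 * |D|) ^ 2 + D ^ 2 with hR
  refine (finite_of_bounded (u := u) (v := v) hD R).subset fun g hg => ?_
  set a := act (g : M2).adjugate u
  set b := act (g : M2).adjugate v
  have hab : detV a b = D := detV_coe u v g
  have hPdet : 0 < β.adjugate.det := by rw [Matrix.det_adjugate]; simpa using hβ
  have hsign : (dotV a b).sign ≠ (dotV (act β.adjugate a) (act β.adjugate b)).sign := by
    intro he
    refine hg ?_
    rw [Lfun, Lfun, Matrix.adjugate_mul_distrib, act_mul, act_mul]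
    show sig (act β.adjugate a) (act β.adjugate b) = sig a b
    rw [sig, sig, detV_act]
    exact sign_mul_eq_of_pos hPdet he
  have hab0 : detV a b ≠ 0 := by rw [hab]; exact hD
  have hx := dot_bound hPdet hab0 hsign
  rw [hab] at hx
  have hb : b ≠ 0 := fun h0 => hab0 (by rw [h0]; simp [detV])
  have ha : a ≠ 0 := fun h0 => hab0 (by rw [h0]; simp [detV])
  refine ⟨self_le_of_dot_le hb hx hab, ?_⟩
  have h := self_le_of_dot_le (a := b) (b := a) (R := frob β.adjugate ^ 2 * |D|) (D := -D) ha
    (by rwa [show dotV b a = dotV a b by simp [dotV, mul_comm]])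
    (by rw [← hab]; simp only [detV]; ring)
  rwa [neg_sq] at h

/-- The cyclic sum. -/
def tri (u v w : Vec) : ℤ := sig u v + sig v w + sig w u

theorem tri_eq_zero_of_parallel {u v w : Vec} (hu : u ≠ 0) (hv : v ≠ 0) (h : detV u v = 0) :
    tri u v w = 0 := by
  have h0 : sig u v = 0 := by simp [sig, h]
  have hn := dotV_self_pos hu
  have hm := dotV_self_pos hv
  have hx : dotV u v ≠ 0 := fun hx => by
    have := dotV_sq_add u v
    rw [hx, h] at this
    nlinarith [mul_pos hn hm]
  have key : dotV u u ^ 2 * (dotV v w * detV v w) = dotV u v ^ 2 * (dotV u w * detV u w) := by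
    simp only [detV] at h
    simp only [dotV, detV]
    have e1 : (u.1 * u.1 + u.2 * u.2) * v.1 = (u.1 * v.1 + u.2 * v.2) * u.1 := by
      linear_combination (-u.2) * h
    have e2 : (u.1 * u.1 + u.2 * u.2) * v.2 = (u.1 * v.1 + u.2 * v.2) * u.2 := by
      linear_combination u.1 * h
    set n := u.1 * u.1 + u.2 * u.2
    set x := u.1 * v.1 + u.2 * v.2
    calc n ^ 2 * ((v.1 * w.1 + v.2 * w.2) * (v.1 * w.2 - v.2 * w.1))
        = ((n * v.1) * w.1 + (n * v.2) * w.2) * ((n * v.1) * w.2 - (n * v.2) * w.1) := by ring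
      _ = ((x * u.1) * w.1 + (x * u.2) * w.2) * ((x * u.1) * w.2 - (x * u.2) * w.1) := by
          rw [e1, e2]
      _ = x ^ 2 * ((u.1 * w.1 + u.2 * w.2) * (u.1 * w.2 - u.2 * w.1)) := by ring
  have h1 : sig v w = sig u w := by
    have e := congrArg Int.sign key
    rw [Int.sign_mul (dotV u u ^ 2), Int.sign_mul (dotV u v ^ 2),
      Int.sign_eq_one_of_pos (a := dotV u u ^ 2) (by positivity),
      Int.sign_eq_one_of_pos (a := dotV u v ^ 2) (by positivity), one_mul, one_mul] at e
    exact e
  rw [tri, h0, h1, sig_swap u w]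
  ring

theorem tri_eq_zero {u v w : Vec} (hu : u ≠ 0) (hv : v ≠ 0) (hw : w ≠ 0)
    (h : detV u v * detV v w * detV w u = 0) : tri u v w = 0 := by
  rcases mul_eq_zero.mp h with h' | h'
  · rcases mul_eq_zero.mp h' with h'' | h''
    · exact tri_eq_zero_of_parallel hu hv h''
    · have := tri_eq_zero_of_parallel (w := u) hv hw h''
      rw [tri] at this ⊢; linarith
  · have := tri_eq_zero_of_parallel (w := v) hw hu h'
    rw [tri] at this ⊢; linarith

theorem sign_cases (x : ℤ) :
    x < 0 ∧ x.sign = -1 ∨ x = 0 ∧ x.sign = 0 ∨ 0 < x ∧ x.sign = 1 := by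
  rcases lt_trichotomy x 0 with h | h | h
  · exact Or.inl ⟨h, Int.sign_eq_neg_one_of_neg h⟩
  · exact Or.inr (Or.inl ⟨h, by rw [h]; rfl⟩)
  · exact Or.inr (Or.inr ⟨h, Int.sign_eq_one_of_pos h⟩)

theorem at_most_one_nonpos {u v w : Vec} (hv : v ≠ 0) (ε : ℤ)
    (hpos : 0 < ε * (dotV u v * detV u v) * dotV w w + ε * (dotV v w * detV v w) * dotV u u +
      ε * (dotV w u * detV w u) * dotV v v)
    (h1 : ε * (dotV u v * detV u v) ≤ 0) (h2 : ε * (dotV v w * detV v w) ≤ 0) : False := by
  set a1 := dotV u v * detV u v with ha1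
  set a2 := dotV v w * detV v w with ha2
  set a3 := dotV w u * detV w u with ha3
  have hm := dotV_self_pos hv
  have key : a3 * dotV v v ^ 2 =
      -a1 * (dotV v w ^ 2 - detV v w ^ 2) - a2 * (dotV u v ^ 2 - detV u v ^ 2) := by
    simp only [a1, a2, a3, dotV, detV]; ring
  have e1 := dotV_sq_add v w
  have e2 := dotV_sq_add u v
  have p1 : 0 ≤ -(ε * a1) * (2 * detV v w ^ 2) := mul_nonneg (by linarith) (by positivity)
  have p2 : 0 ≤ -(ε * a2) * (2 * detV u v ^ 2) := mul_nonneg (by linarith) (by positivity)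
  have h3 : ε * a3 * dotV v v ^ 2 ≤
      -(ε * a1) * (dotV v v * dotV w w) + -(ε * a2) * (dotV u u * dotV v v) := by
    rw [← e1, ← e2, mul_assoc ε a3, key]
    nlinarith
  nlinarith [mul_pos hm hpos]

/-- Outside a bounded region the cyclic sum is the sign of the orientation. -/
theorem tri_bound {u v w : Vec} (hu : u ≠ 0) (hv : v ≠ 0) (hw : w ≠ 0)
    (h : tri u v w ≠ -(detV u v * detV v w * detV w u).sign) :
    detV u v ≠ 0 ∧ |dotV u v| ≤ 2 * |detV u v * detV v w * detV w u| := by
  set P := detV u v * detV v w * detV w u with hP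
  have hP0 : P ≠ 0 := fun h0 => h (by rw [tri_eq_zero hu hv hw h0, h0]; rfl)
  have hD1 : detV u v ≠ 0 := left_ne_zero_of_mul (left_ne_zero_of_mul hP0)
  refine ⟨hD1, ?_⟩
  obtain ⟨ε, hεu, hεP, hεs⟩ : ∃ ε : ℤ, (ε = 1 ∨ ε = -1) ∧ ε * P < 0 ∧ -P.sign = ε := by
    rcases sign_cases P with ⟨h1, h2⟩ | ⟨h1, -⟩ | ⟨h1, h2⟩
    · exact ⟨1, Or.inl rfl, by linarith, by rw [h2]; rfl⟩
    · exact absurd h1 hP0
    · exact ⟨-1, Or.inr rfl, by linarith, by rw [h2]⟩
  rw [hεs] at h
  set a1 := dotV u v * detV u v with ha1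
  set a2 := dotV v w * detV v w with ha2
  set a3 := dotV w u * detV w u with ha3
  have hu' := dotV_self_pos hu
  have hv' := dotV_self_pos hv
  have hw' := dotV_self_pos hw
  have hid : ε * a1 * dotV w w + ε * a2 * dotV u u + ε * a3 * dotV v v = -(2 * (ε * P)) := by
    simp only [a1, a2, a3, P, dotV, detV]; ring
  have hpos : 0 < ε * a1 * dotV w w + ε * a2 * dotV u u + ε * a3 * dotV v v := by
    rw [hid]; linarith
  have n12 : ¬ (ε * a1 ≤ 0 ∧ ε * a2 ≤ 0) := fun ⟨x, y⟩ => at_most_one_nonpos hv ε hpos x y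
  have n23 : ¬ (ε * a2 ≤ 0 ∧ ε * a3 ≤ 0) := fun ⟨x, y⟩ =>
    at_most_one_nonpos hw ε (by linarith) x y
  have n31 : ¬ (ε * a3 ≤ 0 ∧ ε * a1 ≤ 0) := fun ⟨x, y⟩ =>
    at_most_one_nonpos hu ε (by linarith) x y
  have hall : 0 ≤ ε * a1 ∧ 0 ≤ ε * a2 ∧ 0 ≤ ε * a3 := by
    change a1.sign + a2.sign + a3.sign ≠ ε at h
    rcases hεu with rfl | rfl <;>
      rcases sign_cases a1 with ⟨x1, s1⟩ | ⟨x1, s1⟩ | ⟨x1, s1⟩ <;>
      rcases sign_cases a2 with ⟨x2, s2⟩ | ⟨x2, s2⟩ | ⟨x2, s2⟩ <;>
      rcases sign_cases a3 with ⟨x3, s3⟩ | ⟨x3, s3⟩ | ⟨x3, s3⟩ <;>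
      omega
  obtain ⟨g1, g2, g3⟩ := hall
  have b1 : ε * a1 ≤ -(2 * (ε * P)) := by
    have q2 := mul_nonneg g2 hu'.le
    have q3 := mul_nonneg g3 hv'.le
    nlinarith
  calc |dotV u v| ≤ |dotV u v| * |detV u v| :=
        le_mul_of_one_le_right (abs_nonneg _) (Int.one_le_abs hD1)
    _ = ε * a1 := by
        rw [← abs_mul, ← ha1, ← abs_of_nonneg g1]
        rcases hεu with rfl | rfl <;> simp
    _ ≤ -(2 * (ε * P)) := b1
    _ ≤ 2 * |P| := by rcases hεu with rfl | rfl <;> linarith [le_abs_self P, neg_abs_le P]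

/-- The cyclic sum is constant outside a finite set. -/
theorem finite_tri_ne {u v w : Vec} (hu : u ≠ 0) (hv : v ≠ 0) (hw : w ≠ 0) :
    {g : SL(2, ℤ) | tri (act (g : M2).adjugate u) (act (g : M2).adjugate v)
        (act (g : M2).adjugate w) ≠ -(detV u v * detV v w * detV w u).sign}.Finite := by
  have hne : ∀ (g : SL(2, ℤ)) {z : Vec}, z ≠ 0 → act (g : M2).adjugate z ≠ 0 := by
    intro g z hz h0
    refine hz ?_
    have h1 := congrArg (act (g : M2)) h0
    rw [← act_mul, Matrix.mul_adjugate, g.2, one_smul, act_one] at h1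
    rw [h1]; simp [act]
  by_cases hD : detV u v = 0
  · refine Set.finite_empty.subset fun g hg => ?_
    exact absurd hD (by
      have := (tri_bound (hne g hu) (hne g hv) (hne g hw) (by simp only [detV_coe]; exact hg)).1
      rwa [detV_coe] at this)
  set R : ℤ := (2 * |detV u v * detV v w * detV w u|) ^ 2 + detV u v ^ 2
  refine (finite_of_bounded (u := u) (v := v) hD R).subset fun g hg => ?_
  obtain ⟨-, hx⟩ := tri_bound (hne g hu) (hne g hv) (hne g hw)
    (by simp only [detV_coe]; exact hg)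
  rw [detV_coe, detV_coe, detV_coe] at hx
  refine ⟨self_le_of_dot_le (hne g hv) hx (detV_coe u v g), ?_⟩
  have h := self_le_of_dot_le (a := act (g : M2).adjugate v) (b := act (g : M2).adjugate u)
    (R := 2 * |detV u v * detV v w * detV w u|) (D := -detV u v) (hne g hu)
    (by convert hx using 2; simp [dotV, mul_comm])
    (by rw [← detV_coe u v g]; simp only [detV]; ring)
  rwa [neg_sq] at h

end FLTAgent.Ihara
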